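import Mathlib
import Fermat.Prelude.Def_GaloisRep_DeformationRingData
import Fermat.Prelude.Def_GaloisRep_DeformationCondition

set_option autoImplicit false

namespace Fermat.Agent.S53.H84

open IsLocalRing

/-- The absolute Galois group of `ℚ`. -/
abbrev Gal : Type := AlgebraicClosure ℚ ≃ₐ[ℚ] AlgebraicClosure ℚ

/-- Two by two matrices. -/
abbrev M2 (A : Type) : Type := Matrix (Fin 2) (Fin 2) A

/-- Adic continuity of a matrix valued hom. -/
def MatCont {A : Type} [CommRing A] [IsLocalRing A] (r : Gal →* M2 A) : Prop :=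
  ∀ n : ℕ, ∃ L : IntermediateField ℚ (AlgebraicClosure ℚ), FiniteDimensional ℚ L ∧
    ∀ σ : Gal, (∀ x ∈ L, σ x = x) → ∀ i j, (r σ - 1) i j ∈ maximalIdeal A ^ n

theorem mem_pow_smul_top_of_forall {A : Type} [CommRing A] (I : Ideal A) (w : Fin 2 → A)
    (h : ∀ i, w i ∈ I) : w ∈ I • (⊤ : Submodule A (Fin 2 → A)) := by
  have hw : w = ∑ i, w i • (Pi.single i (1 : A) : Fin 2 → A) := by
    funext j
    simp [Finset.sum_apply, Pi.single_apply]
  rw [hw]
  exact Submodule.sum_mem _ fun i _ => Submodule.smul_mem_smul (h i) Submodule.mem_top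

/-- The `GaloisRepAdic` attached to a continuous matrix valued hom. -/
noncomputable def matRep {A : Type} [CommRing A] [IsLocalRing A] (r : Gal →* M2 A)
    (hr : MatCont r) : GaloisRepAdic A :=
  { V := Fin 2 → A
    finrank_eq := by simp
    ρ := (Matrix.toLinAlgEquiv' : M2 A ≃ₐ[A] Module.End A (Fin 2 → A)).toAlgHom.toMonoidHom.comp r
    isAdicContinuous := by
      intro n
      obtain ⟨L, hL, h⟩ := hr n
      refine ⟨L, hL, fun σ hσ v => ?_⟩
      apply mem_pow_smul_top_of_forall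
      intro i
      have h1 : ((Matrix.toLinAlgEquiv' : M2 A ≃ₐ[A] Module.End A (Fin 2 → A)).toAlgHom.toMonoidHom.comp r) σ v - v
          = (r σ - 1).mulVec v := by
        simp [Matrix.sub_mulVec]
      rw [h1]
      simp only [Matrix.mulVec, dotProduct]
      exact Ideal.sum_mem _ fun j _ => Ideal.mul_mem_right _ _ (h σ hσ i j) }

@[simp] theorem matRep_V {A : Type} [CommRing A] [IsLocalRing A] (r : Gal →* M2 A)
    (hr : MatCont r) : (matRep r hr).V = (Fin 2 → A) := rfl

theorem matRep_ρ_apply {A : Type} [CommRing A] [IsLocalRing A] (r : Gal →* M2 A)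
    (hr : MatCont r) (σ : Gal) (v : Fin 2 → A) :
    (matRep r hr).ρ σ v = (r σ).mulVec v := rfl

section lifts

variable {𝒪 : Type} [CommRing 𝒪] [IsLocalRing 𝒪]

/-- `r` reduces to the residual matrices prescribed by the set theoretic lift `rt`. -/
def Lifts {A : Type} [CommRing A] [IsLocalRing A] [Algebra 𝒪 A] (rt : Gal → M2 𝒪)
    (r : Gal →* M2 A) : Prop :=
  ∀ σ i j, r σ i j - algebraMap 𝒪 A (rt σ i j) ∈ maximalIdeal A

/-- Linear extension of a matrix valued function to formal combinations of group elements. -/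
noncomputable def ext {A : Type} [CommRing A] [Algebra 𝒪 A] (u : Gal →₀ 𝒪) (r : Gal → M2 A) :
    M2 A :=
  u.sum fun g c => c • r g

/-- The slice conditions. -/
def InSlice {A : Type} [CommRing A] [Algebra 𝒪 A] (u : Gal →₀ 𝒪) (g₀ : Gal)
    (r : Gal →* M2 A) : Prop :=
  ext u r 1 0 = 0 ∧ r g₀ 0 0 = 0 ∧ r g₀ 1 0 = 1

/-- Compatibility data between the set theoretic lift `rt` and the slice `(u, g₀)`. -/
structure SliceData (rt : Gal → M2 𝒪) (u : Gal →₀ 𝒪) (g₀ : Gal) : Prop where
  U10 : ext u rt 1 0 ∈ maximalIdeal 𝒪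
  Une : ext u rt 0 0 - ext u rt 1 1 ∉ maximalIdeal 𝒪
  g00 : rt g₀ 0 0 ∈ maximalIdeal 𝒪
  g10 : rt g₀ 1 0 - 1 ∈ maximalIdeal 𝒪

end lifts

end Fermat.Agent.S53.H84
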