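import Mathlib
import Fermat.Agent.S53.Defs

set_option autoImplicit false

namespace Fermat.Agent.S53.H84

open IsLocalRing

/-- Index type of the variables of the big polynomial ring. -/
abbrev PIdx : Type := Gal × Fin 2 × Fin 2

/-- The big polynomial ring on the matrix entries of all group elements. -/
abbrev PRing (𝒪 : Type) [CommRing 𝒪] : Type := MvPolynomial PIdx 𝒪

section

variable {𝒪 : Type} [CommRing 𝒪]

/-- Evaluation of the big polynomial ring at a matrix valued function. -/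
noncomputable def evalP {A : Type} [CommRing A] [Algebra 𝒪 A] (r : Gal → M2 A) :
    PRing 𝒪 →ₐ[𝒪] A :=
  MvPolynomial.aeval fun x : PIdx => r x.1 x.2.1 x.2.2

@[simp] theorem evalP_X {A : Type} [CommRing A] [Algebra 𝒪 A] (r : Gal → M2 A) (σ : Gal)
    (i j : Fin 2) : evalP (𝒪 := 𝒪) r (MvPolynomial.X (σ, i, j)) = r σ i j := by
  simp [evalP]

@[simp] theorem evalP_C {A : Type} [CommRing A] [Algebra 𝒪 A] (r : Gal → M2 A) (c : 𝒪) :
    evalP (𝒪 := 𝒪) r (MvPolynomial.C c) = algebraMap 𝒪 A c := by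
  simp [evalP]

theorem comp_evalP {A B : Type} [CommRing A] [Algebra 𝒪 A] [CommRing B] [Algebra 𝒪 B]
    (φ : A →ₐ[𝒪] B) (r : Gal → M2 A) :
    φ.comp (evalP r) = evalP (fun g => (φ : A →+* B).mapMatrix (r g)) := by
  apply MvPolynomial.algHom_ext
  rintro ⟨σ, i, j⟩
  simp

variable [IsLocalRing 𝒪]

/-- The maximal ideal of the big polynomial ring cut out by the residual matrices. -/
noncomputable def mP (rt : Gal → M2 𝒪) : Ideal (PRing 𝒪) :=
  RingHom.ker (evalP (A := ResidueField 𝒪) fun g => (residue 𝒪).mapMatrix (rt g))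

variable (𝒟 : ∀ ⦃A : Type⦄ [CommRing A] [IsLocalRing A] [Algebra 𝒪 A], GaloisRepAdic A → Prop)
variable (rt : Gal → M2 𝒪) (u : Gal →₀ 𝒪) (g₀ : Gal)

/-- `(A, r)` is a finite slice deformation of type `𝒟`. -/
structure IsDef (A : Type) [CommRing A] [IsLocalRing A] [Algebra 𝒪 A] (r : Gal →* M2 A) :
    Prop where
  art : GaloisRep.IsArtinianTestAlgebra 𝒪 A
  fin : Finite A
  cont : MatCont r
  lifts : Lifts rt r
  slice : InSlice u g₀ r
  isD : ∀ hr : MatCont r, 𝒟 (matRep r hr)

/-- The family of ideals of the big polynomial ring realised by finite slice deformations. -/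
def Good (J : Ideal (PRing 𝒪)) : Prop :=
  ∃ (A : Type) (_ : CommRing A) (_ : IsLocalRing A) (_ : Algebra 𝒪 A) (r : Gal →* M2 A),
    IsDef 𝒟 rt u g₀ A r ∧ RingHom.ker (evalP (𝒪 := 𝒪) r) = J

end

end Fermat.Agent.S53.H84
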