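import Mathlib
import Fermat.Agent.S53.Defs

set_option autoImplicit false

namespace Fermat.Agent.S53.H84

open IsLocalRing

section

variable {𝒪 : Type} [CommRing 𝒪]

theorem ext_apply {A : Type} [CommRing A] [Algebra 𝒪 A] (u : Gal →₀ 𝒪) (r : Gal → M2 A)
    (i j : Fin 2) : ext u r i j = u.sum fun g c => algebraMap 𝒪 A c * r g i j := by
  unfold ext
  simp only [Finsupp.sum, Matrix.sum_apply, Matrix.smul_apply]
  simp only [Algebra.smul_def]

theorem mul_ext {A : Type} [CommRing A] [Algebra 𝒪 A] (u : Gal →₀ 𝒪) (r : Gal → M2 A)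
    (M : M2 A) : M * ext u r = ext u (fun g => M * r g) := by
  unfold ext
  simp only [Finsupp.sum, Finset.mul_sum, Matrix.mul_smul]

theorem ext_mul {A : Type} [CommRing A] [Algebra 𝒪 A] (u : Gal →₀ 𝒪) (r : Gal → M2 A)
    (M : M2 A) : ext u r * M = ext u (fun g => r g * M) := by
  unfold ext
  simp only [Finsupp.sum, Finset.sum_mul, Matrix.smul_mul]

theorem ext_map {A B : Type} [CommRing A] [Algebra 𝒪 A] [CommRing B] [Algebra 𝒪 B]
    (φ : A →ₐ[𝒪] B) (u : Gal →₀ 𝒪) (r : Gal → M2 A) :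
    ext u (fun g => (φ : A →+* B).mapMatrix (r g)) = (φ : A →+* B).mapMatrix (ext u r) := by
  ext i j
  rw [ext_apply, RingHom.mapMatrix_apply, Matrix.map_apply, ext_apply]
  simp only [Finsupp.sum, map_sum, map_mul, RingHom.mapMatrix_apply, Matrix.map_apply]
  refine Finset.sum_congr rfl fun g _ => ?_
  simp

theorem ext_lifts {A : Type} [CommRing A] [IsLocalRing A] [Algebra 𝒪 A] {rt : Gal → M2 𝒪}
    {r : Gal →* M2 A} (hl : Lifts rt r) (u : Gal →₀ 𝒪) (i j : Fin 2) :
    ext u r i j - algebraMap 𝒪 A (ext u rt i j) ∈ maximalIdeal A := by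
  rw [ext_apply, ext_apply]
  simp only [Finsupp.sum, map_sum, map_mul, ← Finset.sum_sub_distrib]
  refine Ideal.sum_mem _ fun g _ => ?_
  have : algebraMap 𝒪 A (u g) * r g i j
      - algebraMap 𝒪 A ((algebraMap 𝒪 𝒪) (u g)) * algebraMap 𝒪 A (rt g i j)
      = algebraMap 𝒪 A (u g) * (r g i j - algebraMap 𝒪 A (rt g i j)) := by
    simp [mul_sub]
  rw [this]
  exact Ideal.mul_mem_left _ _ (hl g i j)

variable [IsLocalRing 𝒪]

/-- Uniqueness in the slice: two slice lifts conjugate by an invertible matrix are equal. -/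
theorem slice_unique {A : Type} [CommRing A]
    [IsLocalRing A] [Algebra 𝒪 A] [IsLocalHom (algebraMap 𝒪 A)]
    {rt : Gal → M2 𝒪} {u : Gal →₀ 𝒪} {g₀ : Gal} (hs : SliceData rt u g₀)
    (r r' : Gal →* M2 A) (hl : Lifts rt r) (hl' : Lifts rt r')
    (hsl : InSlice u g₀ r) (hsl' : InSlice u g₀ r')
    (M : M2 A) (hM : IsUnit M.det) (hconj : ∀ σ, M * r σ = r' σ * M) : r = r' := by
  obtain ⟨hU10, hg00, hg10⟩ := hsl
  obtain ⟨hU10', hg00', hg10'⟩ := hsl'
  have hMU : M * ext u r = ext u r' * M := by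
    rw [mul_ext, ext_mul]
    congr 1
    funext g
    exact hconj g
  -- the unit
  have hunit : IsUnit (ext u r 0 0 - ext u r' 1 1) := by
    by_contra hnu
    have hmem : ext u r 0 0 - ext u r' 1 1 ∈ maximalIdeal A := hnu
    have h1 := ext_lifts hl u 0 0
    have h2 := ext_lifts hl' u 1 1
    have h3 : algebraMap 𝒪 A (ext u rt 0 0 - ext u rt 1 1) ∈ maximalIdeal A := by
      have : algebraMap 𝒪 A (ext u rt 0 0 - ext u rt 1 1)
          = (ext u r 0 0 - ext u r' 1 1) - (ext u r 0 0 - algebraMap 𝒪 A (ext u rt 0 0))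
            + (ext u r' 1 1 - algebraMap 𝒪 A (ext u rt 1 1)) := by
        rw [map_sub]; ring
      rw [this]
      exact Ideal.add_mem _ (Ideal.sub_mem _ hmem h1) h2
    have h4 : IsUnit (ext u rt 0 0 - ext u rt 1 1) := by
      by_contra h
      exact hs.Une h
    exact h3 (h4.map (algebraMap 𝒪 A))
  have e10 := congrFun (congrFun hMU 1) 0
  simp only [Matrix.mul_apply, Fin.sum_univ_two] at e10
  rw [hU10, hU10'] at e10
  have hM10 : M 1 0 = 0 := by
    have : M 1 0 * (ext u r 0 0 - ext u r' 1 1) = 0 := by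
      linear_combination e10
    exact (hunit.mul_left_eq_zero).mp this
  have hg := hconj g₀
  have f00 := congrFun (congrFun hg 0) 0
  have f10 := congrFun (congrFun hg 1) 0
  simp only [Matrix.mul_apply, Fin.sum_univ_two] at f00 f10
  rw [hg00, hg10, hg00', hM10] at f00
  rw [hg00, hg10, hg10', hM10] at f10
  have hM01 : M 0 1 = 0 := by linear_combination f00
  have hM11 : M 1 1 = M 0 0 := by linear_combination f10
  have hMscal : M = M 0 0 • (1 : M2 A) := by
    ext i j
    fin_cases i <;> fin_cases j <;> simp [hM10, hM01, hM11]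
  have hdet : M.det = M 0 0 * M 0 0 := by
    rw [Matrix.det_fin_two, hM10, hM01, hM11]; ring
  have hu00 : IsUnit (M 0 0) := by
    rw [hdet] at hM
    exact isUnit_of_mul_isUnit_left hM
  ext σ i j
  have h := congrFun (congrFun (hconj σ) i) j
  rw [hMscal] at h
  simp only [Matrix.smul_mul, Matrix.mul_smul, Matrix.one_mul, Matrix.mul_one,
    Matrix.smul_apply, smul_eq_mul] at h
  exact hu00.mul_left_cancel h

end

end Fermat.Agent.S53.H84
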