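import Mathlib
import Fermat.Agent.S53.Defs
import Fermat.Agent.S53.Slice
import Fermat.Agent.S53.Family0

set_option autoImplicit false

namespace Fermat.Agent.S53.FamilyM

open IsLocalRing Fermat.Agent.S53.H84

variable {𝒪 : Type} [CommRing 𝒪] [IsLocalRing 𝒪]
variable {𝒟 : ∀ ⦃A : Type⦄ [CommRing A] [IsLocalRing A] [Algebra 𝒪 A], GaloisRepAdic A → Prop}
variable {rt : Gal → M2 𝒪} {u : Gal →₀ 𝒪} {g₀ : Gal}

/-! ### The maximal ideal `mP` -/

/-- The residual evaluation map. -/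
noncomputable abbrev evalBar (rt : Gal → M2 𝒪) : PRing 𝒪 →ₐ[𝒪] ResidueField 𝒪 :=
  evalP (A := ResidueField 𝒪) fun g => (residue 𝒪).mapMatrix (rt g)

theorem mem_mP_iff (rt : Gal → M2 𝒪) (p : PRing 𝒪) : p ∈ mP rt ↔ evalBar rt p = 0 :=
  Iff.rfl

theorem evalBar_C (rt : Gal → M2 𝒪) (c : 𝒪) :
    evalBar rt (MvPolynomial.C c) = residue 𝒪 c := by
  rw [evalP_C]
  rfl

theorem evalBar_X (rt : Gal → M2 𝒪) (σ : Gal) (i j : Fin 2) :
    evalBar rt (MvPolynomial.X (σ, i, j)) = residue 𝒪 (rt σ i j) := by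
  rw [evalP_X]
  rfl

theorem evalBar_surjective (rt : Gal → M2 𝒪) : Function.Surjective (evalBar rt) := by
  intro x
  obtain ⟨c, rfl⟩ := residue_surjective x
  exact ⟨MvPolynomial.C c, evalBar_C rt c⟩

theorem mP_isMaximal (rt : Gal → M2 𝒪) : (mP rt).IsMaximal :=
  RingHom.ker_isMaximal_of_surjective (evalBar rt : PRing 𝒪 →+* ResidueField 𝒪)
    (evalBar_surjective rt)

theorem C_mem_mP (rt : Gal → M2 𝒪) {c : 𝒪} (hc : c ∈ maximalIdeal 𝒪) :
    (MvPolynomial.C c : PRing 𝒪) ∈ mP rt := by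
  rw [mem_mP_iff, evalBar_C]
  exact (residue_eq_zero_iff c).mpr hc

theorem X_sub_C_mem_mP (rt : Gal → M2 𝒪) (σ : Gal) (i j : Fin 2) :
    (MvPolynomial.X (σ, i, j) - MvPolynomial.C (rt σ i j) : PRing 𝒪) ∈ mP rt := by
  rw [mem_mP_iff, map_sub, evalBar_C, evalBar_X, sub_self]

theorem exists_C_sub_mem_mP (rt : Gal → M2 𝒪) (p : PRing 𝒪) :
    ∃ c : 𝒪, p - MvPolynomial.C c ∈ mP rt := by
  obtain ⟨c, hc⟩ := residue_surjective (evalBar rt p)
  refine ⟨c, ?_⟩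
  rw [mem_mP_iff, map_sub, evalBar_C, hc, sub_self]

theorem residue_comp_evalP {A : Type} [CommRing A] [IsLocalRing A] [Algebra 𝒪 A]
    [IsLocalHom (algebraMap 𝒪 A)] {r : Gal →* M2 A} (hl : Lifts rt r) :
    (residue A).comp (evalP (𝒪 := 𝒪) r : PRing 𝒪 →+* A) =
      (ResidueField.map (algebraMap 𝒪 A)).comp (evalBar rt : PRing 𝒪 →+* ResidueField 𝒪) := by
  apply MvPolynomial.ringHom_ext
  · intro c
    simp only [RingHom.comp_apply, RingHom.coe_coe]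
    rw [evalP_C, evalBar_C, ResidueField.map_residue]
  · rintro ⟨σ, i, j⟩
    simp only [RingHom.comp_apply, RingHom.coe_coe]
    rw [evalP_X, evalBar_X, ResidueField.map_residue, ← sub_eq_zero, ← map_sub]
    exact (residue_eq_zero_iff _).mpr (hl σ i j)

theorem evalP_mem_maximalIdeal_iff {A : Type} [CommRing A] [IsLocalRing A] [Algebra 𝒪 A]
    [IsLocalHom (algebraMap 𝒪 A)] {r : Gal →* M2 A} (hl : Lifts rt r) (p : PRing 𝒪) :
    evalP (𝒪 := 𝒪) r p ∈ maximalIdeal A ↔ p ∈ mP rt := by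
  have h := RingHom.congr_fun (residue_comp_evalP hl) p
  simp only [RingHom.comp_apply, RingHom.coe_coe] at h
  rw [← residue_eq_zero_iff, h, mem_mP_iff, map_eq_zero_iff _ (RingHom.injective _)]

end Fermat.Agent.S53.FamilyM
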