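import Mathlib
import Fermat.Agent.S53.Defs

set_option autoImplicit false

namespace Fermat.Agent.S53.L8a

open IsLocalRing Fermat.Agent.S53.H84
open scoped TensorProduct

variable {A : Type} [CommRing A] [IsLocalRing A]

theorem map_maximalIdeal_pow_le {B : Type} [CommRing B] [IsLocalRing B] (φ : A →+* B)
    (hφ : IsLocalHom φ) (n : ℕ) :
    (maximalIdeal A ^ n).map φ ≤ maximalIdeal B ^ n := by
  rw [Ideal.map_pow]
  exact Ideal.pow_right_mono (Ideal.map_le_iff_le_comap.mpr fun a ha =>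
    Ideal.mem_comap.mpr (haveI := hφ; map_nonunit φ a ha)) n

theorem matCont_map {B : Type} [CommRing B] [IsLocalRing B] (φ : A →+* B) (hφ : IsLocalHom φ)
    {r : Gal →* M2 A} (hr : MatCont r) :
    MatCont ((φ.mapMatrix : M2 A →+* M2 B).toMonoidHom.comp r) := by
  intro n
  obtain ⟨L, hL, h⟩ := hr n
  refine ⟨L, hL, fun σ hσ i j => ?_⟩
  have h1 : (((φ.mapMatrix : M2 A →+* M2 B).toMonoidHom.comp r) σ - 1) i j
      = φ ((r σ - 1) i j) := by
    have h2 : ((φ.mapMatrix : M2 A →+* M2 B).toMonoidHom.comp r) σ - 1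
        = (φ.mapMatrix : M2 A →+* M2 B) (r σ - 1) := by
      rw [map_sub, map_one]
      rfl
    rw [h2]
    rfl
  rw [h1]
  exact map_maximalIdeal_pow_le φ hφ n (Ideal.mem_map_of_mem φ (h σ hσ i j))

omit [IsLocalRing A] in
theorem piScalarRight_baseChange_mulVec {B : Type} [CommRing B] [Algebra A B]
    (N : M2 A) (x : B ⊗[A] (Fin 2 → A)) :
    TensorProduct.piScalarRight A B B (Fin 2) ((Matrix.toLin' N).baseChange B x) =
      (N.map (algebraMap A B)).mulVec (TensorProduct.piScalarRight A B B (Fin 2) x) := by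
  induction x using TensorProduct.induction_on with
  | zero => simp only [map_zero, Matrix.mulVec_zero]
  | tmul b v =>
    rw [LinearMap.baseChange_tmul, TensorProduct.piScalarRight_apply,
      TensorProduct.piScalarRight_apply]
    funext i
    simp only [TensorProduct.piScalarRightHom_tmul, Matrix.toLin'_apply, Matrix.mulVec,
      dotProduct, Matrix.map_apply, Algebra.smul_def, map_sum, map_mul, Finset.sum_mul,
      mul_assoc]
  | add x y hx hy => simp only [map_add, hx, hy, Matrix.mulVec_add]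

theorem matRep_baseChangeAlong {B : Type} [CommRing B] [IsLocalRing B] (φ : A →+* B)
    (hφ : IsLocalHom φ) (r : Gal →* M2 A) (hr : MatCont r)
    (hr' : MatCont ((φ.mapMatrix : M2 A →+* M2 B).toMonoidHom.comp r)) :
    ((matRep r hr).baseChangeAlong φ hφ).IsEquiv
      (matRep ((φ.mapMatrix : M2 A →+* M2 B).toMonoidHom.comp r) hr') :=
  letI : Algebra A B := φ.toAlgebra
  ⟨{ toLinearEquiv := TensorProduct.piScalarRight A B B (Fin 2)
     map_apply := fun σ x => piScalarRight_baseChange_mulVec (r σ) x }⟩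

omit [IsLocalRing A] in
theorem toMatrix'_mul_of_comm (el : (Fin 2 → A) →ₗ[A] (Fin 2 → A)) (N N' : M2 A)
    (h : ∀ x : Fin 2 → A, el (N.mulVec x) = N'.mulVec (el x)) :
    LinearMap.toMatrix' el * N = N' * LinearMap.toMatrix' el := by
  apply Matrix.toLin'.injective
  apply LinearMap.ext
  intro x
  rw [Matrix.toLin'_mul, Matrix.toLin'_mul, Matrix.toLin'_toMatrix']
  simp only [LinearMap.comp_apply, Matrix.toLin'_apply]
  exact h x

omit [IsLocalRing A] in
theorem isUnit_det_toMatrix' (el : (Fin 2 → A) ≃ₗ[A] (Fin 2 → A)) :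
    IsUnit (LinearMap.toMatrix' (el : (Fin 2 → A) →ₗ[A] (Fin 2 → A))).det := by
  have h1 : LinearMap.toMatrix' (el : (Fin 2 → A) →ₗ[A] (Fin 2 → A)) *
      LinearMap.toMatrix' (el.symm : (Fin 2 → A) →ₗ[A] (Fin 2 → A)) = 1 := by
    rw [← LinearMap.toMatrix'_comp, LinearEquiv.comp_coe, LinearEquiv.symm_trans_self,
      LinearEquiv.refl_toLinearMap, LinearMap.toMatrix'_id]
  exact Matrix.isUnit_det_of_right_inverse h1

theorem matRep_isEquiv_iff (r r' : Gal →* M2 A) (hr : MatCont r) (hr' : MatCont r') :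
    (matRep r hr).IsEquiv (matRep r' hr') ↔
      ∃ M : M2 A, IsUnit M.det ∧ ∀ σ, M * r σ = r' σ * M := by
  constructor
  · rintro ⟨e⟩
    let el : (Fin 2 → A) ≃ₗ[A] (Fin 2 → A) := e.toLinearEquiv
    exact ⟨LinearMap.toMatrix' (el : (Fin 2 → A) →ₗ[A] (Fin 2 → A)), isUnit_det_toMatrix' el,
      fun σ => toMatrix'_mul_of_comm _ _ _ (fun x => e.map_apply σ x)⟩
  · rintro ⟨M, hM, hconj⟩
    have hinv : Invertible M := Matrix.invertibleOfIsUnitDet M hM
    have key : ∀ (σ : Gal) (x : Fin 2 → A),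
        M.mulVec ((r σ).mulVec x) = (r' σ).mulVec (M.mulVec x) := by
      intro σ x
      rw [Matrix.mulVec_mulVec, Matrix.mulVec_mulVec, hconj σ]
    exact ⟨{ toLinearEquiv := Matrix.toLinearEquiv' M hinv
             map_apply := fun σ x => key σ x }⟩

theorem matCont_of_trivial (r : Gal →* M2 A)
    (h : ∃ L : IntermediateField ℚ (AlgebraicClosure ℚ), FiniteDimensional ℚ L ∧
      ∀ σ : Gal, (∀ x ∈ L, σ x = x) → r σ = 1) : MatCont r := by
  obtain ⟨L, hL, h1⟩ := h
  intro n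
  refine ⟨L, hL, fun σ hσ i j => ?_⟩
  rw [h1 σ hσ, sub_self]
  exact Ideal.zero_mem _

theorem matCont_iff_of_isArtinian [IsArtinianRing A] (r : Gal →* M2 A) :
    MatCont r ↔ ∃ L : IntermediateField ℚ (AlgebraicClosure ℚ), FiniteDimensional ℚ L ∧
      ∀ σ : Gal, (∀ x ∈ L, σ x = x) → r σ = 1 := by
  constructor
  · intro hr
    obtain ⟨n, hn⟩ : ∃ n : ℕ, maximalIdeal A ^ n = ⊥ := by
      have h := IsArtinianRing.isNilpotent_jacobson_bot (R := A)
      rw [IsLocalRing.jacobson_eq_maximalIdeal ⊥ bot_ne_top] at h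
      exact h
    obtain ⟨L, hL, h⟩ := hr n
    refine ⟨L, hL, fun σ hσ => ?_⟩
    rw [← sub_eq_zero]
    ext i j
    have hij := h σ hσ i j
    rw [hn, Ideal.mem_bot] at hij
    rw [hij]
    rfl
  · exact matCont_of_trivial r

theorem residual_matRep {k : Type} [Field k] (ρbar : ResidualGaloisRep k)
    (b : Module.Basis (Fin 2) k ρbar.V) :
    ∃ (r : Gal →* M2 k) (hr : MatCont r), (∀ σ, r σ = LinearMap.toMatrix b b (ρbar.ρ σ)) ∧
      (GaloisRepAdic.ofResidualGaloisRep ρbar).IsEquiv (matRep r hr) := by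
  let r : Gal →* M2 k :=
    { toFun := fun σ => LinearMap.toMatrix b b (ρbar.ρ σ)
      map_one' := by rw [map_one]; exact LinearMap.toMatrix_one b
      map_mul' := fun σ τ => by rw [map_mul]; exact LinearMap.toMatrix_mul b _ _ }
  have hr : MatCont r := by
    apply matCont_of_trivial
    obtain ⟨L, hL, h1⟩ := ρbar.factorsThroughFiniteLevel
    refine ⟨L, hL, fun σ hσ => ?_⟩
    show LinearMap.toMatrix b b (ρbar.ρ σ) = 1
    rw [h1 σ hσ]
    exact LinearMap.toMatrix_one b
  refine ⟨r, hr, fun σ => rfl, ⟨{ toLinearEquiv := b.equivFun, map_apply := ?_ }⟩⟩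
  intro σ x
  show b.repr (ρbar.ρ σ x) = (LinearMap.toMatrix b b (ρbar.ρ σ)).mulVec (b.repr x)
  rw [LinearMap.toMatrix_mulVec_repr]

end Fermat.Agent.S53.L8a
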