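import Mathlib
import Fermat.Agent.S53.Defs
import Fermat.Agent.S53.Slice
import Fermat.Agent.S53.Family0
import Fermat.Agent.S53.FamilyM
import Fermat.Agent.S53.L8a

set_option autoImplicit false
set_option linter.unusedSectionVars false

namespace Fermat.Agent.S53.FamilyA

open IsLocalRing Fermat.Agent.S53.H84

variable {𝒪 : Type} [CommRing 𝒪] [IsLocalRing 𝒪]
variable {𝒟 : ∀ ⦃A : Type⦄ [CommRing A] [IsLocalRing A] [Algebra 𝒪 A], GaloisRepAdic A → Prop}
variable {rt : Gal → M2 𝒪} {u : Gal →₀ 𝒪} {g₀ : Gal}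

/-! ### Auxiliary facts on Artinian local rings -/

/-- The maximal ideal of an Artinian local ring is nilpotent. -/
theorem exists_maximalIdeal_pow_eq_bot (A : Type) [CommRing A] [IsLocalRing A]
    [IsArtinianRing A] : ∃ n : ℕ, maximalIdeal A ^ n = ⊥ := by
  have h := IsArtinianRing.isNilpotent_jacobson_bot (R := A)
  rw [IsLocalRing.jacobson_eq_maximalIdeal ⊥ bot_ne_top] at h
  obtain ⟨n, hn⟩ := h
  exact ⟨n, by simpa using hn⟩

/-- Elements of the maximal ideal of an Artinian local ring are nilpotent. -/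
theorem isNilpotent_of_mem_maximalIdeal {A : Type} [CommRing A] [IsLocalRing A]
    [IsArtinianRing A] {a : A} (ha : a ∈ maximalIdeal A) : IsNilpotent a := by
  obtain ⟨n, hn⟩ := exists_maximalIdeal_pow_eq_bot A
  refine ⟨n, ?_⟩
  have h : a ^ n ∈ maximalIdeal A ^ n := Ideal.pow_mem_pow ha n
  rw [hn] at h
  exact h

/-- A ring hom from an Artinian local ring to a local ring is a local hom. -/
theorem isLocalHom_of_isArtinianRing {A B : Type} [CommRing A] [IsLocalRing A]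
    [IsArtinianRing A] [CommRing B] [IsLocalRing B] (φ : A →+* B) : IsLocalHom φ := by
  refine ⟨fun a ha => ?_⟩
  by_contra hna
  have hmem : a ∈ maximalIdeal A := hna
  have hnil : IsNilpotent (φ a) := (isNilpotent_of_mem_maximalIdeal hmem).map φ
  exact hnil.not_isUnit ha

/-- A ring hom between local rings maps the maximal ideal into the maximal ideal as soon as it
is a local hom. -/
theorem map_mem_maximalIdeal {A B : Type} [CommRing A] [IsLocalRing A]
    [CommRing B] [IsLocalRing B] (φ : A →+* B) (hφ : IsLocalHom φ) {a : A}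
    (ha : a ∈ maximalIdeal A) : φ a ∈ maximalIdeal B := by
  intro hu
  exact ha (hφ.map_nonunit a hu)

/-- Reflection of the maximal ideal along any ring hom of local rings. -/
theorem mem_maximalIdeal_of_map_mem {A B : Type} [CommRing A] [IsLocalRing A]
    [CommRing B] [IsLocalRing B] (φ : A →+* B) {a : A}
    (ha : φ a ∈ maximalIdeal B) : a ∈ maximalIdeal A := by
  intro hu
  exact ha (hu.map φ)

theorem mapMatrix_comp_apply {A B : Type} [CommRing A] [CommRing B] (φ : A →+* B)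
    (r : Gal →* M2 A) (σ : Gal) (i j : Fin 2) :
    ((φ.mapMatrix : M2 A →+* M2 B).toMonoidHom.comp r) σ i j = φ (r σ i j) := rfl

theorem ext_comp {A B : Type} [CommRing A] [Algebra 𝒪 A] [CommRing B] [Algebra 𝒪 B]
    (φ : A →ₐ[𝒪] B) (u : Gal →₀ 𝒪) (r : Gal →* M2 A) (i j : Fin 2) :
    ext u (((φ : A →+* B).mapMatrix : M2 A →+* M2 B).toMonoidHom.comp r) i j
      = φ (ext u r i j) := by
  have h := ext_map φ u (fun g => r g)
  have h2 := congrFun (congrFun h i) j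
  rw [RingHom.mapMatrix_apply, Matrix.map_apply] at h2
  exact h2

/-! ### Closure properties of `IsDef` -/

theorem IsDef.map (h𝒟 : GaloisRep.IsDeformationCondition 𝒪 𝒟)
    {A B : Type} [CommRing A] [IsLocalRing A] [Algebra 𝒪 A]
    [CommRing B] [IsLocalRing B] [Algebra 𝒪 B] (hB : GaloisRep.IsArtinianTestAlgebra 𝒪 B)
    [Finite B] {r : Gal →* M2 A} (hr : IsDef 𝒟 rt u g₀ A r) (φ : A →ₐ[𝒪] B) :
    IsDef 𝒟 rt u g₀ B (((φ : A →+* B).mapMatrix : M2 A →+* M2 B).toMonoidHom.comp r) := by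
  have : IsArtinianRing A := hr.art.isArtinian
  have hφ : IsLocalHom (φ : A →+* B) := isLocalHom_of_isArtinianRing _
  have hcont : MatCont (((φ : A →+* B).mapMatrix : M2 A →+* M2 B).toMonoidHom.comp r) :=
    L8a.matCont_map (φ : A →+* B) hφ hr.cont
  refine ⟨hB, inferInstance, hcont, ?_, ?_, ?_⟩
  · intro σ i j
    have h := map_mem_maximalIdeal (φ : A →+* B) hφ (hr.lifts σ i j)
    rw [map_sub] at h
    have h2 : (φ : A →+* B) (algebraMap 𝒪 A (rt σ i j)) = algebraMap 𝒪 B (rt σ i j) :=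
      φ.commutes _
    rw [h2] at h
    exact h
  · obtain ⟨h1, h2, h3⟩ := hr.slice
    refine ⟨?_, ?_, ?_⟩
    · rw [ext_comp, h1, map_zero]
    · rw [mapMatrix_comp_apply, h2, map_zero]
    · rw [mapMatrix_comp_apply, h3, map_one]
  · intro hr'
    have h1 : 𝒟 ((matRep r hr.cont).baseChangeAlong (φ : A →+* B) hφ) :=
      h𝒟.baseChangeAlong hr.art hB φ hφ (hr.isD hr.cont)
    exact h𝒟.of_isEquiv hB (L8a.matRep_baseChangeAlong (φ : A →+* B) hφ r hr.cont hr') h1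

theorem IsDef.of_injective (h𝒟 : GaloisRep.IsDeformationCondition 𝒪 𝒟)
    {A B : Type} [CommRing A] [IsLocalRing A] [Algebra 𝒪 A]
    [CommRing B] [IsLocalRing B] [Algebra 𝒪 B] (hA : GaloisRep.IsArtinianTestAlgebra 𝒪 A)
    [Finite A] (r : Gal →* M2 A) (φ : A →ₐ[𝒪] B) (hφ : Function.Injective φ)
    (hr : IsDef 𝒟 rt u g₀ B (((φ : A →+* B).mapMatrix : M2 A →+* M2 B).toMonoidHom.comp r)) :
    IsDef 𝒟 rt u g₀ A r := by
  have : IsArtinianRing A := hA.isArtinian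
  have : IsArtinianRing B := hr.art.isArtinian
  have hφl : IsLocalHom (φ : A →+* B) := isLocalHom_of_isArtinianRing _
  have hcont : MatCont r := by
    rw [L8a.matCont_iff_of_isArtinian]
    obtain ⟨L, hL, h⟩ := (L8a.matCont_iff_of_isArtinian _).mp hr.cont
    refine ⟨L, hL, fun σ hσ => ?_⟩
    have h1 := h σ hσ
    ext i j
    have h2 := congrFun (congrFun h1 i) j
    rw [mapMatrix_comp_apply] at h2
    have h3 : φ (r σ i j) = (1 : M2 B) i j := h2
    apply hφ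
    rw [h3]
    by_cases hij : i = j
    · subst hij
      simp
    · simp [Matrix.one_apply_ne hij]
  refine ⟨hA, inferInstance, hcont, ?_, ?_, ?_⟩
  · intro σ i j
    apply mem_maximalIdeal_of_map_mem (φ : A →+* B)
    have h := hr.lifts σ i j
    rw [mapMatrix_comp_apply] at h
    rw [map_sub]
    have h2 : (φ : A →+* B) (algebraMap 𝒪 A (rt σ i j)) = algebraMap 𝒪 B (rt σ i j) :=
      φ.commutes _
    rw [h2]
    exact h
  · obtain ⟨h1, h2, h3⟩ := hr.slice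
    rw [ext_comp] at h1
    rw [mapMatrix_comp_apply] at h2 h3
    refine ⟨?_, ?_, ?_⟩
    · apply hφ
      rw [h1, map_zero]
    · apply hφ
      rw [map_zero]
      exact h2
    · apply hφ
      rw [map_one]
      exact h3
  · intro hr'
    apply h𝒟.of_baseChangeAlong_injective hA hr.art φ hφl hφ
    have h1 := hr.isD hr.cont
    exact h𝒟.of_isEquiv hr.art
      ⟨(L8a.matRep_baseChangeAlong (φ : A →+* B) hφl r hr' hr.cont).some.symm⟩ h1

variable {J J' : Ideal (PRing 𝒪)}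

theorem Good.le_mP (hJ : Good 𝒟 rt u g₀ J) : J ≤ mP rt := by
  obtain ⟨A, _, _, _, r, hr, rfl⟩ := hJ
  have : IsLocalHom (algebraMap 𝒪 A) := hr.art.isLocalHom
  intro p hp
  rw [← FamilyM.evalP_mem_maximalIdeal_iff hr.lifts p]
  rw [RingHom.mem_ker] at hp
  have hp' : evalP (𝒪 := 𝒪) (⇑r) p = 0 := hp
  rw [hp']
  exact Ideal.zero_mem _

theorem Good.exists_pow_le (hJ : Good 𝒟 rt u g₀ J) : ∃ n : ℕ, mP rt ^ n ≤ J := by
  obtain ⟨A, _, _, _, r, hr, rfl⟩ := hJ
  have : IsLocalHom (algebraMap 𝒪 A) := hr.art.isLocalHom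
  have : IsArtinianRing A := hr.art.isArtinian
  obtain ⟨n, hn⟩ := exists_maximalIdeal_pow_eq_bot A
  refine ⟨n, ?_⟩
  have hmap : (mP rt).map (evalP (𝒪 := 𝒪) (⇑r)) ≤ maximalIdeal A := by
    rw [Ideal.map_le_iff_le_comap]
    intro p hp
    exact (FamilyM.evalP_mem_maximalIdeal_iff hr.lifts p).mpr hp
  intro p hp
  have h1 : evalP (𝒪 := 𝒪) (⇑r) p ∈ ((mP rt) ^ n).map (evalP (𝒪 := 𝒪) (⇑r)) :=
    Ideal.mem_map_of_mem _ hp
  rw [Ideal.map_pow] at h1
  have h2 : evalP (𝒪 := 𝒪) (⇑r) p ∈ maximalIdeal A ^ n := Ideal.pow_right_mono hmap n h1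
  rw [hn] at h2
  exact h2

theorem Good.finite_quotient (hJ : Good 𝒟 rt u g₀ J) : Finite (PRing 𝒪 ⧸ J) := by
  obtain ⟨A, _, _, _, r, hr, rfl⟩ := hJ
  have : Finite A := hr.fin
  exact Finite.of_injective _
    (RingHom.kerLift_injective ((evalP (𝒪 := 𝒪) (⇑r) : PRing 𝒪 →ₐ[𝒪] A) : PRing 𝒪 →+* A))

theorem Good.mul_mem (hJ : Good 𝒟 rt u g₀ J) (σ τ : Gal) (i j : Fin 2) :
    (MvPolynomial.X (σ * τ, i, j) -
      ∑ l : Fin 2, MvPolynomial.X (σ, i, l) * MvPolynomial.X (τ, l, j) : PRing 𝒪) ∈ J := by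
  obtain ⟨A, _, _, _, r, hr, rfl⟩ := hJ
  rw [RingHom.mem_ker]
  show evalP (𝒪 := 𝒪) (⇑r) _ = 0
  rw [map_sub, map_sum, evalP_X, map_mul r, Matrix.mul_apply, sub_eq_zero]
  refine Finset.sum_congr rfl fun l _ => ?_
  rw [map_mul, evalP_X, evalP_X]

theorem Good.one_mem (hJ : Good 𝒟 rt u g₀ J) (i j : Fin 2) :
    (MvPolynomial.X ((1 : Gal), i, j) - MvPolynomial.C (if i = j then 1 else 0) : PRing 𝒪)
      ∈ J := by
  obtain ⟨A, _, _, _, r, hr, rfl⟩ := hJ
  rw [RingHom.mem_ker]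
  show evalP (𝒪 := 𝒪) (⇑r) _ = 0
  rw [map_sub, evalP_X, evalP_C, map_one r, Matrix.one_apply, sub_eq_zero]
  split_ifs <;> simp

theorem Good.cont (hJ : Good 𝒟 rt u g₀ J) :
    ∃ L : IntermediateField ℚ (AlgebraicClosure ℚ), FiniteDimensional ℚ L ∧
      ∀ σ : Gal, (∀ x ∈ L, σ x = x) → ∀ i j : Fin 2,
        (MvPolynomial.X (σ, i, j) - MvPolynomial.C (if i = j then 1 else 0) : PRing 𝒪) ∈ J := by
  obtain ⟨A, _, _, _, r, hr, rfl⟩ := hJ
  have : IsArtinianRing A := hr.art.isArtinian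
  obtain ⟨L, hL, h⟩ := (L8a.matCont_iff_of_isArtinian r).mp hr.cont
  refine ⟨L, hL, fun σ hσ i j => ?_⟩
  rw [RingHom.mem_ker]
  show evalP (𝒪 := 𝒪) (⇑r) _ = 0
  rw [map_sub, evalP_X, evalP_C, h σ hσ, Matrix.one_apply, sub_eq_zero]
  split_ifs <;> simp

theorem Good.slice_mem (hJ : Good 𝒟 rt u g₀ J) :
    (u.sum fun g c => MvPolynomial.C c * MvPolynomial.X (g, (1 : Fin 2), (0 : Fin 2)) :
        PRing 𝒪) ∈ J ∧
      (MvPolynomial.X (g₀, (0 : Fin 2), (0 : Fin 2)) : PRing 𝒪) ∈ J ∧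
      (MvPolynomial.X (g₀, (1 : Fin 2), (0 : Fin 2)) - 1 : PRing 𝒪) ∈ J := by
  obtain ⟨A, _, _, _, r, hr, rfl⟩ := hJ
  obtain ⟨h1, h2, h3⟩ := hr.slice
  refine ⟨?_, ?_, ?_⟩
  · rw [RingHom.mem_ker]
    show evalP (𝒪 := 𝒪) (⇑r) _ = 0
    rw [ext_apply] at h1
    rw [← h1]
    simp only [Finsupp.sum, map_sum, map_mul, evalP_C, evalP_X]
  · rw [RingHom.mem_ker]
    show evalP (𝒪 := 𝒪) (⇑r) _ = 0
    rw [evalP_X, h2]
  · rw [RingHom.mem_ker]
    show evalP (𝒪 := 𝒪) (⇑r) _ = 0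
    rw [map_sub, evalP_X, map_one, h3, sub_self]

end Fermat.Agent.S53.FamilyA
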