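import Mathlib
import Fermat.Agent.S53.Defs
import Fermat.Agent.S53.Slice
import Fermat.Agent.S53.Family0
import Fermat.Agent.S53.FamilyM
import Fermat.Agent.S53.FamilyA
import Fermat.Agent.S53.L8a

set_option autoImplicit false
set_option linter.unusedSectionVars false
set_option linter.style.haveILetI false

namespace Fermat.Agent.S53.FamilyB

open IsLocalRing Fermat.Agent.S53.H84

/-! ### Auxiliary facts on Artinian test algebras -/

section aux

variable {𝒪 : Type} [CommRing 𝒪] [IsLocalRing 𝒪]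

open GaloisRep

theorem exists_sub_mem_maximalIdeal {A : Type} [CommRing A] [IsLocalRing A] [Algebra 𝒪 A]
    (hres : Function.Surjective (residue A ∘ algebraMap 𝒪 A)) (a : A) :
    ∃ c : 𝒪, a - algebraMap 𝒪 A c ∈ maximalIdeal A := by
  obtain ⟨c, hc⟩ := hres (residue A a)
  refine ⟨c, ?_⟩
  rw [← residue_eq_zero_iff, map_sub, sub_eq_zero]
  exact hc.symm

/-- The maximal ideal of a test algebra is nilpotent. -/
theorem exists_maximalIdeal_pow_eq_bot {A : Type} [CommRing A] [IsLocalRing A] [Algebra 𝒪 A]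
    (hA : IsArtinianTestAlgebra 𝒪 A) : ∃ n : ℕ, maximalIdeal A ^ n = ⊥ := by
  haveI := hA.isArtinian
  have h : IsNilpotent (⊥ : Ideal A).jacobson := IsArtinianRing.isNilpotent_jacobson_bot
  rw [IsLocalRing.jacobson_eq_maximalIdeal _ bot_ne_top] at h
  obtain ⟨n, hn⟩ := h
  exact ⟨n, hn⟩

theorem isNilpotent_of_mem_maximalIdeal {A : Type} [CommRing A] [IsLocalRing A] [Algebra 𝒪 A]
    (hA : IsArtinianTestAlgebra 𝒪 A) {a : A} (ha : a ∈ maximalIdeal A) : IsNilpotent a := by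
  obtain ⟨n, hn⟩ := exists_maximalIdeal_pow_eq_bot hA
  refine ⟨n, ?_⟩
  have : a ^ n ∈ maximalIdeal A ^ n := Ideal.pow_mem_pow ha n
  rw [hn] at this
  exact this

variable {A B : Type} [CommRing A] [IsLocalRing A] [Algebra 𝒪 A] [CommRing B] [Algebra 𝒪 B]

/-- Key unit criterion: an element of `B` whose image in the test algebra `A` is a unit is a
unit, when `B → A` is an injective `𝒪`-algebra map. -/
theorem isUnit_of_isUnit_map (hA : IsArtinianTestAlgebra 𝒪 A) (ι : B →ₐ[𝒪] A)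
    (hι : Function.Injective ι) {b : B} (hb : IsUnit (ι b)) : IsUnit b := by
  obtain ⟨c, hc⟩ := exists_sub_mem_maximalIdeal hA.residue_surjective (ι b)
  have hcu : IsUnit (algebraMap 𝒪 A c) := by
    by_contra hnu
    have h1 : algebraMap 𝒪 A c ∈ maximalIdeal A := (mem_maximalIdeal _).mpr hnu
    have h2 : ι b ∈ maximalIdeal A := by
      have := Ideal.add_mem _ hc h1
      simpa using this
    exact (mem_maximalIdeal _).mp h2 hb
  haveI := hA.isLocalHom
  have hc𝒪 : IsUnit c := isUnit_of_map_unit (algebraMap 𝒪 A) c hcu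
  have hnil : IsNilpotent (b - algebraMap 𝒪 B c) := by
    obtain ⟨n, hn⟩ := isNilpotent_of_mem_maximalIdeal hA hc
    refine ⟨n, hι ?_⟩
    rw [map_pow, map_sub, AlgHom.commutes, hn, map_zero]
  have hu : IsUnit (algebraMap 𝒪 B c) := hc𝒪.map (algebraMap 𝒪 B)
  have := hnil.isUnit_add_left_of_commute hu (Commute.all _ _)
  simpa using this

theorem isLocalRing_of_injective (hA : IsArtinianTestAlgebra 𝒪 A) (ι : B →ₐ[𝒪] A)
    (hι : Function.Injective ι) : IsLocalRing B := by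
  haveI : Nontrivial B := ⟨⟨0, 1, fun h => by
    have := congrArg ι h
    rw [map_zero, map_one] at this
    exact zero_ne_one this⟩⟩
  refine IsLocalRing.of_isUnit_or_isUnit_one_sub_self fun b => ?_
  rcases IsLocalRing.isUnit_or_isUnit_one_sub_self (ι b) with h | h
  · exact Or.inl (isUnit_of_isUnit_map hA ι hι h)
  · refine Or.inr (isUnit_of_isUnit_map hA ι hι ?_)
    rwa [map_sub, map_one]

/-- A finite local `𝒪`-algebra mapping to a test algebra is a test algebra. -/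
theorem isArtinianTestAlgebra_of_algHom [IsLocalRing B] [Finite B]
    (hA : IsArtinianTestAlgebra 𝒪 A)
    (ι : B →ₐ[𝒪] A) : IsArtinianTestAlgebra 𝒪 B := by
  haveI := hA.isLocalHom
  refine ⟨⟨fun c hc => ?_⟩, fun x => ?_, inferInstance⟩
  · have : IsUnit (ι (algebraMap 𝒪 B c)) := hc.map ι
    rw [AlgHom.commutes] at this
    exact isUnit_of_map_unit (algebraMap 𝒪 A) c this
  · obtain ⟨b, rfl⟩ := residue_surjective x
    obtain ⟨c, hc⟩ := exists_sub_mem_maximalIdeal hA.residue_surjective (ι b)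
    refine ⟨c, ?_⟩
    have hmem : b - algebraMap 𝒪 B c ∈ maximalIdeal B := by
      rw [mem_maximalIdeal, mem_nonunits_iff]
      intro hu
      have : IsUnit (ι (b - algebraMap 𝒪 B c)) := hu.map ι
      rw [map_sub, AlgHom.commutes] at this
      exact (mem_maximalIdeal _).mp hc this
    have := (residue_eq_zero_iff _).mpr hmem
    rw [map_sub, sub_eq_zero] at this
    exact this.symm

/-- A ring hom from a test algebra to a nontrivial ring sends the maximal ideal to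
non-units. -/
theorem not_isUnit_map_of_mem_maximalIdeal [Nontrivial B] (hA : IsArtinianTestAlgebra 𝒪 A)
    (φ : A →ₐ[𝒪] B) {a : A} (ha : a ∈ maximalIdeal A) : ¬ IsUnit (φ a) := by
  intro hu
  obtain ⟨n, hn⟩ := isNilpotent_of_mem_maximalIdeal hA ha
  have h0 : IsUnit ((φ a) ^ n) := hu.pow n
  rw [← map_pow, hn, map_zero] at h0
  exact not_isUnit_zero h0

/-- A local `𝒪`-algebra which is a quotient of a test algebra is a test algebra. -/
theorem isArtinianTestAlgebra_of_surjective [IsLocalRing B] (hA : IsArtinianTestAlgebra 𝒪 A)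
    (φ : A →ₐ[𝒪] B) (hφ : Function.Surjective φ) : IsArtinianTestAlgebra 𝒪 B := by
  haveI := hA.isLocalHom
  haveI := hA.isArtinian
  refine ⟨⟨fun c hc => ?_⟩, fun x => ?_, hφ.isArtinianRing⟩
  · by_contra hnu
    have h1 : algebraMap 𝒪 A c ∈ maximalIdeal A := by
      rw [mem_maximalIdeal, mem_nonunits_iff]
      intro h
      exact hnu (isUnit_of_map_unit (algebraMap 𝒪 A) c h)
    have h2 := not_isUnit_map_of_mem_maximalIdeal hA φ h1
    rw [AlgHom.commutes] at h2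
    exact h2 hc
  · obtain ⟨b, rfl⟩ := residue_surjective x
    obtain ⟨a, rfl⟩ := hφ b
    obtain ⟨c, hc⟩ := exists_sub_mem_maximalIdeal hA.residue_surjective a
    refine ⟨c, ?_⟩
    have hmem : φ a - algebraMap 𝒪 B c ∈ maximalIdeal B := by
      rw [mem_maximalIdeal, mem_nonunits_iff]
      have h2 := not_isUnit_map_of_mem_maximalIdeal hA φ hc
      rwa [map_sub, AlgHom.commutes] at h2
    have := (residue_eq_zero_iff _).mpr hmem
    rw [map_sub, sub_eq_zero] at this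
    exact this.symm

end aux

variable {𝒪 : Type} [CommRing 𝒪] [IsLocalRing 𝒪]
variable {𝒟 : ∀ ⦃A : Type⦄ [CommRing A] [IsLocalRing A] [Algebra 𝒪 A], GaloisRepAdic A → Prop}
variable {rt : Gal → M2 𝒪} {u : Gal →₀ 𝒪} {g₀ : Gal}

variable {J J' : Ideal (PRing 𝒪)}

/-! ### The tautological realisation on the quotient `PRing 𝒪 ⧸ J` -/

/-- The tautological matrix valued map into a quotient of the big polynomial ring. -/
noncomputable def tautFun (J : Ideal (PRing 𝒪)) (σ : Gal) : M2 (PRing 𝒪 ⧸ J) :=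
  Matrix.of fun i j => Ideal.Quotient.mk J (MvPolynomial.X (σ, i, j))

theorem tautFun_apply (J : Ideal (PRing 𝒪)) (σ : Gal) (i j : Fin 2) :
    tautFun J σ i j = Ideal.Quotient.mk J (MvPolynomial.X (σ, i, j)) := rfl

/-- For a good ideal the tautological map is a monoid hom. -/
noncomputable def taut (hJ : Good 𝒟 rt u g₀ J) : Gal →* M2 (PRing 𝒪 ⧸ J) where
  toFun := tautFun J
  map_one' := by
    ext i j
    have h := Ideal.Quotient.eq.mpr (FamilyA.Good.one_mem hJ i j)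
    rw [tautFun_apply, h, Matrix.one_apply]
    split_ifs <;> simp
  map_mul' σ τ := by
    ext i j
    have h := Ideal.Quotient.eq.mpr (FamilyA.Good.mul_mem hJ σ τ i j)
    rw [tautFun_apply, h, Matrix.mul_apply, map_sum]
    refine Finset.sum_congr rfl fun l _ => ?_
    rw [map_mul, tautFun_apply, tautFun_apply]

theorem taut_apply (hJ : Good 𝒟 rt u g₀ J) (σ : Gal) (i j : Fin 2) :
    taut hJ σ i j = Ideal.Quotient.mk J (MvPolynomial.X (σ, i, j)) := rfl

theorem evalP_taut (hJ : Good 𝒟 rt u g₀ J) :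
    evalP (𝒪 := 𝒪) (taut hJ) = Ideal.Quotient.mkₐ 𝒪 J := by
  apply MvPolynomial.algHom_ext
  rintro ⟨σ, i, j⟩
  rw [evalP_X, taut_apply]
  rfl

theorem Good.isLocalRing_quotient (hJ : Good 𝒟 rt u g₀ J) : IsLocalRing (PRing 𝒪 ⧸ J) := by
  obtain ⟨A, iA1, iA2, iA3, r, hdef, hker⟩ := id hJ
  let ι : PRing 𝒪 ⧸ J →ₐ[𝒪] A :=
    Ideal.Quotient.liftₐ J (evalP (𝒪 := 𝒪) r) (fun a ha => by rw [← hker] at ha; exact ha)
  have hι : Function.Injective ι := by
    rw [injective_iff_map_eq_zero]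
    intro x hx
    obtain ⟨p, rfl⟩ := Ideal.Quotient.mk_surjective x
    have hp : evalP (𝒪 := 𝒪) r p = 0 := hx
    rw [Ideal.Quotient.eq_zero_iff_mem, ← hker]
    exact hp
  exact isLocalRing_of_injective hdef.art ι hι

theorem Good.isDef_taut (h𝒟 : GaloisRep.IsDeformationCondition 𝒪 𝒟)
    (hJ : Good 𝒟 rt u g₀ J) [IsLocalRing (PRing 𝒪 ⧸ J)] :
    IsDef 𝒟 rt u g₀ (PRing 𝒪 ⧸ J) (taut hJ) := by
  obtain ⟨A, iA1, iA2, iA3, r, hdef, hker⟩ := id hJ
  let ι : PRing 𝒪 ⧸ J →ₐ[𝒪] A :=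
    Ideal.Quotient.liftₐ J (evalP (𝒪 := 𝒪) r) (fun a ha => by rw [← hker] at ha; exact ha)
  have hι : Function.Injective ι := by
    rw [injective_iff_map_eq_zero]
    intro x hx
    obtain ⟨p, rfl⟩ := Ideal.Quotient.mk_surjective x
    have hp : evalP (𝒪 := 𝒪) r p = 0 := hx
    rw [Ideal.Quotient.eq_zero_iff_mem, ← hker]
    exact hp
  have hcomp : ((ι : PRing 𝒪 ⧸ J →+* A).mapMatrix :
      M2 (PRing 𝒪 ⧸ J) →+* M2 A).toMonoidHom.comp (taut hJ) = r := by
    ext σ i j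
    have : ι (Ideal.Quotient.mk J (MvPolynomial.X (σ, i, j))) = r σ i j := evalP_X _ σ i j
    simpa [taut_apply] using this
  haveI : Finite A := hdef.fin
  haveI : Finite (PRing 𝒪 ⧸ J) := Finite.of_injective ι hι
  refine FamilyA.IsDef.of_injective h𝒟 (isArtinianTestAlgebra_of_algHom hdef.art ι)
    (taut hJ) ι hι ?_
  rw [hcomp]
  exact hdef

/-! ### The three closure properties -/

theorem Good.exists_surjective (h𝒟 : GaloisRep.IsDeformationCondition 𝒪 𝒟)
    (hJ : Good 𝒟 rt u g₀ J) :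
    ∃ (A : Type) (_ : CommRing A) (_ : IsLocalRing A) (_ : Algebra 𝒪 A) (r : Gal →* M2 A),
      IsDef 𝒟 rt u g₀ A r ∧ RingHom.ker (evalP (𝒪 := 𝒪) r) = J ∧
        Function.Surjective (evalP (𝒪 := 𝒪) r) := by
  haveI := Good.isLocalRing_quotient hJ
  refine ⟨PRing 𝒪 ⧸ J, inferInstance, inferInstance, inferInstance, taut hJ,
    Good.isDef_taut h𝒟 hJ, ?_, ?_⟩
  · rw [evalP_taut]
    exact Ideal.Quotient.mkₐ_ker 𝒪 J
  · rw [evalP_taut]
    exact Ideal.Quotient.mkₐ_surjective 𝒪 J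

theorem Good.of_le (h𝒟 : GaloisRep.IsDeformationCondition 𝒪 𝒟)
    (hJ : Good 𝒟 rt u g₀ J) (hle : J ≤ J') (hJ' : J' ≤ mP rt) : Good 𝒟 rt u g₀ J' := by
  haveI := Good.isLocalRing_quotient hJ
  have hdef := Good.isDef_taut h𝒟 hJ
  haveI : Nontrivial (PRing 𝒪 ⧸ J') := by
    rw [Ideal.Quotient.nontrivial_iff]
    intro h
    rw [h, top_le_iff] at hJ'
    exact (FamilyM.mP_isMaximal rt).ne_top hJ'
  let φ : PRing 𝒪 ⧸ J →ₐ[𝒪] PRing 𝒪 ⧸ J' := Ideal.Quotient.factorₐ 𝒪 hle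
  have hφ : Function.Surjective φ := Ideal.Quotient.factor_surjective hle
  haveI : IsLocalRing (PRing 𝒪 ⧸ J') :=
    IsLocalRing.of_surjective' (φ : PRing 𝒪 ⧸ J →+* PRing 𝒪 ⧸ J') hφ
  have hart := isArtinianTestAlgebra_of_surjective hdef.art φ hφ
  haveI : Finite (PRing 𝒪 ⧸ J) := hdef.fin
  haveI : Finite (PRing 𝒪 ⧸ J') := Finite.of_surjective φ hφ
  have hdef' := FamilyA.IsDef.map h𝒟 hart hdef φ
  refine ⟨PRing 𝒪 ⧸ J', inferInstance, inferInstance, inferInstance, _, hdef', ?_⟩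
  have hev : evalP (𝒪 := 𝒪) (((φ : PRing 𝒪 ⧸ J →+* PRing 𝒪 ⧸ J').mapMatrix :
      M2 (PRing 𝒪 ⧸ J) →+* M2 (PRing 𝒪 ⧸ J')).toMonoidHom.comp (taut hJ))
      = Ideal.Quotient.mkₐ 𝒪 J' := by
    apply MvPolynomial.algHom_ext
    rintro ⟨σ, i, j⟩
    rw [evalP_X]
    simp [taut_apply, φ]
  rw [hev]
  exact Ideal.Quotient.mkₐ_ker 𝒪 J'

theorem Good.isDef_of_le (h𝒟 : GaloisRep.IsDeformationCondition 𝒪 𝒟)
    (hJ : Good 𝒟 rt u g₀ J) {B : Type} [CommRing B] [IsLocalRing B] [Algebra 𝒪 B]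
    (hB : GaloisRep.IsArtinianTestAlgebra 𝒪 B) [Finite B] (rB : Gal →* M2 B)
    (hle : J ≤ RingHom.ker (evalP (𝒪 := 𝒪) rB)) : IsDef 𝒟 rt u g₀ B rB := by
  haveI := Good.isLocalRing_quotient hJ
  have hdef := Good.isDef_taut h𝒟 hJ
  let θ : PRing 𝒪 ⧸ J →ₐ[𝒪] B :=
    Ideal.Quotient.liftₐ J (evalP (𝒪 := 𝒪) rB) (fun a ha => hle ha)
  have hcomp : ((θ : PRing 𝒪 ⧸ J →+* B).mapMatrix :
      M2 (PRing 𝒪 ⧸ J) →+* M2 B).toMonoidHom.comp (taut hJ) = rB := by
    ext σ i j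
    have : θ (Ideal.Quotient.mk J (MvPolynomial.X (σ, i, j))) = rB σ i j := evalP_X _ σ i j
    simpa [taut_apply] using this
  have h := FamilyA.IsDef.map h𝒟 hB hdef θ
  rwa [hcomp] at h

end Fermat.Agent.S53.FamilyB
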