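import Mathlib
import Fermat.Agent.S53.Defs
import Fermat.Agent.S53.Slice
import Fermat.Agent.S53.Family0
import Fermat.Agent.S53.FamilyM
import Fermat.Agent.S53.FamilyA
import Fermat.Agent.S53.FamilyB
import Fermat.Agent.S53.L8a

set_option autoImplicit false
set_option linter.unusedSectionVars false
set_option linter.style.haveILetI false

namespace Fermat.Agent.S53.FamilyC

open IsLocalRing Fermat.Agent.S53.H84

variable {𝒪 : Type} [CommRing 𝒪] [IsLocalRing 𝒪]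
variable {𝒟 : ∀ ⦃A : Type⦄ [CommRing A] [IsLocalRing A] [Algebra 𝒪 A], GaloisRepAdic A → Prop}
variable {rt : Gal → M2 𝒪} {u : Gal →₀ 𝒪} {g₀ : Gal}
variable {J J' : Ideal (PRing 𝒪)}

/-! ### Quotients of the big polynomial ring by `mP`-primary ideals -/

/-- Elements of `mP` become nilpotent modulo an ideal containing a power of `mP`. -/
theorem isNilpotent_mk_of_mem_mP {I : Ideal (PRing 𝒪)} {n : ℕ} (hn : mP rt ^ n ≤ I)
    {p : PRing 𝒪} (hp : p ∈ mP rt) : IsNilpotent (Ideal.Quotient.mk I p) := by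
  refine ⟨n, ?_⟩
  rw [← map_pow, Ideal.Quotient.eq_zero_iff_mem]
  exact hn (Ideal.pow_mem_pow hp n)

/-- A quotient of the big polynomial ring by an ideal between a power of `mP` and `mP` is
a local ring. -/
theorem isLocalRing_quotient_of_pow_le {I : Ideal (PRing 𝒪)} {n : ℕ} (hn : mP rt ^ n ≤ I)
    (hI : I ≤ mP rt) : IsLocalRing (PRing 𝒪 ⧸ I) := by
  haveI : Nontrivial (PRing 𝒪 ⧸ I) := by
    rw [Ideal.Quotient.nontrivial_iff]
    intro h
    rw [h, top_le_iff] at hI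
    exact (FamilyM.mP_isMaximal rt).ne_top hI
  refine IsLocalRing.of_isUnit_or_isUnit_one_sub_self fun q => ?_
  obtain ⟨p, rfl⟩ := Ideal.Quotient.mk_surjective q
  obtain ⟨c, hc⟩ := FamilyM.exists_C_sub_mem_mP rt p
  by_cases hcu : IsUnit c
  · left
    have hnil : IsNilpotent (Ideal.Quotient.mk I (p - MvPolynomial.C c)) :=
      isNilpotent_mk_of_mem_mP hn hc
    have hu : IsUnit (Ideal.Quotient.mk I (MvPolynomial.C c)) :=
      (hcu.map MvPolynomial.C).map (Ideal.Quotient.mk I)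
    have := hnil.isUnit_add_left_of_commute hu (Commute.all _ _)
    simpa using this
  · right
    have hc' : c ∈ maximalIdeal 𝒪 := hcu
    have hp : p ∈ mP rt := by
      have := Ideal.add_mem _ hc (FamilyM.C_mem_mP rt hc')
      simpa using this
    exact (isNilpotent_mk_of_mem_mP hn hp).isUnit_one_sub

/-- The tautological matrix valued hom into a quotient of the big polynomial ring by an
ideal containing the multiplicativity relations. -/
noncomputable def tautOf (I : Ideal (PRing 𝒪))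
    (h1 : ∀ i j : Fin 2,
      (MvPolynomial.X ((1 : Gal), i, j) - MvPolynomial.C (if i = j then 1 else 0) : PRing 𝒪) ∈ I)
    (hmul : ∀ (σ τ : Gal) (i j : Fin 2), (MvPolynomial.X (σ * τ, i, j) -
      ∑ l : Fin 2, MvPolynomial.X (σ, i, l) * MvPolynomial.X (τ, l, j) : PRing 𝒪) ∈ I) :
    Gal →* M2 (PRing 𝒪 ⧸ I) where
  toFun := FamilyB.tautFun I
  map_one' := by
    ext i j
    have h := Ideal.Quotient.eq.mpr (h1 i j)
    rw [FamilyB.tautFun_apply, h, Matrix.one_apply]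
    split_ifs <;> simp
  map_mul' σ τ := by
    ext i j
    have h := Ideal.Quotient.eq.mpr (hmul σ τ i j)
    rw [FamilyB.tautFun_apply, h, Matrix.mul_apply, map_sum]
    refine Finset.sum_congr rfl fun l _ => ?_
    rw [map_mul, FamilyB.tautFun_apply, FamilyB.tautFun_apply]

theorem tautOf_apply (I : Ideal (PRing 𝒪))
    (h1 : ∀ i j : Fin 2,
      (MvPolynomial.X ((1 : Gal), i, j) - MvPolynomial.C (if i = j then 1 else 0) : PRing 𝒪) ∈ I)
    (hmul : ∀ (σ τ : Gal) (i j : Fin 2), (MvPolynomial.X (σ * τ, i, j) -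
      ∑ l : Fin 2, MvPolynomial.X (σ, i, l) * MvPolynomial.X (τ, l, j) : PRing 𝒪) ∈ I)
    (σ : Gal) (i j : Fin 2) :
    tautOf I h1 hmul σ i j = Ideal.Quotient.mk I (MvPolynomial.X (σ, i, j)) := rfl

theorem evalP_tautOf (I : Ideal (PRing 𝒪))
    (h1 : ∀ i j : Fin 2,
      (MvPolynomial.X ((1 : Gal), i, j) - MvPolynomial.C (if i = j then 1 else 0) : PRing 𝒪) ∈ I)
    (hmul : ∀ (σ τ : Gal) (i j : Fin 2), (MvPolynomial.X (σ * τ, i, j) -
      ∑ l : Fin 2, MvPolynomial.X (σ, i, l) * MvPolynomial.X (τ, l, j) : PRing 𝒪) ∈ I) :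
    evalP (𝒪 := 𝒪) (tautOf I h1 hmul) = Ideal.Quotient.mkₐ 𝒪 I := by
  apply MvPolynomial.algHom_ext
  rintro ⟨σ, i, j⟩
  rw [evalP_X, tautOf_apply]
  rfl

/-! ### Intersections of good ideals -/

theorem Good.inf (h𝒟 : GaloisRep.IsDeformationCondition 𝒪 𝒟)
    (hJ : Good 𝒟 rt u g₀ J) (hJ' : Good 𝒟 rt u g₀ J') : Good 𝒟 rt u g₀ (J ⊓ J') := by
  -- the three auxiliary realisations
  have hS : Good 𝒟 rt u g₀ (J ⊔ J') :=
    FamilyB.Good.of_le h𝒟 hJ le_sup_left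
      (sup_le (FamilyA.Good.le_mP hJ) (FamilyA.Good.le_mP hJ'))
  haveI := FamilyB.Good.isLocalRing_quotient hJ
  haveI := FamilyB.Good.isLocalRing_quotient hJ'
  haveI := FamilyB.Good.isLocalRing_quotient hS
  have hdA := FamilyB.Good.isDef_taut h𝒟 hJ
  have hdB := FamilyB.Good.isDef_taut h𝒟 hJ'
  have hdC := FamilyB.Good.isDef_taut h𝒟 hS
  -- the quotient by the intersection is local
  obtain ⟨n, hn⟩ := FamilyA.Good.exists_pow_le hJ
  obtain ⟨n', hn'⟩ := FamilyA.Good.exists_pow_le hJ'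
  have hpow : mP rt ^ (n + n') ≤ J ⊓ J' := by
    refine le_inf ?_ ?_
    · exact (Ideal.pow_le_pow_right (Nat.le_add_right n n')).trans hn
    · exact (Ideal.pow_le_pow_right (Nat.le_add_left n' n)).trans hn'
  have hle : J ⊓ J' ≤ mP rt := inf_le_left.trans (FamilyA.Good.le_mP hJ)
  haveI : IsLocalRing (PRing 𝒪 ⧸ (J ⊓ J')) := isLocalRing_quotient_of_pow_le hpow hle
  -- the four maps of the cartesian square
  let pA : PRing 𝒪 ⧸ (J ⊓ J') →ₐ[𝒪] PRing 𝒪 ⧸ J := Ideal.Quotient.factorₐ 𝒪 inf_le_left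
  let pB : PRing 𝒪 ⧸ (J ⊓ J') →ₐ[𝒪] PRing 𝒪 ⧸ J' := Ideal.Quotient.factorₐ 𝒪 inf_le_right
  let f : PRing 𝒪 ⧸ J →ₐ[𝒪] PRing 𝒪 ⧸ (J ⊔ J') := Ideal.Quotient.factorₐ 𝒪 le_sup_left
  let g : PRing 𝒪 ⧸ J' →ₐ[𝒪] PRing 𝒪 ⧸ (J ⊔ J') := Ideal.Quotient.factorₐ 𝒪 le_sup_right
  have hinj : Function.Injective (fun x : PRing 𝒪 ⧸ (J ⊓ J') => (pA x, pB x)) := by
    intro x y hxy
    obtain ⟨p, rfl⟩ := Ideal.Quotient.mk_surjective x
    obtain ⟨q, rfl⟩ := Ideal.Quotient.mk_surjective y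
    have h1 : Ideal.Quotient.mk J p = Ideal.Quotient.mk J q := congrArg Prod.fst hxy
    have h2 : Ideal.Quotient.mk J' p = Ideal.Quotient.mk J' q := congrArg Prod.snd hxy
    rw [Ideal.Quotient.eq] at h1 h2 ⊢
    exact ⟨h1, h2⟩
  haveI : Finite (PRing 𝒪 ⧸ J) := hdA.fin
  haveI : Finite (PRing 𝒪 ⧸ J') := hdB.fin
  haveI : Finite (PRing 𝒪 ⧸ (J ⊓ J')) := Finite.of_injective _ hinj
  have hart : GaloisRep.IsArtinianTestAlgebra 𝒪 (PRing 𝒪 ⧸ (J ⊓ J')) :=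
    FamilyB.isArtinianTestAlgebra_of_algHom hdA.art pA
  haveI : IsArtinianRing (PRing 𝒪 ⧸ (J ⊓ J')) := hart.isArtinian
  -- the tautological representation
  let rQ : Gal →* M2 (PRing 𝒪 ⧸ (J ⊓ J')) :=
    tautOf (J ⊓ J')
      (fun i j => ⟨FamilyA.Good.one_mem hJ i j, FamilyA.Good.one_mem hJ' i j⟩)
      (fun σ τ i j => ⟨FamilyA.Good.mul_mem hJ σ τ i j, FamilyA.Good.mul_mem hJ' σ τ i j⟩)
  have hrQ : ∀ σ i j, rQ σ i j = Ideal.Quotient.mk (J ⊓ J') (MvPolynomial.X (σ, i, j)) :=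
    fun σ i j => rfl
  have hev : evalP (𝒪 := 𝒪) rQ = Ideal.Quotient.mkₐ 𝒪 (J ⊓ J') := evalP_tautOf _ _ _
  have hcont : MatCont rQ := by
    rw [L8a.matCont_iff_of_isArtinian]
    obtain ⟨L, hL, h⟩ := FamilyA.Good.cont hJ
    obtain ⟨L', hL', h'⟩ := FamilyA.Good.cont hJ'
    haveI := hL
    haveI := hL'
    refine ⟨L ⊔ L', IntermediateField.finiteDimensional_sup L L', fun σ hσ => ?_⟩
    ext i j
    have hm : (MvPolynomial.X (σ, i, j) - MvPolynomial.C (if i = j then 1 else 0) : PRing 𝒪)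
        ∈ J ⊓ J' :=
      ⟨h σ (fun x hx => hσ x ((le_sup_left : L ≤ L ⊔ L') hx)) i j,
        h' σ (fun x hx => hσ x ((le_sup_right : L' ≤ L ⊔ L') hx)) i j⟩
    have h2 := Ideal.Quotient.eq.mpr hm
    rw [hrQ, h2, Matrix.one_apply]
    split_ifs <;> simp
  have hlifts : Lifts rt rQ := by
    intro σ i j
    have hnil : IsNilpotent (Ideal.Quotient.mk (J ⊓ J')
        (MvPolynomial.X (σ, i, j) - MvPolynomial.C (rt σ i j))) :=
      isNilpotent_mk_of_mem_mP hpow (FamilyM.X_sub_C_mem_mP rt σ i j)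
    have heq : rQ σ i j - algebraMap 𝒪 (PRing 𝒪 ⧸ (J ⊓ J')) (rt σ i j)
        = Ideal.Quotient.mk (J ⊓ J') (MvPolynomial.X (σ, i, j) - MvPolynomial.C (rt σ i j)) := by
      rw [map_sub, hrQ]
      rfl
    rw [heq, mem_maximalIdeal, mem_nonunits_iff]
    exact hnil.not_isUnit
  have hslice : InSlice u g₀ rQ := by
    obtain ⟨a1, a2, a3⟩ := FamilyA.Good.slice_mem hJ
    obtain ⟨b1, b2, b3⟩ := FamilyA.Good.slice_mem hJ'
    refine ⟨?_, ?_, ?_⟩
    · rw [ext_apply]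
      have h0 : evalP (𝒪 := 𝒪) rQ (u.sum fun g c => MvPolynomial.C c *
          MvPolynomial.X (g, (1 : Fin 2), (0 : Fin 2))) = 0 := by
        rw [hev]
        exact Ideal.Quotient.eq_zero_iff_mem.mpr ⟨a1, b1⟩
      simp only [Finsupp.sum, map_sum, map_mul, evalP_C, evalP_X] at h0
      exact h0
    · rw [hrQ]
      exact Ideal.Quotient.eq_zero_iff_mem.mpr ⟨a2, b2⟩
    · have h0 := Ideal.Quotient.eq_zero_iff_mem.mpr (show (MvPolynomial.X (g₀, (1 : Fin 2),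
        (0 : Fin 2)) - 1 : PRing 𝒪) ∈ J ⊓ J' from ⟨a3, b3⟩)
      rw [map_sub, map_one, sub_eq_zero] at h0
      rw [hrQ]
      exact h0
  have hisD : ∀ hr : MatCont rQ, 𝒟 (matRep rQ hr) := by
    intro hr
    have hpA : IsLocalHom (pA : PRing 𝒪 ⧸ (J ⊓ J') →+* PRing 𝒪 ⧸ J) :=
      FamilyA.isLocalHom_of_isArtinianRing _
    have hpB : IsLocalHom (pB : PRing 𝒪 ⧸ (J ⊓ J') →+* PRing 𝒪 ⧸ J') :=
      FamilyA.isLocalHom_of_isArtinianRing _
    have hcA : ((pA : PRing 𝒪 ⧸ (J ⊓ J') →+* PRing 𝒪 ⧸ J).mapMatrix :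
        M2 (PRing 𝒪 ⧸ (J ⊓ J')) →+* M2 (PRing 𝒪 ⧸ J)).toMonoidHom.comp rQ
        = FamilyB.taut hJ := by
      ext σ i j
      rfl
    have hcB : ((pB : PRing 𝒪 ⧸ (J ⊓ J') →+* PRing 𝒪 ⧸ J').mapMatrix :
        M2 (PRing 𝒪 ⧸ (J ⊓ J')) →+* M2 (PRing 𝒪 ⧸ J')).toMonoidHom.comp rQ
        = FamilyB.taut hJ' := by
      ext σ i j
      rfl
    have keyA : ∀ (r' : Gal →* M2 (PRing 𝒪 ⧸ J)), r' = FamilyB.taut hJ →
        ∀ hc : MatCont r', 𝒟 (matRep r' hc) := by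
      intro r' h hc
      subst h
      exact hdA.isD hc
    have keyB : ∀ (r' : Gal →* M2 (PRing 𝒪 ⧸ J')), r' = FamilyB.taut hJ' →
        ∀ hc : MatCont r', 𝒟 (matRep r' hc) := by
      intro r' h hc
      subst h
      exact hdB.isD hc
    refine h𝒟.of_fibreProduct hdA.art hdB.art hdC.art hart f g pA pB hpA hpB ?_ hinj ?_ ?_ ?_
    · apply AlgHom.ext
      intro x
      obtain ⟨p, rfl⟩ := Ideal.Quotient.mk_surjective x
      rfl
    · intro a b hab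
      obtain ⟨p, rfl⟩ := Ideal.Quotient.mk_surjective a
      obtain ⟨q, rfl⟩ := Ideal.Quotient.mk_surjective b
      have h1 : Ideal.Quotient.mk (J ⊔ J') p = Ideal.Quotient.mk (J ⊔ J') q := hab
      rw [Ideal.Quotient.eq, Submodule.mem_sup] at h1
      obtain ⟨j, hj, j', hj', hsum⟩ := h1
      refine ⟨Ideal.Quotient.mk (J ⊓ J') (p - j), ?_, ?_⟩
      · show Ideal.Quotient.mk J (p - j) = Ideal.Quotient.mk J p
        rw [Ideal.Quotient.eq]
        have : p - j - p = -j := by ring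
        rw [this]
        exact J.neg_mem hj
      · show Ideal.Quotient.mk J' (p - j) = Ideal.Quotient.mk J' q
        rw [Ideal.Quotient.eq]
        have : p - j - q = j' := by linear_combination -hsum
        rw [this]
        exact hj'
    · have hcontA : MatCont (((pA : PRing 𝒪 ⧸ (J ⊓ J') →+* PRing 𝒪 ⧸ J).mapMatrix :
          M2 (PRing 𝒪 ⧸ (J ⊓ J')) →+* M2 (PRing 𝒪 ⧸ J)).toMonoidHom.comp rQ) := by
        rw [hcA]
        exact hdA.cont
      have e := L8a.matRep_baseChangeAlong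
        (pA : PRing 𝒪 ⧸ (J ⊓ J') →+* PRing 𝒪 ⧸ J) hpA rQ hr hcontA
      exact h𝒟.of_isEquiv hdA.art ⟨e.some.symm⟩ (keyA _ hcA hcontA)
    · have hcontB : MatCont (((pB : PRing 𝒪 ⧸ (J ⊓ J') →+* PRing 𝒪 ⧸ J').mapMatrix :
          M2 (PRing 𝒪 ⧸ (J ⊓ J')) →+* M2 (PRing 𝒪 ⧸ J')).toMonoidHom.comp rQ) := by
        rw [hcB]
        exact hdB.cont
      have e := L8a.matRep_baseChangeAlong
        (pB : PRing 𝒪 ⧸ (J ⊓ J') →+* PRing 𝒪 ⧸ J') hpB rQ hr hcontB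
      exact h𝒟.of_isEquiv hdB.art ⟨e.some.symm⟩ (keyB _ hcB hcontB)
  refine ⟨PRing 𝒪 ⧸ (J ⊓ J'), inferInstance, inferInstance, inferInstance, rQ,
    ⟨hart, inferInstance, hcont, hlifts, hslice, hisD⟩, ?_⟩
  rw [hev]
  exact Ideal.Quotient.mkₐ_ker 𝒪 (J ⊓ J')

end Fermat.Agent.S53.FamilyC
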