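import Mathlib
import Fermat.Agent.S53.Defs

set_option autoImplicit false

namespace Fermat.Agent.S53.L1

open IsLocalRing Matrix Fermat.Agent.S53.H84

section Burnside

variable {G : Type*} [Monoid G]

/-- A two by two identity of Cayley-Hamilton type. -/
theorem mul_mul_self_fin_two {K : Type*} [CommRing K] (Z M : Matrix (Fin 2) (Fin 2) K) :
    Z * M * Z = (Z * M).trace • Z - Z.det • M.adjugate := by
  ext i j
  fin_cases i <;> fin_cases j <;>
    simp [Matrix.mul_apply, Fin.sum_univ_two, Matrix.trace, Matrix.det_fin_two,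
      Matrix.adjugate_fin_two] <;> ring

variable {K : Type*} [Field K]

/-- Singular case of the orthogonality argument. -/
theorem burnside_singular (r : G →* Matrix (Fin 2) (Fin 2) K)
    (hirr : ∀ U : Submodule K (Fin 2 → K), (∀ g, ∀ x ∈ U, (r g) *ᵥ x ∈ U) → U = ⊥ ∨ U = ⊤)
    (Z : Matrix (Fin 2) (Fin 2) K) (hdet : Z.det = 0) (hZ : ∀ g, (Z * r g).trace = 0) :
    Z = 0 := by
  let U : Submodule K (Fin 2 → K) :=
    { carrier := {x | ∀ g, Z *ᵥ (r g *ᵥ x) = 0}
      add_mem' := by
        intro x y hx hy g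
        rw [Matrix.mulVec_add, Matrix.mulVec_add, hx g, hy g, add_zero]
      zero_mem' := by
        intro g
        rw [Matrix.mulVec_zero, Matrix.mulVec_zero]
      smul_mem' := by
        intro c x hx g
        rw [Matrix.mulVec_smul, Matrix.mulVec_smul, hx g, smul_zero] }
  have hU : ∀ g, ∀ x ∈ U, (r g) *ᵥ x ∈ U := by
    intro g x hx h
    show Z *ᵥ (r h *ᵥ (r g *ᵥ x)) = 0
    have h1 : r h *ᵥ (r g *ᵥ x) = r (h * g) *ᵥ x := by rw [Matrix.mulVec_mulVec, map_mul]
    rw [h1]
    exact hx (h * g)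
  have hcol : ∀ y : Fin 2 → K, Z *ᵥ y ∈ U := by
    intro y g
    show Z *ᵥ (r g *ᵥ (Z *ᵥ y)) = 0
    rw [Matrix.mulVec_mulVec, Matrix.mulVec_mulVec,
      mul_mul_self_fin_two, hZ g, hdet, zero_smul, zero_smul, sub_zero, Matrix.zero_mulVec]
  have htop : U = ⊤ → Z = 0 := by
    intro h
    have h1 : ∀ x : Fin 2 → K, Z *ᵥ x = 0 := by
      intro x
      have hx : x ∈ U := h ▸ Submodule.mem_top
      have := hx 1
      rwa [map_one, Matrix.one_mulVec] at this
    ext i j
    have := congrFun (h1 (Pi.single j 1)) i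
    simpa using this
  rcases hirr U hU with hbot | htop'
  · have h1 : ∀ x : Fin 2 → K, Z *ᵥ x = 0 := by
      intro x
      have hx : Z *ᵥ x ∈ U := hcol x
      rw [hbot, Submodule.mem_bot] at hx
      exact hx
    ext i j
    have := congrFun (h1 (Pi.single j 1)) i
    simpa using this
  · exact htop htop'

/-- Burnside in dimension two over an algebraically closed field, orthogonal formulation. -/
theorem burnside_aux [IsAlgClosed K] (r : G →* Matrix (Fin 2) (Fin 2) K)
    (hirr : ∀ U : Submodule K (Fin 2 → K), (∀ g, ∀ x ∈ U, (r g) *ᵥ x ∈ U) → U = ⊥ ∨ U = ⊤)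
    (Z : Matrix (Fin 2) (Fin 2) K) (hZ : ∀ g, (Z * r g).trace = 0) : Z = 0 := by
  by_cases hdet : Z.det = 0
  · exact burnside_singular r hirr Z hdet hZ
  exfalso
  have hscal : ∀ h : G, ∃ μ : K, r h = μ • (1 : Matrix (Fin 2) (Fin 2) K) := by
    intro h
    obtain ⟨μ, hμ⟩ := Module.End.exists_eigenvalue (Matrix.toLin' (r h))
    obtain ⟨v, hv⟩ := hμ.exists_hasEigenvector
    have hv1 : (r h - μ • (1 : Matrix (Fin 2) (Fin 2) K)) *ᵥ v = 0 := by
      have := hv.apply_eq_smul
      rw [Matrix.toLin'_apply] at this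
      rw [Matrix.sub_mulVec, this, Matrix.smul_mulVec, Matrix.one_mulVec, sub_self]
    have hdet' : (r h - μ • (1 : Matrix (Fin 2) (Fin 2) K)).det = 0 :=
      Matrix.exists_mulVec_eq_zero_iff.mp ⟨v, hv.2, hv1⟩
    refine ⟨μ, ?_⟩
    have hY : (r h - μ • (1 : Matrix (Fin 2) (Fin 2) K)) * Z = 0 := by
      apply burnside_singular r hirr
      · rw [Matrix.det_mul, hdet', zero_mul]
      · intro g
        rw [Matrix.sub_mul, Matrix.sub_mul, Matrix.trace_sub, Matrix.smul_mul, Matrix.one_mul,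
          Matrix.smul_mul, Matrix.trace_smul, hZ g, smul_zero, sub_zero, Matrix.mul_assoc,
          Matrix.trace_mul_comm, Matrix.mul_assoc, ← map_mul]
        exact hZ (g * h)
    have hunit : IsUnit Z.det := isUnit_iff_ne_zero.mpr hdet
    have : (r h - μ • (1 : Matrix (Fin 2) (Fin 2) K)) = 0 := by
      have h2 := congrArg (· * Z⁻¹) hY
      simp only [Matrix.zero_mul] at h2
      rwa [Matrix.mul_assoc, Matrix.mul_nonsing_inv Z hunit, Matrix.mul_one] at h2
    exact sub_eq_zero.mp this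
  let U : Submodule K (Fin 2 → K) := Submodule.span K {Pi.single 0 1}
  have hU : ∀ g, ∀ x ∈ U, (r g) *ᵥ x ∈ U := by
    intro g x hx
    obtain ⟨μ, hμ⟩ := hscal g
    rw [hμ, Matrix.smul_mulVec, Matrix.one_mulVec]
    exact U.smul_mem μ hx
  rcases hirr U hU with hbot | htop
  · have : (Pi.single 0 1 : Fin 2 → K) ∈ U := Submodule.subset_span rfl
    rw [hbot, Submodule.mem_bot] at this
    have := congrFun this 0
    simp at this
  · have : (Pi.single 1 1 : Fin 2 → K) ∈ U := htop ▸ Submodule.mem_top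
    obtain ⟨c, hc⟩ := Submodule.mem_span_singleton.mp this
    have := congrFun hc 1
    simp at this

/-- Burnside in dimension two: an absolutely irreducible matrix representation spans the full
matrix algebra. -/
theorem burnside_dim2 {k : Type*} [Field k] (K : Type*) [Field K] [Algebra k K] [IsAlgClosed K]
    (r : G →* Matrix (Fin 2) (Fin 2) k)
    (hirr : ∀ U : Submodule K (Fin 2 → K),
      (∀ g, ∀ x ∈ U, ((r g).map (algebraMap k K)) *ᵥ x ∈ U) → U = ⊥ ∨ U = ⊤) :
    Submodule.span k (Set.range r) = ⊤ := by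
  by_contra hne
  obtain ⟨φ, hφ, hle⟩ := Submodule.exists_le_ker_of_lt_top _ (lt_top_iff_ne_top.mpr hne)
  have hφr : ∀ g, φ (r g) = 0 := fun g => hle (Submodule.subset_span ⟨g, rfl⟩)
  let Z₀ : Matrix (Fin 2) (Fin 2) k := Matrix.of fun i j => φ (Matrix.single j i 1)
  have hφY : ∀ Y : Matrix (Fin 2) (Fin 2) k, φ Y = (Z₀ * Y).trace := by
    intro Y
    have hY : Y = Y 0 0 • Matrix.single 0 0 (1 : k) + Y 0 1 • Matrix.single 0 1 (1 : k) +
        Y 1 0 • Matrix.single 1 0 (1 : k) + Y 1 1 • Matrix.single 1 1 (1 : k) := by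
      ext i j
      fin_cases i <;> fin_cases j <;> simp
    conv_lhs => rw [hY]
    simp only [map_add, map_smul, smul_eq_mul, Matrix.trace, Matrix.diag, Matrix.mul_apply,
      Fin.sum_univ_two, Z₀, Matrix.of_apply]
    ring
  let ι : k →+* K := algebraMap k K
  let r' : G →* Matrix (Fin 2) (Fin 2) K := (ι.mapMatrix : _ →+* _).toMonoidHom.comp r
  have hZ : ∀ g, (ι.mapMatrix Z₀ * r' g).trace = 0 := by
    intro g
    show (ι.mapMatrix Z₀ * ι.mapMatrix (r g)).trace = 0
    rw [← map_mul, RingHom.mapMatrix_apply, ← AddMonoidHom.map_trace ι (Z₀ * r g),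
      ← hφY, hφr, map_zero]
  have h0 := burnside_aux r' hirr (ι.mapMatrix Z₀) hZ
  have hZ₀ : Z₀ = 0 := by
    have hinj : Function.Injective (ι.mapMatrix : Matrix (Fin 2) (Fin 2) k →+* _) :=
      Matrix.map_injective ι.injective
    exact hinj (by rw [h0, map_zero])
  apply hφ
  ext Y
  rw [hφY, hZ₀, Matrix.zero_mul, Matrix.trace_zero, LinearMap.zero_apply]

end Burnside

section Slice

open scoped TensorProduct

variable {k : Type} [Field k]

/-- The matrix valued hom attached to a residual representation and a basis. -/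
noncomputable def matOf (ρbar : ResidualGaloisRep k) (b : Module.Basis (Fin 2) k ρbar.V) :
    Gal →* M2 k :=
  ((LinearMap.toMatrixAlgEquiv b : Module.End k ρbar.V ≃ₐ[k] M2 k) :
    Module.End k ρbar.V →* M2 k).comp ρbar.ρ

theorem matOf_apply (ρbar : ResidualGaloisRep k) (b : Module.Basis (Fin 2) k ρbar.V) (g : Gal) :
    matOf ρbar b g = LinearMap.toMatrix b b (ρbar.ρ g) := rfl

theorem matOf_irr (ρbar : ResidualGaloisRep k) (h : ρbar.IsAbsolutelyIrreducible)
    (b : Module.Basis (Fin 2) k ρbar.V) :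
    ∀ U : Submodule (AlgebraicClosure k) (Fin 2 → AlgebraicClosure k),
      (∀ g, ∀ x ∈ U, ((matOf ρbar b g).map (algebraMap k (AlgebraicClosure k))) *ᵥ x ∈ U) →
        U = ⊥ ∨ U = ⊤ := by
  intro U hU
  let bK : Module.Basis (Fin 2) (AlgebraicClosure k) (AlgebraicClosure k ⊗[k] ρbar.V) :=
    Algebra.TensorProduct.basis (AlgebraicClosure k) b
  let e : (AlgebraicClosure k ⊗[k] ρbar.V) ≃ₗ[AlgebraicClosure k] (Fin 2 → AlgebraicClosure k) :=
    bK.equivFun
  have hstab : ∀ σ : Gal, ∀ x ∈ U.comap e.toLinearMap,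
      (ρbar.baseChange (AlgebraicClosure k)).ρ σ x ∈ U.comap e.toLinearMap := by
    intro σ x hx
    rw [Submodule.mem_comap] at hx ⊢
    have h1 : e ((ρbar.ρ σ).baseChange (AlgebraicClosure k) x) =
        ((matOf ρbar b σ).map (algebraMap k (AlgebraicClosure k))) *ᵥ (e x) := by
      rw [matOf_apply, ← LinearMap.toMatrix_baseChange]
      exact (LinearMap.toMatrix_mulVec_repr bK bK _ x).symm
    exact h1 ▸ hU σ _ hx
  have hsurj : Function.Surjective e.toLinearMap := e.surjective
  rcases h (U.comap e.toLinearMap) hstab with h1 | h1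
  · left
    rw [← Submodule.map_comap_eq_of_surjective hsurj U, h1, Submodule.map_bot]
  · right
    rw [← Submodule.map_comap_eq_of_surjective hsurj U, h1, Submodule.map_top,
      LinearMap.range_eq_top.mpr hsurj]

theorem exists_finsupp_sum_eq (ρbar : ResidualGaloisRep k) (h : ρbar.IsAbsolutelyIrreducible)
    (b : Module.Basis (Fin 2) k ρbar.V) (T : M2 k) :
    ∃ u : Gal →₀ k, (u.sum fun g c => c • LinearMap.toMatrix b b (ρbar.ρ g)) = T := by
  have hspan := burnside_dim2 (AlgebraicClosure k) (matOf ρbar b) (matOf_irr ρbar h b)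
  have hT : T ∈ Submodule.span k (Set.range (matOf ρbar b)) := hspan ▸ Submodule.mem_top
  exact Finsupp.mem_span_range_iff_exists_finsupp.mp hT

/-- Burnside in dimension two, packaged as the existence of a slice basis. -/
theorem exists_slice_basis (ρbar : ResidualGaloisRep k)
    (h : ρbar.IsAbsolutelyIrreducible) :
    ∃ (b : Module.Basis (Fin 2) k ρbar.V) (u : Gal →₀ k) (g₀ : Gal),
      (u.sum fun g c => c • LinearMap.toMatrix b b (ρbar.ρ g)) 1 0 = 0 ∧
      (u.sum fun g c => c • LinearMap.toMatrix b b (ρbar.ρ g)) 0 0 ≠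
        (u.sum fun g c => c • LinearMap.toMatrix b b (ρbar.ρ g)) 1 1 ∧
      LinearMap.toMatrix b b (ρbar.ρ g₀) 0 0 = 0 ∧ LinearMap.toMatrix b b (ρbar.ρ g₀) 1 0 = 1 := by
  classical
  let b₀ : Module.Basis (Fin 2) k ρbar.V := Module.finBasisOfFinrankEq k ρbar.V ρbar.finrank_eq
  -- a group element moving the first basis vector off its line
  obtain ⟨u₀, hu₀⟩ := exists_finsupp_sum_eq ρbar h b₀ (Matrix.single 1 0 1)
  have hg₀ : ∃ g₀ : Gal, LinearMap.toMatrix b₀ b₀ (ρbar.ρ g₀) 1 0 ≠ 0 := by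
    by_contra hcon
    push Not at hcon
    have h1 := congrFun (congrFun hu₀ 1) 0
    rw [Finsupp.sum, Matrix.sum_apply] at h1
    simp only [Matrix.smul_apply, hcon, smul_zero, Finset.sum_const_zero] at h1
    simp at h1
  obtain ⟨g₀, hg₀⟩ := hg₀
  have hrepr : b₀.repr (ρbar.ρ g₀ (b₀ 0)) 1 ≠ 0 := by
    rwa [LinearMap.toMatrix_apply] at hg₀
  have hli : LinearIndependent k ![b₀ 0, ρbar.ρ g₀ (b₀ 0)] := by
    rw [LinearIndependent.pair_iff]
    intro s t hst
    have h1 := congrArg (fun v => b₀.repr v 1) hst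
    simp only [map_add, map_smul, Finsupp.add_apply, Finsupp.smul_apply, smul_eq_mul,
      Module.Basis.repr_self, map_zero, Finsupp.zero_apply] at h1
    rw [Finsupp.single_eq_of_ne (by decide), mul_zero, zero_add] at h1
    have ht : t = 0 := by
      rcases mul_eq_zero.mp h1 with h2 | h2
      · exact h2
      · exact absurd h2 hrepr
    subst ht
    rw [zero_smul, add_zero] at hst
    exact ⟨(smul_eq_zero.mp hst).resolve_right (b₀.ne_zero 0), rfl⟩
  let b : Module.Basis (Fin 2) k ρbar.V :=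
    basisOfLinearIndependentOfCardEqFinrank hli (by rw [ρbar.finrank_eq]; rfl)
  have hb : ⇑b = ![b₀ 0, ρbar.ρ g₀ (b₀ 0)] := coe_basisOfLinearIndependentOfCardEqFinrank _ _
  have hb0 : b 0 = b₀ 0 := by rw [hb]; rfl
  have hb1 : b 1 = ρbar.ρ g₀ (b 0) := by rw [hb]; rfl
  obtain ⟨u, hu⟩ := exists_finsupp_sum_eq ρbar h b (Matrix.single 0 0 1)
  refine ⟨b, u, g₀, ?_, ?_, ?_, ?_⟩
  · rw [hu]; simp
  · rw [hu]; simp
  · rw [LinearMap.toMatrix_apply, ← hb1, Module.Basis.repr_self]
    simp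
  · rw [LinearMap.toMatrix_apply, ← hb1, Module.Basis.repr_self]
    simp

end Slice

end Fermat.Agent.S53.L1
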