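import Mathlib
import Fermat.Agent.S53.Defs
import Fermat.Agent.S53.Slice
import Fermat.Agent.S53.Family0
import Fermat.Agent.S53.L1
import Fermat.Agent.S53.L8a

set_option autoImplicit false

namespace Fermat.Agent.S53.StageA

open IsLocalRing Fermat.Agent.S53.H84

/-- A section of the residue map sending `0` to `0`. -/
noncomputable def sec (𝒪 : Type) [CommRing 𝒪] [IsLocalRing 𝒪] (c : ResidueField 𝒪) : 𝒪 :=
  open Classical in if c = 0 then 0 else Function.surjInv (residue_surjective (R := 𝒪)) c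

theorem residue_sec {𝒪 : Type} [CommRing 𝒪] [IsLocalRing 𝒪] (c : ResidueField 𝒪) :
    residue 𝒪 (sec 𝒪 c) = c := by
  unfold sec
  split_ifs with h
  · rw [map_zero, h]
  · exact Function.surjInv_eq residue_surjective c

theorem sec_zero (𝒪 : Type) [CommRing 𝒪] [IsLocalRing 𝒪] : sec 𝒪 0 = 0 := by
  unfold sec
  rw [if_pos rfl]

theorem residue_ext_apply {𝒪 : Type} [CommRing 𝒪] [IsLocalRing 𝒪] (ub : Gal →₀ ResidueField 𝒪)
    (rt : Gal → M2 𝒪) (rb : Gal → M2 (ResidueField 𝒪))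
    (h : ∀ σ i j, residue 𝒪 (rt σ i j) = rb σ i j) (i j : Fin 2) :
    residue 𝒪 (ext (ub.mapRange (sec 𝒪) (sec_zero 𝒪)) rt i j) =
      (ub.sum fun g c => c • rb g) i j := by
  rw [ext_apply, Finsupp.sum_mapRange_index (by intro a; simp)]
  simp only [Finsupp.sum, map_sum, map_mul, Matrix.sum_apply, Matrix.smul_apply, smul_eq_mul]
  refine Finset.sum_congr rfl fun g _ => ?_
  rw [h]
  congr 1
  exact residue_sec _

theorem ext_residueField_apply {𝒪 : Type} [CommRing 𝒪] [IsLocalRing 𝒪]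
    (ub : Gal →₀ ResidueField 𝒪) (rb : Gal → M2 (ResidueField 𝒪)) (i j : Fin 2) :
    ext (ub.mapRange (sec 𝒪) (sec_zero 𝒪)) rb i j = (ub.sum fun g c => c • rb g) i j := by
  rw [ext_apply, Finsupp.sum_mapRange_index (by intro a; simp)]
  simp only [Finsupp.sum, Matrix.sum_apply, Matrix.smul_apply, smul_eq_mul]
  refine Finset.sum_congr rfl fun g _ => ?_
  congr 1
  exact residue_sec _

theorem exists_setup {𝒪 : Type} [CommRing 𝒪] [IsLocalRing 𝒪]
    (ρbar : ResidualGaloisRep (ResidueField 𝒪)) (habs : ρbar.IsAbsolutelyIrreducible) :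
    ∃ (b : Module.Basis (Fin 2) (ResidueField 𝒪) ρbar.V) (rt : Gal → M2 𝒪) (u : Gal →₀ 𝒪)
      (g₀ : Gal),
      (∀ σ i j, residue 𝒪 (rt σ i j) = LinearMap.toMatrix b b (ρbar.ρ σ) i j) ∧
      SliceData rt u g₀ ∧
      ∃ (rb : Gal →* M2 (ResidueField 𝒪)) (hrb : MatCont rb),
        (∀ σ, rb σ = LinearMap.toMatrix b b (ρbar.ρ σ)) ∧ InSlice u g₀ rb ∧
        (GaloisRepAdic.ofResidualGaloisRep ρbar).IsEquiv (matRep rb hrb) := by
  obtain ⟨b, ub, g₀, h10, hne, hg00, hg10⟩ := L1.exists_slice_basis ρbar habs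
  obtain ⟨rb, hrb, hrb_eq, heq⟩ := L8a.residual_matRep ρbar b
  let rt : Gal → M2 𝒪 := fun σ => Matrix.of fun i j => sec 𝒪 (rb σ i j)
  have hrt' : ∀ σ i j, residue 𝒪 (rt σ i j) = rb σ i j := fun σ i j => residue_sec _
  have hrt : ∀ σ i j, residue 𝒪 (rt σ i j) = LinearMap.toMatrix b b (ρbar.ρ σ) i j := by
    intro σ i j
    rw [hrt', hrb_eq]
  have hsum : ∀ i j, (ub.sum fun g c => c • rb g) i j =
      (ub.sum fun g c => c • LinearMap.toMatrix b b (ρbar.ρ g)) i j := by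
    intro i j
    simp only [hrb_eq]
  refine ⟨b, rt, ub.mapRange (sec 𝒪) (sec_zero 𝒪), g₀, hrt, ?_, rb, hrb, hrb_eq, ?_, heq⟩
  · refine ⟨?_, ?_, ?_, ?_⟩
    · rw [← residue_eq_zero_iff, residue_ext_apply ub rt rb hrt', hsum]
      exact h10
    · rw [← residue_eq_zero_iff, map_sub, residue_ext_apply ub rt rb hrt',
        residue_ext_apply ub rt rb hrt', hsum, hsum, sub_eq_zero]
      exact hne
    · rw [← residue_eq_zero_iff, hrt]
      exact hg00
    · rw [← residue_eq_zero_iff, map_sub, hrt, hg10, map_one, sub_self]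
  · refine ⟨?_, ?_, ?_⟩
    · rw [ext_residueField_apply, hsum]
      exact h10
    · rw [hrb_eq]; exact hg00
    · rw [hrb_eq]; exact hg10

theorem good_mP {𝒪 : Type} [CommRing 𝒪] [IsLocalRing 𝒪] [Finite (ResidueField 𝒪)]
    (ρbar : ResidualGaloisRep (ResidueField 𝒪))
    (𝒟 : ∀ ⦃A : Type⦄ [CommRing A] [IsLocalRing A] [Algebra 𝒪 A], GaloisRepAdic A → Prop)
    (h𝒟 : GaloisRep.IsDeformationCondition 𝒪 𝒟)
    (hbar : 𝒟 (GaloisRepAdic.ofResidualGaloisRep ρbar))
    (b : Module.Basis (Fin 2) (ResidueField 𝒪) ρbar.V) (rt : Gal → M2 𝒪) (u : Gal →₀ 𝒪)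
    (g₀ : Gal)
    (hrt : ∀ σ i j, residue 𝒪 (rt σ i j) = LinearMap.toMatrix b b (ρbar.ρ σ) i j)
    (rb : Gal →* M2 (ResidueField 𝒪)) (hrb : MatCont rb)
    (hrb_eq : ∀ σ, rb σ = LinearMap.toMatrix b b (ρbar.ρ σ)) (hsl : InSlice u g₀ rb)
    (heq : (GaloisRepAdic.ofResidualGaloisRep ρbar).IsEquiv (matRep rb hrb)) :
    Good 𝒟 rt u g₀ (mP rt) := by
  have hart : GaloisRep.IsArtinianTestAlgebra 𝒪 (ResidueField 𝒪) :=
    { isLocalHom := by
        rw [ResidueField.algebraMap_eq]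
        infer_instance
      residue_surjective := by
        rw [ResidueField.algebraMap_eq]
        exact (residue_surjective (R := ResidueField 𝒪)).comp residue_surjective
      isArtinian := inferInstance }
  refine ⟨ResidueField 𝒪, inferInstance, inferInstance, inferInstance, rb, ?_, ?_⟩
  · refine ⟨hart, inferInstance, hrb, ?_, hsl, ?_⟩
    · intro σ i j
      rw [ResidueField.algebraMap_eq, hrt, hrb_eq, sub_self]
      exact Ideal.zero_mem _
    · intro hr
      exact h𝒟.of_isEquiv hart heq hbar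
  · unfold mP
    congr 2
    funext g
    ext i j
    rw [RingHom.mapMatrix_apply, Matrix.map_apply, hrt, hrb_eq]

end Fermat.Agent.S53.StageA
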