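import Mathlib

set_option autoImplicit false

open IsLocalRing

namespace Fermat.Agent.S53.L5

section L5sec

variable {𝒪 : Type} [CommRing 𝒪] [IsLocalRing 𝒪] {A : Type} [CommRing A] [IsLocalRing A]
  [Algebra 𝒪 A]

/-- the section `k → A` induced by the structure map when it kills the maximal ideal -/
noncomputable def l5_sec (hπ : ∀ c ∈ maximalIdeal 𝒪, algebraMap 𝒪 A c = 0) :
    ResidueField 𝒪 →+* A :=
  Ideal.Quotient.lift (maximalIdeal 𝒪) (algebraMap 𝒪 A) hπ

omit [IsLocalRing A] in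
theorem l5_sec_residue (hπ : ∀ c ∈ maximalIdeal 𝒪, algebraMap 𝒪 A c = 0) (r : 𝒪) :
    l5_sec hπ (IsLocalRing.residue 𝒪 r) = algebraMap 𝒪 A r :=
  Ideal.Quotient.lift_mk _ _ _

theorem l5_bij (hres : Function.Surjective (IsLocalRing.residue A ∘ algebraMap 𝒪 A))
    (hπ : ∀ c ∈ maximalIdeal 𝒪, algebraMap 𝒪 A c = 0) :
    Function.Bijective ((IsLocalRing.residue A).comp (l5_sec hπ)) := by
  refine ⟨RingHom.injective _, fun y => ?_⟩
  obtain ⟨r, hr⟩ := hres y
  refine ⟨IsLocalRing.residue 𝒪 r, ?_⟩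
  rw [RingHom.comp_apply, l5_sec_residue]
  exact hr

/-- the residue map with values in the residue field of the base -/
noncomputable def l5_c (hres : Function.Surjective (IsLocalRing.residue A ∘ algebraMap 𝒪 A))
    (hπ : ∀ c ∈ maximalIdeal 𝒪, algebraMap 𝒪 A c = 0) : A →+* ResidueField 𝒪 :=
  ((RingEquiv.ofBijective _ (l5_bij hres hπ)).symm : ResidueField A →+* ResidueField 𝒪).comp
    (IsLocalRing.residue A)

theorem l5_c_sec (hres : Function.Surjective (IsLocalRing.residue A ∘ algebraMap 𝒪 A))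
    (hπ : ∀ c ∈ maximalIdeal 𝒪, algebraMap 𝒪 A c = 0) (x : ResidueField 𝒪) :
    l5_c hres hπ (l5_sec hπ x) = x := by
  unfold l5_c
  rw [RingHom.comp_apply]
  exact (RingEquiv.ofBijective _ (l5_bij hres hπ)).symm_apply_apply x

theorem l5_sub_mem (hres : Function.Surjective (IsLocalRing.residue A ∘ algebraMap 𝒪 A))
    (hπ : ∀ c ∈ maximalIdeal 𝒪, algebraMap 𝒪 A c = 0) (b : A) :
    b - l5_sec hπ (l5_c hres hπ b) ∈ maximalIdeal A := by
  rw [← Ideal.Quotient.eq_zero_iff_mem]
  change IsLocalRing.residue A (b - l5_sec hπ (l5_c hres hπ b)) = 0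
  rw [map_sub, sub_eq_zero]
  have h := (RingEquiv.ofBijective _ (l5_bij hres hπ)).apply_symm_apply (IsLocalRing.residue A b)
  exact h.symm

theorem l5_mul_eq (hres : Function.Surjective (IsLocalRing.residue A ∘ algebraMap 𝒪 A))
    (hsq : ∀ x ∈ maximalIdeal A, ∀ y ∈ maximalIdeal A, x * y = 0)
    (hπ : ∀ c ∈ maximalIdeal 𝒪, algebraMap 𝒪 A c = 0) (b b' : A) :
    b * b' = l5_sec hπ (l5_c hres hπ b) * b' + l5_sec hπ (l5_c hres hπ b') * b
      - l5_sec hπ (l5_c hres hπ b * l5_c hres hπ b') := by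
  have h := hsq _ (l5_sub_mem hres hπ b) _ (l5_sub_mem hres hπ b')
  rw [map_mul]
  linear_combination h

theorem exists_algHom_dualNumber_ne_zero
    (hres : Function.Surjective (IsLocalRing.residue A ∘ algebraMap 𝒪 A))
    (hsq : ∀ x ∈ maximalIdeal A, ∀ y ∈ maximalIdeal A, x * y = 0)
    (hπ : ∀ c ∈ maximalIdeal 𝒪, algebraMap 𝒪 A c = 0)
    (a : A) (ha : a ≠ 0) :
    letI : Algebra 𝒪 (DualNumber (ResidueField 𝒪)) :=
      ((algebraMap (ResidueField 𝒪) (DualNumber (ResidueField 𝒪))).comp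
        (algebraMap 𝒪 (ResidueField 𝒪))).toAlgebra
    ∃ g : A →ₐ[𝒪] DualNumber (ResidueField 𝒪), g a ≠ 0 := by
  let inst : Algebra 𝒪 (DualNumber (ResidueField 𝒪)) :=
    ((algebraMap (ResidueField 𝒪) (DualNumber (ResidueField 𝒪))).comp
      (algebraMap 𝒪 (ResidueField 𝒪))).toAlgebra
  set s := l5_sec (A := A) hπ with hs
  set c := l5_c hres hπ with hc
  let _ : Algebra (ResidueField 𝒪) A := s.toAlgebra
  have hsmul : ∀ (x : ResidueField 𝒪) (y : A), x • y = s x * y := fun x y => rfl
  -- the functional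
  obtain ⟨L, hL0, hLa⟩ : ∃ L : A →ₗ[ResidueField 𝒪] ResidueField 𝒪,
      (∀ x, L (s x) = 0) ∧ (c a = 0 → L a ≠ 0) := by
    by_cases hca : c a = 0
    · have hnot : a ∉ LinearMap.range (Algebra.linearMap (ResidueField 𝒪) A) := by
        rintro ⟨x, hx⟩
        have hx' : s x = a := hx
        have : c a = x := by rw [← hx']; exact l5_c_sec hres hπ x
        rw [hca] at this
        rw [← this, map_zero] at hx'
        exact ha hx'.symm
      obtain ⟨f, hfa, hf⟩ := Submodule.exists_le_ker_of_notMem hnot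
      refine ⟨f, fun x => ?_, fun _ => hfa⟩
      have : s x ∈ LinearMap.range (Algebra.linearMap (ResidueField 𝒪) A) := ⟨x, rfl⟩
      exact LinearMap.mem_ker.mp (hf this)
    · exact ⟨0, fun _ => rfl, fun h => absurd h hca⟩
  have hLs : ∀ (x : ResidueField 𝒪) (y : A), L (s x * y) = x * L y := by
    intro x y
    rw [← hsmul, map_smul, smul_eq_mul]
  have hLmul : ∀ b b' : A, L (b * b') = c b * L b' + c b' * L b := by
    intro b b'
    rw [l5_mul_eq hres hsq hπ b b', map_sub, map_add, hLs, hLs, hL0, sub_zero]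
  let g : A →ₐ[𝒪] DualNumber (ResidueField 𝒪) :=
    { toFun := fun b => TrivSqZeroExt.inl (c b) + TrivSqZeroExt.inr (L b)
      map_one' := by
        have h1 : L 1 = 0 := by simpa using hL0 1
        apply TrivSqZeroExt.ext <;> simp [h1]
      map_mul' := by
        intro b b'
        apply TrivSqZeroExt.ext
        · simp
        · simp [hLmul, mul_comm]
      map_zero' := by
        apply TrivSqZeroExt.ext <;> simp
      map_add' := by
        intro b b'
        apply TrivSqZeroExt.ext <;> simp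
      commutes' := by
        intro r
        have h1 : algebraMap 𝒪 A r = s (IsLocalRing.residue 𝒪 r) :=
          (l5_sec_residue hπ r).symm
        have h2 : algebraMap 𝒪 (DualNumber (ResidueField 𝒪)) r =
            TrivSqZeroExt.inl (IsLocalRing.residue 𝒪 r) := rfl
        rw [h2]
        show TrivSqZeroExt.inl (c (algebraMap 𝒪 A r)) + TrivSqZeroExt.inr (L (algebraMap 𝒪 A r)) = _
        rw [h1, hL0, hc, l5_c_sec]
        simp }
  refine ⟨g, fun hg => ?_⟩
  have hfst : c a = 0 := by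
    have := congrArg TrivSqZeroExt.fst hg
    simpa [g] using this
  have hsnd : L a = 0 := by
    have := congrArg TrivSqZeroExt.snd hg
    simpa [g] using this
  exact hLa hfst hsnd

end L5sec

end Fermat.Agent.S53.L5
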