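import Mathlib
import Fermat.Agent.S53.Defs

set_option autoImplicit false

open IsLocalRing Fermat.Agent.S53.H84
open scoped TensorProduct

namespace Fermat.Agent.S53.L8b

section general

variable {k k' : Type} [Field k] [Field k']

/-- Matrix entries of the base change of a residual representation along a field hom. -/
theorem toMatrix_baseChangeAlong (φ : k →+* k') (ρbar : ResidualGaloisRep k)
    (b : Module.Basis (Fin 2) k ρbar.V) (σ : Gal) :
    letI : Algebra k k' := φ.toAlgebra
    LinearMap.toMatrix (Algebra.TensorProduct.basis k' b) (Algebra.TensorProduct.basis k' b)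
      ((ρbar.baseChangeAlong φ).ρ σ) = (LinearMap.toMatrix b b (ρbar.ρ σ)).map φ := by
  let _ : Algebra k k' := φ.toAlgebra
  exact LinearMap.toMatrix_baseChange k' (ρbar.ρ σ) b b

/-- A residual representation with the same matrices (after applying `φ`) as `ρbar` is
equivalent to the base change of `ρbar` along `φ`. -/
theorem isEquiv_baseChangeAlong_of_toMatrix (φ : k →+* k') (ρbar : ResidualGaloisRep k)
    (b : Module.Basis (Fin 2) k ρbar.V) (ρ' : ResidualGaloisRep k')
    (c : Module.Basis (Fin 2) k' ρ'.V)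
    (h : ∀ σ i j, LinearMap.toMatrix c c (ρ'.ρ σ) i j = φ (LinearMap.toMatrix b b (ρbar.ρ σ) i j)) :
    ρ'.IsEquiv (ρbar.baseChangeAlong φ) := by
  let _ : Algebra k k' := φ.toAlgebra
  let b' : Module.Basis (Fin 2) k' (ρbar.baseChangeAlong φ).V := Algebra.TensorProduct.basis k' b
  refine ⟨⟨c.equiv b' (Equiv.refl _), fun σ x => ?_⟩⟩
  have key : (c.equiv b' (Equiv.refl _)).toLinearMap ∘ₗ (ρ'.ρ σ) =
      ((ρbar.baseChangeAlong φ).ρ σ) ∘ₗ (c.equiv b' (Equiv.refl _)).toLinearMap := by
    refine c.ext fun j => ?_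
    apply b'.repr.injective
    ext i
    have hrepr : ∀ y : ρ'.V, b'.repr ((c.equiv b' (Equiv.refl _)) y) = c.repr y := by
      intro y
      simp [Module.Basis.equiv]
    have h1 : b'.repr ((c.equiv b' (Equiv.refl _)) ((ρ'.ρ σ) (c j))) i =
        LinearMap.toMatrix c c (ρ'.ρ σ) i j := by
      rw [LinearMap.toMatrix_apply, hrepr]
    have h2 : b'.repr (((ρbar.baseChangeAlong φ).ρ σ) ((c.equiv b' (Equiv.refl _)) (c j))) i =
        LinearMap.toMatrix b' b' ((ρbar.baseChangeAlong φ).ρ σ) i j := by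
      rw [LinearMap.toMatrix_apply, Module.Basis.equiv_apply]
      rfl
    have h3 : LinearMap.toMatrix b' b' ((ρbar.baseChangeAlong φ).ρ σ) i j =
        φ (LinearMap.toMatrix b b (ρbar.ρ σ) i j) :=
      congrFun (congrFun (toMatrix_baseChangeAlong φ ρbar b σ) i) j
    simp only [LinearMap.coe_comp, LinearEquiv.coe_coe, Function.comp_apply]
    exact h1.trans ((h σ i j).trans (h3.symm.trans h2.symm))
  exact LinearMap.congr_fun key x

/-- Conversely, an equivalence with a base change transports the basis. -/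
theorem exists_basis_of_isEquiv_baseChangeAlong (φ : k →+* k') (ρbar : ResidualGaloisRep k)
    (b : Module.Basis (Fin 2) k ρbar.V) (ρ' : ResidualGaloisRep k')
    (h : ρ'.IsEquiv (ρbar.baseChangeAlong φ)) :
    ∃ c : Module.Basis (Fin 2) k' ρ'.V, ∀ σ i j,
      LinearMap.toMatrix c c (ρ'.ρ σ) i j = φ (LinearMap.toMatrix b b (ρbar.ρ σ) i j) := by
  let _ : Algebra k k' := φ.toAlgebra
  obtain ⟨e⟩ := h
  let b' : Module.Basis (Fin 2) k' (ρbar.baseChangeAlong φ).V := Algebra.TensorProduct.basis k' b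
  refine ⟨b'.map e.toLinearEquiv.symm, fun σ i j => ?_⟩
  have h3 : LinearMap.toMatrix b' b' ((ρbar.baseChangeAlong φ).ρ σ) i j =
      φ (LinearMap.toMatrix b b (ρbar.ρ σ) i j) :=
    congrFun (congrFun (toMatrix_baseChangeAlong φ ρbar b σ) i) j
  rw [← h3, LinearMap.toMatrix_apply, LinearMap.toMatrix_apply, Module.Basis.map_repr,
    Module.Basis.map_apply]
  simp only [LinearEquiv.symm_symm, LinearEquiv.trans_apply]
  rw [e.map_apply, LinearEquiv.apply_symm_apply]

end general

section dict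

variable {A : Type} [CommRing A] [IsLocalRing A]

omit [IsLocalRing A] in
/-- Coordinates of an element of `I • ⊤` lie in `I`. -/
theorem repr_mem_of_mem_smul_top {V : Type} [AddCommGroup V] [Module A V]
    (c : Module.Basis (Fin 2) A V) (I : Ideal A) {x : V}
    (hx : x ∈ I • (⊤ : Submodule A V)) (i : Fin 2) : c.repr x i ∈ I := by
  refine Submodule.smul_induction_on (p := fun x => c.repr x i ∈ I) hx ?_ ?_
  · intro a ha w _
    rw [map_smul, Finsupp.smul_apply, smul_eq_mul]
    exact Ideal.mul_mem_right _ _ ha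
  · intro x y hx hy
    rw [map_add, Finsupp.add_apply]
    exact Ideal.add_mem _ hx hy

/-- The matrix valued hom attached to a basis of an adic representation. -/
noncomputable def matOf (ρA : GaloisRepAdic A) (c : Module.Basis (Fin 2) A ρA.V) :
    Gal →* M2 A :=
  ((LinearMap.toMatrixAlgEquiv c : Module.End A ρA.V ≃ₐ[A] M2 A) : Module.End A ρA.V →* M2 A).comp
    ρA.ρ

theorem matOf_apply (ρA : GaloisRepAdic A) (c : Module.Basis (Fin 2) A ρA.V) (σ : Gal) :
    matOf ρA c σ = LinearMap.toMatrix c c (ρA.ρ σ) := rfl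

theorem matOf_matCont (ρA : GaloisRepAdic A) (c : Module.Basis (Fin 2) A ρA.V) :
    MatCont (matOf ρA c) := by
  intro n
  obtain ⟨L, hL, h⟩ := ρA.isAdicContinuous n
  refine ⟨L, hL, fun σ hσ i j => ?_⟩
  have h1 : (matOf ρA c σ - 1) i j = c.repr (ρA.ρ σ (c j) - c j) i := by
    rw [matOf_apply, Matrix.sub_apply, LinearMap.toMatrix_apply, map_sub, Finsupp.sub_apply,
      Module.Basis.repr_self, Matrix.one_apply, Finsupp.single_apply]
    congr 1
    by_cases hij : i = j
    · simp [hij]
    · simp [hij, Ne.symm hij]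
  rw [h1]
  exact repr_mem_of_mem_smul_top c _ (h σ hσ (c j)) i

theorem isEquiv_matRep_matOf (ρA : GaloisRepAdic A) (c : Module.Basis (Fin 2) A ρA.V) :
    ρA.IsEquiv (matRep (matOf ρA c) (matOf_matCont ρA c)) := by
  refine ⟨⟨c.equivFun, fun σ x => ?_⟩⟩
  show c.equivFun (ρA.ρ σ x) = (matOf ρA c σ).mulVec (c.equivFun x)
  rw [matOf_apply]
  exact (LinearMap.toMatrix_mulVec_repr c c (ρA.ρ σ) x).symm

/-- Lift a basis of the residual module to a basis of the free module. -/
theorem exists_basis_lift (ρA : GaloisRepAdic A)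
    (bk : Module.Basis (Fin 2) (ResidueField A) (ResidueField A ⊗[A] ρA.V)) :
    ∃ c : Module.Basis (Fin 2) A ρA.V,
      Algebra.TensorProduct.basis (ResidueField A) c = bk := by
  have hsurj : Function.Surjective (TensorProduct.mk A (ResidueField A) ρA.V 1) :=
    TensorProduct.mk_surjective A ρA.V (ResidueField A) Ideal.Quotient.mk_surjective
  choose v hv using fun i => hsurj (bk i)
  have hcomp : (TensorProduct.mk A (ResidueField A) ρA.V 1) ∘ v = bk := funext hv
  have hli : LinearIndependent A v := by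
    apply Module.IsLocalRing.linearIndependent_of_flat
    rw [hcomp]
    exact bk.linearIndependent
  have hsp : Submodule.span A (Set.range v) = ⊤ :=
    IsLocalRing.span_eq_top_of_tmul_eq_basis v bk hv
  refine ⟨Module.Basis.mk hli hsp.ge, ?_⟩
  apply Module.Basis.eq_of_apply_eq
  intro i
  rw [Algebra.TensorProduct.basis_apply, Module.Basis.mk_apply]
  exact hv i

theorem toMatrix_residual (ρA : GaloisRepAdic A) (c : Module.Basis (Fin 2) A ρA.V) (σ : Gal) :
    LinearMap.toMatrix (Algebra.TensorProduct.basis (ResidueField A) c)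
      (Algebra.TensorProduct.basis (ResidueField A) c) (ρA.residual.ρ σ) =
      (LinearMap.toMatrix c c (ρA.ρ σ)).map (residue A) :=
  LinearMap.toMatrix_baseChange (ResidueField A) (ρA.ρ σ) c c

variable {𝒪 : Type} [CommRing 𝒪] [IsLocalRing 𝒪] [Algebra 𝒪 A] [IsLocalHom (algebraMap 𝒪 A)]

theorem exists_matRep_equiv (ρbar : ResidualGaloisRep (ResidueField 𝒪))
    (b : Module.Basis (Fin 2) (ResidueField 𝒪) ρbar.V) (rt : Gal → M2 𝒪)
    (hrt : ∀ σ i j, residue 𝒪 (rt σ i j) = LinearMap.toMatrix b b (ρbar.ρ σ) i j)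
    (ρA : GaloisRepAdic A)
    (hres : ρA.residual.IsEquiv
      (ρbar.baseChangeAlong (IsLocalRing.ResidueField.map (algebraMap 𝒪 A)))) :
    ∃ (r : Gal →* M2 A) (hr : MatCont r), Lifts rt r ∧ ρA.IsEquiv (matRep r hr) := by
  obtain ⟨bk, hbk⟩ := exists_basis_of_isEquiv_baseChangeAlong
    (IsLocalRing.ResidueField.map (algebraMap 𝒪 A)) ρbar b ρA.residual hres
  obtain ⟨c, hc⟩ := exists_basis_lift ρA bk
  refine ⟨matOf ρA c, matOf_matCont ρA c, fun σ i j => ?_, isEquiv_matRep_matOf ρA c⟩
  subst hc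
  have h1 := hbk σ i j
  have h2 := congrFun (congrFun (toMatrix_residual ρA c σ) i) j
  rw [Matrix.map_apply] at h2
  rw [← hrt, ResidueField.map_residue] at h1
  rw [matOf_apply, ← Ideal.Quotient.eq]
  exact h2.symm.trans h1

theorem matRep_residual_isEquiv (ρbar : ResidualGaloisRep (ResidueField 𝒪))
    (b : Module.Basis (Fin 2) (ResidueField 𝒪) ρbar.V) (rt : Gal → M2 𝒪)
    (hrt : ∀ σ i j, residue 𝒪 (rt σ i j) = LinearMap.toMatrix b b (ρbar.ρ σ) i j)
    (r : Gal →* M2 A) (hr : MatCont r) (hl : Lifts rt r) :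
    (matRep r hr).residual.IsEquiv
      (ρbar.baseChangeAlong (IsLocalRing.ResidueField.map (algebraMap 𝒪 A))) := by
  refine isEquiv_baseChangeAlong_of_toMatrix _ ρbar b _
    (Algebra.TensorProduct.basis (ResidueField A) (Pi.basisFun A (Fin 2))) fun σ i j => ?_
  have h0 : LinearMap.toMatrix (Pi.basisFun A (Fin 2)) (Pi.basisFun A (Fin 2))
      ((matRep r hr).ρ σ) = r σ := by
    rw [LinearMap.toMatrix_eq_toMatrix']
    exact LinearMap.toMatrix'_toLin' (r σ)
  have h1 := congrFun (congrFun (toMatrix_residual (matRep r hr) (Pi.basisFun A (Fin 2)) σ) i) j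
  have h2 : ((LinearMap.toMatrix (Pi.basisFun A (Fin 2)) (Pi.basisFun A (Fin 2)))
      ((matRep r hr).ρ σ)).map (⇑(residue A)) i j = residue A (r σ i j) := by
    rw [Matrix.map_apply]
    exact congrArg (residue A) (congrFun (congrFun h0 i) j)
  rw [← hrt, ResidueField.map_residue]
  refine h1.trans (h2.trans ?_)
  exact Ideal.Quotient.eq.mpr (hl σ i j)

end dict

end Fermat.Agent.S53.L8b
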