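import Mathlib
import Fermat.Agent.S53.Defs
import Fermat.Agent.S53.Slice
import Fermat.Agent.S53.Family0
import Fermat.Agent.S53.L8a
import Fermat.Agent.S53.L8b

set_option autoImplicit false

namespace Fermat.Agent.S53.StageC1

open IsLocalRing Fermat.Agent.S53.H84

/-- The `𝒪`-algebra structure on the dual numbers over the residue field used by
`GaloisRep.TangentFinite`. -/
@[reducible] noncomputable def dualAlg (𝒪 : Type) [CommRing 𝒪] [IsLocalRing 𝒪] :
    Algebra 𝒪 (DualNumber (ResidueField 𝒪)) :=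
  ((algebraMap (ResidueField 𝒪) (DualNumber (ResidueField 𝒪))).comp
    (algebraMap 𝒪 (ResidueField 𝒪))).toAlgebra

/-- The residue field map of the structure map of the dual numbers. -/
theorem residueFieldMap_dualAlg (𝒪 : Type) [CommRing 𝒪] [IsLocalRing 𝒪]
    (hloc : letI := dualAlg 𝒪; IsLocalHom (algebraMap 𝒪 (DualNumber (ResidueField 𝒪)))) :
    letI := dualAlg 𝒪
    haveI := hloc
    IsLocalRing.ResidueField.map (algebraMap 𝒪 (DualNumber (ResidueField 𝒪))) =
      (IsLocalRing.residue (DualNumber (ResidueField 𝒪))).comp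
        (algebraMap (ResidueField 𝒪) (DualNumber (ResidueField 𝒪))) := by
  let _ := dualAlg 𝒪
  have := hloc
  refine RingHom.ext fun y => ?_
  obtain ⟨x, rfl⟩ := IsLocalRing.residue_surjective y
  rfl

/-- There are only finitely many slice deformations of type `𝒟` to the dual numbers over the
residue field: they inject into the (finite) set of equivalence classes of `TangentFinite`. -/
theorem finite_isDef_dual {𝒪 : Type} [CommRing 𝒪] [IsLocalRing 𝒪]
    (ρbar : ResidualGaloisRep (ResidueField 𝒪))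
    (𝒟 : ∀ ⦃A : Type⦄ [CommRing A] [IsLocalRing A] [Algebra 𝒪 A], GaloisRepAdic A → Prop)
    (hfin : GaloisRep.TangentFinite 𝒪 ρbar 𝒟)
    (b : Module.Basis (Fin 2) (ResidueField 𝒪) ρbar.V) (rt : Gal → M2 𝒪) (u : Gal →₀ 𝒪)
    (g₀ : Gal)
    (hrt : ∀ σ i j, residue 𝒪 (rt σ i j) = LinearMap.toMatrix b b (ρbar.ρ σ) i j)
    (hs : SliceData rt u g₀) :
    letI := dualAlg 𝒪
    Finite {r : Gal →* M2 (DualNumber (ResidueField 𝒪)) //
      IsDef 𝒟 rt u g₀ (DualNumber (ResidueField 𝒪)) r} := by
  let _ := dualAlg 𝒪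
  let _ : Algebra (ResidueField 𝒪) (ResidueField (DualNumber (ResidueField 𝒪))) :=
    ((IsLocalRing.residue (DualNumber (ResidueField 𝒪))).comp
      (algebraMap (ResidueField 𝒪) (DualNumber (ResidueField 𝒪)))).toAlgebra
  unfold GaloisRep.TangentFinite at hfin
  -- the residual condition
  have hres : ∀ (r : Gal →* M2 (DualNumber (ResidueField 𝒪)))
      (h : IsDef 𝒟 rt u g₀ (DualNumber (ResidueField 𝒪)) r),
      (matRep r h.cont).residual.IsEquiv
        (ρbar.baseChange (ResidueField (DualNumber (ResidueField 𝒪)))) := by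
    intro r h
    have := h.art.isLocalHom
    have h1 := L8b.matRep_residual_isEquiv ρbar b rt hrt r h.cont h.lifts
    have h2 := residueFieldMap_dualAlg 𝒪 h.art.isLocalHom
    rw [h2] at h1
    exact h1
  refine @Finite.of_injective _ _ hfin
    (fun r => Quotient.mk _ ⟨matRep r.1 r.2.cont, r.2.isD _, hres r.1 r.2⟩) ?_
  rintro ⟨r, h⟩ ⟨r', h'⟩ hrr'
  have h1 : (matRep r h.cont).IsEquiv (matRep r' h'.cont) := Quotient.exact hrr'
  obtain ⟨M, hM, hconj⟩ := (L8a.matRep_isEquiv_iff r r' h.cont h'.cont).mp h1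
  have := h.art.isLocalHom
  exact Subtype.ext (slice_unique hs r r' h.lifts h'.lifts h.slice h'.slice M hM hconj)

end Fermat.Agent.S53.StageC1
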