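import Mathlib
import Fermat.Agent.S53.Defs
import Fermat.Agent.S53.Slice
import Fermat.Agent.S53.Family0
import Fermat.Agent.S53.FamilyM
import Fermat.Agent.S53.FamilyA
import Fermat.Agent.S53.FamilyB
import Fermat.Agent.S53.FamilyC
import Fermat.Agent.S53.L5
import Fermat.Agent.S53.L8a
import Fermat.Agent.S53.L8b
import Fermat.Agent.S53.StageC1_aux_helper94

set_option autoImplicit false

namespace Fermat.Agent.S53.StageC1

open IsLocalRing Fermat.Agent.S53.H84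

section dual

variable (𝒪 : Type) [CommRing 𝒪] [IsLocalRing 𝒪]

/-- The dual numbers over a finite field are finite. -/
theorem finite_dual [Finite (ResidueField 𝒪)] : Finite (DualNumber (ResidueField 𝒪)) := by
  refine Finite.of_injective
    (fun x : DualNumber (ResidueField 𝒪) => (TrivSqZeroExt.fst x, TrivSqZeroExt.snd x)) ?_
  intro x y h
  simp only [Prod.mk.injEq] at h
  exact TrivSqZeroExt.ext h.1 h.2

/-- The dual numbers over the (finite) residue field are an Artinian test algebra. -/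
theorem isArtinianTestAlgebra_dual [Finite (ResidueField 𝒪)] :
    letI := dualAlg 𝒪
    GaloisRep.IsArtinianTestAlgebra 𝒪 (DualNumber (ResidueField 𝒪)) := by
  let _ := dualAlg 𝒪
  have := finite_dual 𝒪
  refine ⟨⟨fun c hc => ?_⟩, ?_, inferInstance⟩
  · have h1 : algebraMap 𝒪 (DualNumber (ResidueField 𝒪)) c =
        TrivSqZeroExt.inl (residue 𝒪 c) := rfl
    rw [h1] at hc
    have h2 : IsUnit (residue 𝒪 c) := by
      have := hc.map (TrivSqZeroExt.fstHom (ResidueField 𝒪) (ResidueField 𝒪) (ResidueField 𝒪))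
      simpa using this
    by_contra hnu
    have : residue 𝒪 c = 0 := (residue_eq_zero_iff c).mpr hnu
    rw [this] at h2
    exact not_isUnit_zero h2
  · intro x
    obtain ⟨y, rfl⟩ := residue_surjective x
    obtain ⟨c, hc⟩ := residue_surjective (TrivSqZeroExt.fst y)
    refine ⟨c, ?_⟩
    have h1 : algebraMap 𝒪 (DualNumber (ResidueField 𝒪)) c =
        TrivSqZeroExt.inl (residue 𝒪 c) := rfl
    simp only [Function.comp_apply]
    rw [h1, hc, ← sub_eq_zero, ← map_sub, residue_eq_zero_iff]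
    intro hu
    have h3 := hu.map (TrivSqZeroExt.fstHom (ResidueField 𝒪) (ResidueField 𝒪) (ResidueField 𝒪))
    simp at h3

end dual

section main

variable {𝒪 : Type} [CommRing 𝒪] [IsLocalRing 𝒪]
variable {𝒟 : ∀ ⦃A : Type⦄ [CommRing A] [IsLocalRing A] [Algebra 𝒪 A], GaloisRepAdic A → Prop}
variable {rt : Gal → M2 𝒪} {u : Gal →₀ 𝒪} {g₀ : Gal}

/-- Finitely many good ideals have a common good lower bound. -/
theorem exists_good_le_of_finite (h𝒟 : GaloisRep.IsDeformationCondition 𝒪 𝒟)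
    (hm : Good 𝒟 rt u g₀ (mP rt)) {ι : Type} [Finite ι] (F : ι → Ideal (PRing 𝒪))
    (hF : ∀ i, Good 𝒟 rt u g₀ (F i)) :
    ∃ J₁ : Ideal (PRing 𝒪), Good 𝒟 rt u g₀ J₁ ∧ ∀ i, J₁ ≤ F i := by
  classical
  cases nonempty_fintype ι
  have key : ∀ s : Finset ι, ∃ J₁ : Ideal (PRing 𝒪), Good 𝒟 rt u g₀ J₁ ∧ ∀ i ∈ s, J₁ ≤ F i := by
    intro s
    induction s using Finset.induction_on with
    | empty => exact ⟨mP rt, hm, fun i hi => absurd hi (Finset.notMem_empty i)⟩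
    | insert a s _ ih =>
      obtain ⟨J, hJ, hle⟩ := ih
      refine ⟨J ⊓ F a, FamilyC.Good.inf h𝒟 hJ (hF a), fun i hi => ?_⟩
      rcases Finset.mem_insert.mp hi with rfl | hi
      · exact inf_le_right
      · exact inf_le_left.trans (hle i hi)
  obtain ⟨J₁, hJ₁, hle⟩ := key Finset.univ
  exact ⟨J₁, hJ₁, fun i => hle i (Finset.mem_univ i)⟩

end main

/-- Finiteness of the tangent space: there is a smallest good ideal above `mP ^ 2 + m_𝒪 P`. -/
theorem exists_tangent_ideal {𝒪 : Type} [CommRing 𝒪] [IsLocalRing 𝒪] [Finite (ResidueField 𝒪)]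
    (ρbar : ResidualGaloisRep (ResidueField 𝒪))
    (𝒟 : ∀ ⦃A : Type⦄ [CommRing A] [IsLocalRing A] [Algebra 𝒪 A], GaloisRepAdic A → Prop)
    (h𝒟 : GaloisRep.IsDeformationCondition 𝒪 𝒟)
    (hfin : GaloisRep.TangentFinite 𝒪 ρbar 𝒟)
    (b : Module.Basis (Fin 2) (ResidueField 𝒪) ρbar.V) (rt : Gal → M2 𝒪) (u : Gal →₀ 𝒪)
    (g₀ : Gal)
    (hrt : ∀ σ i j, residue 𝒪 (rt σ i j) = LinearMap.toMatrix b b (ρbar.ρ σ) i j)
    (hs : SliceData rt u g₀) (hm : Good 𝒟 rt u g₀ (mP rt)) :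
    ∃ J₁ : Ideal (PRing 𝒪), Good 𝒟 rt u g₀ J₁ ∧
      ∀ J, Good 𝒟 rt u g₀ J →
        mP rt ^ 2 ⊔ (maximalIdeal 𝒪).map (MvPolynomial.C : 𝒪 →+* PRing 𝒪) ≤ J → J₁ ≤ J := by
  let instAlg : Algebra 𝒪 (DualNumber (ResidueField 𝒪)) := dualAlg 𝒪
  have hDart : GaloisRep.IsArtinianTestAlgebra 𝒪 (DualNumber (ResidueField 𝒪)) :=
    isArtinianTestAlgebra_dual 𝒪
  have hDfin : Finite (DualNumber (ResidueField 𝒪)) := finite_dual 𝒪
  have hT : Finite {r : Gal →* M2 (DualNumber (ResidueField 𝒪)) //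
      IsDef 𝒟 rt u g₀ (DualNumber (ResidueField 𝒪)) r} :=
    finite_isDef_dual ρbar 𝒟 hfin b rt u g₀ hrt hs
  obtain ⟨J₁, hJ₁, hle⟩ := exists_good_le_of_finite h𝒟 hm
    (fun r : {r : Gal →* M2 (DualNumber (ResidueField 𝒪)) //
      IsDef 𝒟 rt u g₀ (DualNumber (ResidueField 𝒪)) r} => RingHom.ker (evalP (𝒪 := 𝒪) r.1))
    (fun r => ⟨_, _, _, _, r.1, r.2, rfl⟩)
  refine ⟨J₁, hJ₁, fun J hJ hIJ p hp => ?_⟩
  by_contra hpJ
  obtain ⟨A, _, _, _, r, hr, hker, hsurj⟩ := FamilyB.Good.exists_surjective h𝒟 hJ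
  have : IsLocalHom (algebraMap 𝒪 A) := hr.art.isLocalHom
  have hmem : ∀ q : PRing 𝒪, q ∈ J ↔ evalP (𝒪 := 𝒪) r q = 0 := by
    intro q
    rw [← hker]
    exact RingHom.mem_ker
  have ha : evalP (𝒪 := 𝒪) r p ≠ 0 := fun h0 => hpJ ((hmem p).mpr h0)
  have hsq : ∀ x ∈ maximalIdeal A, ∀ y ∈ maximalIdeal A, x * y = 0 := by
    intro x hx y hy
    obtain ⟨px, rfl⟩ := hsurj x
    obtain ⟨py, rfl⟩ := hsurj y
    rw [FamilyM.evalP_mem_maximalIdeal_iff hr.lifts] at hx hy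
    have h1 : px * py ∈ J := hIJ (Ideal.mem_sup_left (by
      rw [pow_two]
      exact Ideal.mul_mem_mul hx hy))
    rw [← map_mul]
    exact (hmem _).mp h1
  have hπ : ∀ c ∈ maximalIdeal 𝒪, algebraMap 𝒪 A c = 0 := by
    intro c hc
    have h1 : (MvPolynomial.C c : PRing 𝒪) ∈ J :=
      hIJ (Ideal.mem_sup_right (Ideal.mem_map_of_mem _ hc))
    rw [← evalP_C (𝒪 := 𝒪) r c]
    exact (hmem _).mp h1
  obtain ⟨g, hg⟩ := L5.exists_algHom_dualNumber_ne_zero hr.art.residue_surjective hsq hπ _ ha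
  have hdef := FamilyA.IsDef.map h𝒟 hDart hr g
  have h2 : p ∈ RingHom.ker (evalP (𝒪 := 𝒪)
      ((((g : A →+* DualNumber (ResidueField 𝒪)).mapMatrix :
        M2 A →+* M2 (DualNumber (ResidueField 𝒪))).toMonoidHom.comp r))) :=
    hle ⟨_, hdef⟩ hp
  apply hg
  have hcomp := comp_evalP g (fun σ => r σ)
  have h3 := AlgHom.congr_fun hcomp p
  rw [AlgHom.comp_apply] at h3
  rw [h3]
  exact h2

end Fermat.Agent.S53.StageC1
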