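import Mathlib

set_option autoImplicit false

open IsLocalRing

namespace Fermat.Agent.S53.L4

section L4sec

variable {𝒪 A : Type} [CommRing 𝒪] [IsLocalRing 𝒪] [CommRing A]
    [IsLocalRing A] [Algebra 𝒪 A]

omit [IsLocalRing 𝒪] in
theorem l4_step0
    (hres : Function.Surjective (IsLocalRing.residue A ∘ algebraMap 𝒪 A))
    {d : ℕ} (x : Fin d → A) (a : A) :
    ∃ b ∈ (MvPolynomial.aeval x : MvPolynomial (Fin d) 𝒪 →ₐ[𝒪] A).range,
      a - b ∈ maximalIdeal A := by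
  obtain ⟨c, hc⟩ := hres (IsLocalRing.residue A a)
  refine ⟨algebraMap 𝒪 A c, Subalgebra.algebraMap_mem _ c, ?_⟩
  rw [← Ideal.Quotient.eq_zero_iff_mem]
  have : IsLocalRing.residue A (a - algebraMap 𝒪 A c) = 0 := by
    rw [map_sub]
    simp only [Function.comp_apply] at hc
    rw [hc, sub_self]
  exact this

theorem l4_step1 [IsLocalHom (algebraMap 𝒪 A)]
    (hres : Function.Surjective (IsLocalRing.residue A ∘ algebraMap 𝒪 A))
    {d : ℕ} (x : Fin d → A)
    (hgen : ∀ a ∈ maximalIdeal A, ∃ i,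
      a - x i ∈ maximalIdeal A ^ 2 ⊔ (maximalIdeal 𝒪).map (algebraMap 𝒪 A))
    (a : A) (ha : a ∈ maximalIdeal A) :
    ∃ b ∈ (MvPolynomial.aeval x : MvPolynomial (Fin d) 𝒪 →ₐ[𝒪] A).range,
      a - b ∈ maximalIdeal A ^ 2 := by
  set B := (MvPolynomial.aeval x : MvPolynomial (Fin d) 𝒪 →ₐ[𝒪] A).range with hB
  -- elements of the extended ideal
  have key : ∀ e ∈ (maximalIdeal 𝒪).map (algebraMap 𝒪 A),
      e ∈ maximalIdeal A ∧ ∃ b ∈ B, e - b ∈ maximalIdeal A ^ 2 := by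
    intro e he
    refine Submodule.span_induction ?_ ?_ ?_ ?_ he
    · rintro _ ⟨c, hc, rfl⟩
      refine ⟨?_, algebraMap 𝒪 A c, Subalgebra.algebraMap_mem _ c, by simp⟩
      exact map_nonunit (algebraMap 𝒪 A) c hc
    · exact ⟨Ideal.zero_mem _, 0, Subalgebra.zero_mem _, by simp⟩
    · rintro e₁ e₂ - - ⟨h1, b1, hb1, h1'⟩ ⟨h2, b2, hb2, h2'⟩
      refine ⟨Ideal.add_mem _ h1 h2, b1 + b2, Subalgebra.add_mem _ hb1 hb2, ?_⟩
      have : e₁ + e₂ - (b1 + b2) = (e₁ - b1) + (e₂ - b2) := by ring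
      rw [this]
      exact Ideal.add_mem _ h1' h2'
    · rintro r e - ⟨h1, b1, hb1, h1'⟩
      obtain ⟨br, hbr, hr⟩ := l4_step0 hres x r
      refine ⟨Ideal.mul_mem_left _ r h1, br * b1, Subalgebra.mul_mem _ hbr hb1, ?_⟩
      have hb1m : b1 ∈ maximalIdeal A := by
        have : b1 = e - (e - b1) := by ring
        rw [this]
        exact Ideal.sub_mem _ h1 (Ideal.pow_le_self two_ne_zero h1')
      have : r • e - br * b1 = (r - br) * b1 + r * (e - b1) := by
        simp only [smul_eq_mul]; ring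
      rw [this]
      refine Ideal.add_mem _ ?_ (Ideal.mul_mem_left _ r h1')
      rw [pow_two]
      exact Ideal.mul_mem_mul hr hb1m
  obtain ⟨i, hi⟩ := hgen a ha
  obtain ⟨n, hn, e, he, hne⟩ := Submodule.mem_sup.mp hi
  obtain ⟨-, b, hb, hb'⟩ := key e he
  refine ⟨x i + b, Subalgebra.add_mem _ ⟨MvPolynomial.X i, by simp⟩ hb, ?_⟩
  have : a - (x i + b) = n + (e - b) := by
    have : a - x i = n + e := hne.symm
    linear_combination this
  rw [this]
  exact Ideal.add_mem _ hn hb'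

theorem l4_stepj [IsLocalHom (algebraMap 𝒪 A)]
    (hres : Function.Surjective (IsLocalRing.residue A ∘ algebraMap 𝒪 A))
    {d : ℕ} (x : Fin d → A)
    (hgen : ∀ a ∈ maximalIdeal A, ∃ i,
      a - x i ∈ maximalIdeal A ^ 2 ⊔ (maximalIdeal 𝒪).map (algebraMap 𝒪 A))
    (j : ℕ) (a : A) (ha : a ∈ maximalIdeal A ^ j) :
    ∃ b ∈ (MvPolynomial.aeval x : MvPolynomial (Fin d) 𝒪 →ₐ[𝒪] A).range,
      a - b ∈ maximalIdeal A ^ (j + 1) := by
  set B := (MvPolynomial.aeval x : MvPolynomial (Fin d) 𝒪 →ₐ[𝒪] A).range with hB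
  induction j generalizing a with
  | zero =>
    obtain ⟨b, hb, h⟩ := l4_step0 hres x a
    exact ⟨b, hb, by simpa using h⟩
  | succ j ih =>
    rw [pow_succ] at ha
    refine Submodule.mul_induction_on ha ?_ ?_
    · intro s hs r hr
      obtain ⟨bs, hbs, hs'⟩ := ih s hs
      obtain ⟨br, hbr, hr'⟩ := l4_step1 hres x hgen r hr
      refine ⟨bs * br, Subalgebra.mul_mem _ hbs hbr, ?_⟩
      have hbsm : bs ∈ maximalIdeal A ^ j := by
        have : bs = s - (s - bs) := by ring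
        rw [this]
        exact Ideal.sub_mem _ hs (Ideal.pow_le_pow_right (Nat.le_succ j) hs')
      have : s * r - bs * br = bs * (r - br) + (s - bs) * r := by ring
      rw [this]
      refine Ideal.add_mem _ ?_ ?_
      · have : maximalIdeal A ^ (j + 1 + 1) = maximalIdeal A ^ j * maximalIdeal A ^ 2 := by
          rw [← pow_add]
        rw [this]
        exact Ideal.mul_mem_mul hbsm hr'
      · rw [pow_succ (maximalIdeal A) (j + 1)]
        exact Ideal.mul_mem_mul hs' hr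
    · rintro a₁ a₂ ⟨b1, hb1, h1⟩ ⟨b2, hb2, h2⟩
      refine ⟨b1 + b2, Subalgebra.add_mem _ hb1 hb2, ?_⟩
      have : a₁ + a₂ - (b1 + b2) = (a₁ - b1) + (a₂ - b2) := by ring
      rw [this]
      exact Ideal.add_mem _ h1 h2

set_option linter.unusedVariables false in
theorem aeval_surjective_of_cotangent [IsLocalHom (algebraMap 𝒪 A)] [IsArtinianRing A]
    (hres : Function.Surjective (IsLocalRing.residue A ∘ algebraMap 𝒪 A))
    {d : ℕ} (x : Fin d → A) (hx : ∀ i, x i ∈ maximalIdeal A)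
    (hgen : ∀ a ∈ maximalIdeal A, ∃ i,
      a - x i ∈ maximalIdeal A ^ 2 ⊔ (maximalIdeal 𝒪).map (algebraMap 𝒪 A)) :
    Function.Surjective (MvPolynomial.aeval x : MvPolynomial (Fin d) 𝒪 →ₐ[𝒪] A) := by
  set B := (MvPolynomial.aeval x : MvPolynomial (Fin d) 𝒪 →ₐ[𝒪] A).range with hB
  have main : ∀ j : ℕ, ∀ a : A, ∃ b ∈ B, a - b ∈ maximalIdeal A ^ j := by
    intro j
    induction j with
    | zero => intro a; exact ⟨0, Subalgebra.zero_mem _, by simp⟩
    | succ j ih =>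
      intro a
      obtain ⟨b, hb, h⟩ := ih a
      obtain ⟨b', hb', h'⟩ := l4_stepj hres x hgen j (a - b) h
      refine ⟨b + b', Subalgebra.add_mem _ hb hb', ?_⟩
      have : a - (b + b') = a - b - b' := by ring
      rw [this]; exact h'
  obtain ⟨n, hn⟩ : ∃ n : ℕ, maximalIdeal A ^ n = ⊥ := by
    have h := IsArtinianRing.isNilpotent_jacobson_bot (R := A)
    rw [IsLocalRing.jacobson_eq_maximalIdeal ⊥ bot_ne_top] at h
    exact h
  intro a
  obtain ⟨b, hb, h⟩ := main n a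
  rw [hn, Ideal.mem_bot, sub_eq_zero] at h
  obtain ⟨q, hq⟩ := hb
  exact ⟨q, by rw [h, ← hq]; rfl⟩

end L4sec

end Fermat.Agent.S53.L4
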