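import Mathlib
import Fermat.Agent.S53.Defs
import Fermat.Agent.S53.Slice
import Fermat.Agent.S53.Family0
import Fermat.Agent.S53.FamilyM
import Fermat.Agent.S53.FamilyA
import Fermat.Agent.S53.FamilyB
import Fermat.Agent.S53.L4

set_option autoImplicit false

namespace Fermat.Agent.S53.StageC2

open IsLocalRing Fermat.Agent.S53.H84

/-- The tangent level ideal is contained in `mP`. -/
theorem tangentLevel_le_mP {𝒪 : Type} [CommRing 𝒪] [IsLocalRing 𝒪] (rt : Gal → M2 𝒪) :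
    mP rt ^ 2 ⊔ (maximalIdeal 𝒪).map (MvPolynomial.C : 𝒪 →+* PRing 𝒪) ≤ mP rt := by
  refine sup_le (Ideal.pow_le_self two_ne_zero) ?_
  rw [Ideal.map_le_iff_le_comap]
  intro c hc
  exact FamilyM.C_mem_mP rt hc

/-- Finitely many representatives of the classes of `mP` modulo an ideal of finite index. -/
theorem exists_reps {𝒪 : Type} [CommRing 𝒪] [IsLocalRing 𝒪] (rt : Gal → M2 𝒪)
    (Js : Ideal (PRing 𝒪)) [Finite (PRing 𝒪 ⧸ Js)] :
    ∃ (d : ℕ) (x : Fin d → PRing 𝒪), (∀ i, x i ∈ mP rt) ∧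
      ∀ p ∈ mP rt, ∃ i, p - x i ∈ Js := by
  classical
  let T : Type := {c : PRing 𝒪 ⧸ Js // ∃ p ∈ mP rt, Ideal.Quotient.mk Js p = c}
  have : Finite T := inferInstance
  let e : T ≃ Fin (Nat.card T) := Finite.equivFin T
  refine ⟨Nat.card T, fun i => Classical.choose (e.symm i).2,
    fun i => (Classical.choose_spec (e.symm i).2).1, fun p hp => ?_⟩
  refine ⟨e ⟨Ideal.Quotient.mk Js p, p, hp, rfl⟩, ?_⟩
  have h := (Classical.choose_spec (e.symm (e ⟨Ideal.Quotient.mk Js p, p, hp, rfl⟩)).2).2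
  rw [← Ideal.Quotient.eq]
  rw [h]
  simp

/-- From the smallest good ideal above `mP ^ 2 + m_𝒪 P` to finitely many generators. -/
theorem exists_generators_of_tangent_ideal {𝒪 : Type} [CommRing 𝒪] [IsLocalRing 𝒪]
    (𝒟 : ∀ ⦃A : Type⦄ [CommRing A] [IsLocalRing A] [Algebra 𝒪 A], GaloisRepAdic A → Prop)
    (h𝒟 : GaloisRep.IsDeformationCondition 𝒪 𝒟)
    (rt : Gal → M2 𝒪) (u : Gal →₀ 𝒪) (g₀ : Gal)
    (J₁ : Ideal (PRing 𝒪)) (hJ₁ : Good 𝒟 rt u g₀ J₁)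
    (hmin : ∀ J, Good 𝒟 rt u g₀ J →
        mP rt ^ 2 ⊔ (maximalIdeal 𝒪).map (MvPolynomial.C : 𝒪 →+* PRing 𝒪) ≤ J → J₁ ≤ J) :
    ∃ (d : ℕ) (x : Fin d → PRing 𝒪), (∀ i, x i ∈ mP rt) ∧
      ∀ J, Good 𝒟 rt u g₀ J → ∀ p : PRing 𝒪,
        ∃ q : MvPolynomial (Fin d) 𝒪, p - MvPolynomial.aeval x q ∈ J := by
  classical
  have hfin : Finite (PRing 𝒪 ⧸ J₁) := FamilyA.Good.finite_quotient hJ₁
  obtain ⟨d, x, hx, hrep⟩ := exists_reps rt J₁
  refine ⟨d, x, hx, fun J hJ p => ?_⟩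
  -- `J₁ ≤ J ⊔ I0`
  have hJI0 : J₁ ≤ J ⊔ (mP rt ^ 2 ⊔ (maximalIdeal 𝒪).map (MvPolynomial.C : 𝒪 →+* PRing 𝒪)) := by
    refine hmin _ (FamilyB.Good.of_le h𝒟 hJ le_sup_left ?_) le_sup_right
    exact sup_le (FamilyA.Good.le_mP hJ) (tangentLevel_le_mP rt)
  obtain ⟨A, _, _, _, r, hdef, hker, hsurj⟩ := FamilyB.Good.exists_surjective h𝒟 hJ
  have := hdef.art.isLocalHom
  have := hdef.art.isArtinian
  have hmem : ∀ p : PRing 𝒪, evalP (𝒪 := 𝒪) r p ∈ maximalIdeal A ↔ p ∈ mP rt :=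
    fun p => FamilyM.evalP_mem_maximalIdeal_iff hdef.lifts p
  -- image of `J ⊔ I0`
  have hmap : Ideal.map (evalP (𝒪 := 𝒪) r)
      (J ⊔ (mP rt ^ 2 ⊔ (maximalIdeal 𝒪).map (MvPolynomial.C : 𝒪 →+* PRing 𝒪))) ≤
        maximalIdeal A ^ 2 ⊔ (maximalIdeal 𝒪).map (algebraMap 𝒪 A) := by
    rw [Ideal.map_sup, Ideal.map_sup, Ideal.map_pow]
    refine sup_le ?_ (sup_le_sup ?_ ?_)
    · rw [Ideal.map_le_iff_le_comap, ← hker]
      intro q hq
      rw [Ideal.mem_comap]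
      rw [RingHom.mem_ker] at hq
      rw [hq]
      exact Ideal.zero_mem _
    · refine Ideal.pow_right_mono ?_ 2
      rw [Ideal.map_le_iff_le_comap]
      intro q hq
      exact (hmem q).mpr hq
    · rw [Ideal.map_le_iff_le_comap, Ideal.map_le_iff_le_comap]
      intro c hc
      rw [Ideal.mem_comap, Ideal.mem_comap, evalP_C]
      exact Ideal.mem_map_of_mem _ hc
  have hL4 : Function.Surjective
      (MvPolynomial.aeval (fun i => evalP (𝒪 := 𝒪) r (x i)) : MvPolynomial (Fin d) 𝒪 →ₐ[𝒪] A) := by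
    refine L4.aeval_surjective_of_cotangent hdef.art.residue_surjective _
      (fun i => (hmem (x i)).mpr (hx i)) (fun a ha => ?_)
    obtain ⟨p, rfl⟩ := hsurj a
    obtain ⟨i, hi⟩ := hrep p ((hmem p).mp ha)
    refine ⟨i, hmap ?_⟩
    rw [← map_sub]
    exact Ideal.mem_map_of_mem _ (hJI0 hi)
  obtain ⟨q, hq⟩ := hL4 (evalP (𝒪 := 𝒪) r p)
  refine ⟨q, ?_⟩
  rw [← hker, RingHom.mem_ker, map_sub, sub_eq_zero, ← hq]
  have := MvPolynomial.comp_aeval (R := 𝒪) (fun i => x i) (evalP (𝒪 := 𝒪) r)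
  exact (DFunLike.congr_fun this q).symm

end Fermat.Agent.S53.StageC2
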