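import Mathlib
import Fermat.Agent.S53.Defs
import Fermat.Agent.S53.Family0
import Fermat.Agent.S53.StageC1
import Fermat.Agent.S53.StageC2

set_option autoImplicit false

namespace Fermat.Agent.S53.StageC

open IsLocalRing Fermat.Agent.S53.H84

/-- Finiteness of the tangent space gives finitely many topological generators. -/
theorem exists_generators {𝒪 : Type} [CommRing 𝒪] [IsLocalRing 𝒪] [Finite (ResidueField 𝒪)]
    (ρbar : ResidualGaloisRep (ResidueField 𝒪))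
    (𝒟 : ∀ ⦃A : Type⦄ [CommRing A] [IsLocalRing A] [Algebra 𝒪 A], GaloisRepAdic A → Prop)
    (h𝒟 : GaloisRep.IsDeformationCondition 𝒪 𝒟)
    (hfin : GaloisRep.TangentFinite 𝒪 ρbar 𝒟)
    (b : Module.Basis (Fin 2) (ResidueField 𝒪) ρbar.V) (rt : Gal → M2 𝒪) (u : Gal →₀ 𝒪)
    (g₀ : Gal)
    (hrt : ∀ σ i j, residue 𝒪 (rt σ i j) = LinearMap.toMatrix b b (ρbar.ρ σ) i j)
    (hs : SliceData rt u g₀) (hm : Good 𝒟 rt u g₀ (mP rt)) :
    ∃ (d : ℕ) (x : Fin d → PRing 𝒪), (∀ i, x i ∈ mP rt) ∧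
      ∀ J, Good 𝒟 rt u g₀ J → ∀ p : PRing 𝒪,
        ∃ q : MvPolynomial (Fin d) 𝒪, p - MvPolynomial.aeval x q ∈ J := by
  obtain ⟨J₁, hJ₁, hmin⟩ :=
    StageC1.exists_tangent_ideal ρbar 𝒟 h𝒟 hfin b rt u g₀ hrt hs hm
  exact StageC2.exists_generators_of_tangent_ideal 𝒟 h𝒟 rt u g₀ J₁ hJ₁ hmin

end Fermat.Agent.S53.StageC
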