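import Mathlib

set_option autoImplicit false

namespace Fermat.Agent.S53.L2

open MvPowerSeries IsLocalRing Finsupp

section PowerSeriesComplete

variable {σ : Type*} {R : Type*} [CommRing R] [IsLocalRing R]

/-- Build a power series from its coefficient function. -/
def psOfFun (c : (σ →₀ ℕ) → R) : MvPowerSeries σ R := c

omit [IsLocalRing R] in
lemma coeff_psOfFun (c : (σ →₀ ℕ) → R) (a : σ →₀ ℕ) : coeff a (psOfFun c) = c a := rfl

lemma mem_maxIdeal_mvPowerSeries_iff (f : MvPowerSeries σ R) :
    f ∈ maximalIdeal (MvPowerSeries σ R) ↔ constantCoeff f ∈ maximalIdeal R := by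
  rw [mem_maximalIdeal, mem_maximalIdeal, mem_nonunits_iff, mem_nonunits_iff,
    MvPowerSeries.isUnit_iff_constantCoeff]

lemma coeff_mem_of_mem_maxIdeal_pow : ∀ (n : ℕ) (f : MvPowerSeries σ R),
    f ∈ maximalIdeal (MvPowerSeries σ R) ^ n → ∀ a : σ →₀ ℕ,
      coeff a f ∈ maximalIdeal R ^ (n - degree a) := by
  classical
  intro n
  induction n with
  | zero => intro f _ a; simp
  | succ n ih =>
    intro f hf a
    rw [pow_succ'] at hf
    refine Submodule.mul_induction_on hf ?_ ?_
    · intro g hg h hh
      rw [coeff_mul]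
      refine Ideal.sum_mem _ fun p hp => ?_
      have hp' : p.1 + p.2 = a := Finset.HasAntidiagonal.mem_antidiagonal.mp hp
      by_cases h0 : p.1 = 0
      · have hp2 : p.2 = a := by rw [← hp', h0, zero_add]
        have h1 : coeff p.1 g ∈ maximalIdeal R := by
          rw [h0, coeff_zero_eq_constantCoeff_apply]
          exact (mem_maxIdeal_mvPowerSeries_iff g).mp hg
        have h2 : coeff p.2 h ∈ maximalIdeal R ^ (n - degree a) := hp2 ▸ ih h hh p.2
        have h3 : coeff p.1 g * coeff p.2 h ∈ maximalIdeal R ^ (n - degree a + 1) := by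
          rw [pow_succ']
          exact Ideal.mul_mem_mul h1 h2
        exact Ideal.pow_le_pow_right (by omega) h3
      · have hd : degree a = degree p.1 + degree p.2 := by rw [← hp', map_add]
        have hd1 : degree p.1 ≠ 0 := by
          rw [Ne, Finsupp.degree_eq_zero_iff]; exact h0
        have h2 : coeff p.2 h ∈ maximalIdeal R ^ (n - degree p.2) := ih h hh p.2
        exact Ideal.mul_mem_left _ _ (Ideal.pow_le_pow_right (by omega) h2)
    · intro x y hx hy
      rw [map_add]
      exact Ideal.add_mem _ hx hy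

lemma C_mem_maxIdeal_pow {k : ℕ} {c : R} (hc : c ∈ maximalIdeal R ^ k) :
    (C c : MvPowerSeries σ R) ∈ maximalIdeal (MvPowerSeries σ R) ^ k := by
  have h1 : (maximalIdeal R).map (C : R →+* MvPowerSeries σ R) ≤
      maximalIdeal (MvPowerSeries σ R) := by
    rw [Ideal.map_le_iff_le_comap]
    intro x hx
    rw [Ideal.mem_comap, mem_maxIdeal_mvPowerSeries_iff, constantCoeff_C]
    exact hx
  have h2 : (C c : MvPowerSeries σ R) ∈ (maximalIdeal R ^ k).map (C : R →+* MvPowerSeries σ R) :=
    Ideal.mem_map_of_mem _ hc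
  rw [Ideal.map_pow] at h2
  exact Ideal.pow_right_mono h1 k h2

lemma X_mem_maxIdeal (i : σ) : (X i : MvPowerSeries σ R) ∈ maximalIdeal (MvPowerSeries σ R) := by
  rw [mem_maxIdeal_mvPowerSeries_iff, constantCoeff_X]
  exact zero_mem _

omit [IsLocalRing R] in
lemma exists_decomp [Fintype σ] (g : MvPowerSeries σ R) :
    ∃ h : σ → MvPowerSeries σ R, g = C (constantCoeff g) + ∑ i, X i * h i ∧
      ∀ i b, coeff b (h i) = 0 ∨ coeff b (h i) = coeff (b + single i 1) g := by
  classical
  let isPick : (σ →₀ ℕ) → σ → Prop := fun a i => ∃ hne : a.support.Nonempty, hne.choose = i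
  have pick_mem : ∀ a i, isPick a i → single i 1 ≤ a := by
    rintro a i ⟨hne, rfl⟩
    have := hne.choose_spec
    rw [Finsupp.mem_support_iff] at this
    rw [Finsupp.single_le_iff]
    omega
  refine ⟨fun i => psOfFun fun b =>
    if isPick (b + single i 1) i then coeff (b + single i 1) g else 0, ?_, ?_⟩
  · ext a
    have hterm : ∀ i, coeff a (X i * psOfFun (fun b => if isPick (b + single i 1) i then
        coeff (b + single i 1) g else 0)) =
        if isPick a i then coeff a g else 0 := by
      intro i
      rw [X_def, coeff_monomial_mul]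
      by_cases hle : single i 1 ≤ a
      · rw [if_pos hle, one_mul, coeff_psOfFun, tsub_add_cancel_of_le hle]
      · rw [if_neg hle, if_neg]
        exact fun h => hle (pick_mem a i h)
    rw [map_add, map_sum, coeff_C]
    simp_rw [hterm]
    by_cases ha : a = 0
    · subst ha
      rw [if_pos rfl, coeff_zero_eq_constantCoeff_apply]
      have : ∀ i, ¬ isPick (0 : σ →₀ ℕ) i := by
        rintro i ⟨hne, -⟩
        rw [Finsupp.support_zero] at hne
        exact Finset.not_nonempty_empty hne
      simp [this]
    · rw [if_neg ha, zero_add]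
      have hne : a.support.Nonempty := Finsupp.support_nonempty_iff.mpr ha
      have : ∀ i, isPick a i ↔ hne.choose = i := fun i => ⟨fun ⟨_, h⟩ => h, fun h => ⟨hne, h⟩⟩
      simp_rw [this]
      rw [Finset.sum_ite_eq Finset.univ hne.choose (fun _ => coeff a g), if_pos (Finset.mem_univ _)]
  · intro i b
    rw [coeff_psOfFun]
    by_cases h : isPick (b + single i 1) i
    · right; rw [if_pos h]
    · left; rw [if_neg h]

lemma mem_maxIdeal_pow_of_coeff_mem [Finite σ] : ∀ (n : ℕ) (g : MvPowerSeries σ R),
    (∀ a : σ →₀ ℕ, coeff a g ∈ maximalIdeal R ^ (n - degree a)) →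
      g ∈ maximalIdeal (MvPowerSeries σ R) ^ n := by
  classical
  cases nonempty_fintype σ
  intro n
  induction n with
  | zero => intro g _; simp
  | succ n ih =>
    intro g hg
    obtain ⟨h, hdec, hh⟩ := exists_decomp g
    rw [hdec]
    refine Ideal.add_mem _ (C_mem_maxIdeal_pow ?_) (Ideal.sum_mem _ fun i _ => ?_)
    · have := hg 0
      rwa [map_zero, Nat.sub_zero, coeff_zero_eq_constantCoeff_apply] at this
    · rw [pow_succ']
      refine Ideal.mul_mem_mul (X_mem_maxIdeal i) (ih (h i) fun b => ?_)
      rcases hh i b with h0 | h1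
      · rw [h0]; exact zero_mem _
      · rw [h1]
        have := hg (b + single i 1)
        rw [map_add, Finsupp.degree_single, Nat.add_sub_add_right] at this
        exact this

end PowerSeriesComplete

/-- Multivariate power series in finitely many variables over a complete Noetherian local ring
are complete for the maximal-ideal-adic topology. -/
theorem isAdicComplete_maximalIdeal_mvPowerSeries (σ : Type*) [Finite σ] (R : Type*) [CommRing R]
    [IsLocalRing R] [IsNoetherianRing R] [IsAdicComplete (maximalIdeal R) R] :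
    IsAdicComplete (maximalIdeal (MvPowerSeries σ R)) (MvPowerSeries σ R) := by
  have hH : IsHausdorff (maximalIdeal (MvPowerSeries σ R)) (MvPowerSeries σ R) := inferInstance
  have hP : IsPrecomplete (maximalIdeal (MvPowerSeries σ R)) (MvPowerSeries σ R) := by
    refine ⟨fun f hf => ?_⟩
    have key : ∀ a : σ →₀ ℕ, ∃ c : R, ∀ j,
        coeff a (f (j + degree a)) ≡ c [SMOD (maximalIdeal R ^ j • ⊤ : Submodule R R)] := by
      intro a
      refine IsPrecomplete.prec' (I := maximalIdeal R) (fun j => coeff a (f (j + degree a))) ?_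
      intro j j' hjj'
      have h1 := hf (show j + degree a ≤ j' + degree a by omega)
      rw [SModEq.sub_mem] at h1 ⊢
      simp only [smul_eq_mul, Ideal.mul_top] at h1 ⊢
      have h2 := coeff_mem_of_mem_maxIdeal_pow _ _ h1 a
      rw [map_sub, Nat.add_sub_cancel] at h2
      exact h2
    choose c hc using key
    refine ⟨psOfFun c, fun n => ?_⟩
    rw [SModEq.sub_mem]
    simp only [smul_eq_mul, Ideal.mul_top]
    apply mem_maxIdeal_pow_of_coeff_mem
    intro a
    by_cases h : degree a ≤ n
    · obtain ⟨j, rfl⟩ : ∃ j, n = j + degree a := ⟨n - degree a, by omega⟩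
      have h1 := hc a j
      rw [SModEq.sub_mem] at h1
      simp only [smul_eq_mul, Ideal.mul_top] at h1
      rw [map_sub, Nat.add_sub_cancel, coeff_psOfFun]
      exact h1
    · have h0 : n - degree a = 0 := by omega
      rw [h0, pow_zero, Ideal.one_eq_top]
      exact Submodule.mem_top
  exact { toIsHausdorff := hH, toIsPrecomplete := hP }

/-- The power series ring over a complete DVR is complete for its maximal ideal. -/
theorem mvPowerSeries_isAdicComplete (𝒪 : Type) [CommRing 𝒪] [IsDomain 𝒪]
    [IsDiscreteValuationRing 𝒪] [IsAdicComplete (maximalIdeal 𝒪) 𝒪] (d : ℕ) :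
    IsAdicComplete (maximalIdeal (MvPowerSeries (Fin d) 𝒪)) (MvPowerSeries (Fin d) 𝒪) :=
  isAdicComplete_maximalIdeal_mvPowerSeries (Fin d) 𝒪

end Fermat.Agent.S53.L2
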