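import Mathlib

set_option autoImplicit false

namespace Fermat.Agent.S53.L3

theorem antitone_of_eq_succ_sup {S : Type} [CommRing S] (m : Ideal S)
    (K : ℕ → Ideal S) (hK : ∀ n, K n = K (n + 1) ⊔ m ^ n) : Antitone K := by
  refine antitone_nat_of_succ_le fun n => ?_
  rw [hK n]
  exact le_sup_left

theorem pow_le_of_eq_succ_sup {S : Type} [CommRing S] (m : Ideal S)
    (K : ℕ → Ideal S) (hK : ∀ n, K n = K (n + 1) ⊔ m ^ n) (n : ℕ) : m ^ n ≤ K n := by
  rw [hK n]
  exact le_sup_right

theorem exists_seq_of_eq_succ_sup {S : Type} [CommRing S] (m : Ideal S)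
    (K : ℕ → Ideal S) (hK : ∀ n, K n = K (n + 1) ⊔ m ^ n) (n : ℕ) (s : S) (hs : s ∈ K n) :
    ∃ t : ℕ → S, t 0 = s ∧ ∀ j, t j ∈ K (n + j) ∧ t j - t (j + 1) ∈ m ^ (n + j) := by
  have step : ∀ (j : ℕ) (x : S), x ∈ K (n + j) →
      ∃ y : S, y ∈ K (n + (j + 1)) ∧ x - y ∈ m ^ (n + j) := by
    intro j x hx
    rw [hK (n + j)] at hx
    obtain ⟨y, hy, z, hz, rfl⟩ := Submodule.mem_sup.mp hx
    exact ⟨y, hy, by simpa using hz⟩
  choose! nxt hnxt1 hnxt2 using step
  let F : (j : ℕ) → {x : S // x ∈ K (n + j)} := fun j =>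
    Nat.rec (motive := fun j => {x : S // x ∈ K (n + j)}) ⟨s, hs⟩
      (fun j x => ⟨nxt j x.1, hnxt1 j x.1 x.2⟩) j
  refine ⟨fun j => (F j).1, rfl, fun j => ⟨(F j).2, ?_⟩⟩
  exact hnxt2 j (F j).1 (F j).2

theorem iInf_sup_pow_eq {S : Type} [CommRing S] (m : Ideal S) [IsPrecomplete m S]
    (K : ℕ → Ideal S) (hK : ∀ n, K n = K (n + 1) ⊔ m ^ n) (n : ℕ) :
    (⨅ i, K i) ⊔ m ^ n = K n := by
  have hanti := antitone_of_eq_succ_sup m K hK
  have hpow := pow_le_of_eq_succ_sup m K hK
  apply le_antisymm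
  · exact sup_le (iInf_le K n) (hpow n)
  · intro s hs
    obtain ⟨t, ht0, ht⟩ := exists_seq_of_eq_succ_sup m K hK n s hs
    -- differences of `t` along `a ≤ b`
    have hdiff : ∀ a b : ℕ, a ≤ b → t a - t b ∈ m ^ (n + a) := by
      intro a b hab
      induction b, hab using Nat.le_induction with
      | base => simp
      | succ b hab ih =>
        have h1 : t b - t (b + 1) ∈ m ^ (n + a) :=
          Ideal.pow_le_pow_right (by omega) (ht b).2
        have : t a - t (b + 1) = (t a - t b) + (t b - t (b + 1)) := by ring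
        rw [this]
        exact Ideal.add_mem _ ih h1
    -- the Cauchy sequence `f j = s - t j`
    obtain ⟨L, hL⟩ := IsPrecomplete.prec' (I := m) (M := S) (fun j => s - t j) (by
      intro a b hab
      rw [SModEq.sub_mem, smul_eq_mul, Ideal.mul_top]
      have h := hdiff a b hab
      have h2 : (s - t a) - (s - t b) = -(t a - t b) := by ring
      rw [h2]
      exact Ideal.neg_mem_iff _ |>.mpr (Ideal.pow_le_pow_right (by omega) h))
    have hL' : ∀ j, (s - t j) - L ∈ m ^ j := by
      intro j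
      have := hL j
      rwa [SModEq.sub_mem, smul_eq_mul, Ideal.mul_top] at this
    -- `L ∈ m ^ n`
    have hLn : L ∈ m ^ n := by
      have h1 : (s - t n) - L ∈ m ^ n := hL' n
      have h2 : s - t n ∈ m ^ n := by
        have := hdiff 0 n (Nat.zero_le n)
        rwa [ht0, Nat.add_zero] at this
      have h3 : L = (s - t n) - ((s - t n) - L) := by ring
      rw [h3]
      exact Ideal.sub_mem _ h2 h1
    -- `s - L ∈ K i` for all `i`
    have hsL : s - L ∈ ⨅ i, K i := by
      rw [Submodule.mem_iInf]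
      intro i
      have h1 : t (n + i) ∈ K i := hanti (by omega) (ht (n + i)).1
      have h2 : (s - t (n + i)) - L ∈ K i :=
        hpow i (Ideal.pow_le_pow_right (by omega) (hL' (n + i)))
      have h3 : s - L = t (n + i) + ((s - t (n + i)) - L) := by ring
      rw [h3]
      exact Ideal.add_mem _ h1 h2
    have : s = (s - L) + L := by ring
    rw [this]
    exact Submodule.add_mem_sup hsL hLn

end Fermat.Agent.S53.L3
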