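import Mathlib

set_option autoImplicit false

namespace Fermat.Agent.S53.StageD

open IsLocalRing

section Eval

variable {𝒪 : Type} [CommRing 𝒪] {P : Type} [CommRing P] [Algebra 𝒪 P] {d : ℕ}

theorem prod_pow_mem (𝔪 : Ideal P) (x : Fin d → P) (hx : ∀ i, x i ∈ 𝔪) (e : Fin d →₀ ℕ) :
    (e.prod fun i k => x i ^ k) ∈ 𝔪 ^ e.degree := by
  have h : (∏ i ∈ e.support, x i ^ e i) ∈ ∏ i ∈ e.support, 𝔪 ^ e i :=
    Ideal.prod_mem_prod fun i _ => Ideal.pow_mem_pow (hx i) (e i)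
  rw [Finset.prod_pow_eq_pow_sum] at h
  exact h

theorem aeval_mem_pow (𝔪 : Ideal P) (x : Fin d → P) (hx : ∀ i, x i ∈ 𝔪) (N : ℕ)
    (D : MvPolynomial (Fin d) 𝒪) (hD : ∀ e : Fin d →₀ ℕ, e.degree < N → D.coeff e = 0) :
    MvPolynomial.aeval x D ∈ 𝔪 ^ N := by
  rw [MvPolynomial.aeval_def, MvPolynomial.eval₂_eq]
  refine Ideal.sum_mem _ fun e he => ?_
  have hdeg : N ≤ e.degree := by
    by_contra h
    exact (MvPolynomial.mem_support_iff.mp he) (hD e (not_le.mp h))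
  exact Ideal.mul_mem_left _ _ (Ideal.pow_le_pow_right hdeg (prod_pow_mem 𝔪 x hx e))

theorem truncTotal_C (N : ℕ) (hN : N ≠ 0) (c : 𝒪) :
    MvPowerSeries.truncTotal N (MvPowerSeries.C c : MvPowerSeries (Fin d) 𝒪) = MvPolynomial.C c := by
  classical
  ext e
  rw [MvPowerSeries.coeff_truncTotal_eq_ite, MvPowerSeries.coeff_C, MvPolynomial.coeff_C]
  by_cases he : e = 0
  · subst he
    simp [Nat.pos_of_ne_zero hN]
  · have he' : ¬ (0 = e) := fun h => he h.symm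
    simp [he, he']

/-- Evaluation of power series at elements of `𝔪`, modulo an ideal containing `𝔪 ^ N`. -/
noncomputable def evalQuot (𝔪 : Ideal P) (x : Fin d → P) (hx : ∀ i, x i ∈ 𝔪) (J : Ideal P)
    (N : ℕ) (hN : N ≠ 0) (hJ : 𝔪 ^ N ≤ J) : MvPowerSeries (Fin d) 𝒪 →ₐ[𝒪] P ⧸ J where
  toFun s := Ideal.Quotient.mk J (MvPolynomial.aeval x (MvPowerSeries.truncTotal N s))
  map_one' := by rw [MvPowerSeries.truncTotal_one hN, map_one, map_one]
  map_mul' s t := by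
    rw [← map_mul, ← map_mul, Ideal.Quotient.eq, ← map_sub]
    exact hJ (aeval_mem_pow 𝔪 x hx N _ (fun e he => by
      rw [MvPolynomial.coeff_sub, MvPowerSeries.coeff_truncTotal _ he,
        MvPowerSeries.coeff_truncTotal_mul_truncTotal_eq_coeff_mul _ _ he, sub_self]))
  map_zero' := by simp
  map_add' s t := by simp
  commutes' c := by
    rw [MvPowerSeries.algebraMap_apply, Algebra.algebraMap_self, RingHom.id_apply,
      truncTotal_C N hN, MvPolynomial.aeval_C]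
    rfl

theorem evalQuot_apply (𝔪 : Ideal P) (x : Fin d → P) (hx : ∀ i, x i ∈ 𝔪) (J : Ideal P)
    (N : ℕ) (hN : N ≠ 0) (hJ : 𝔪 ^ N ≤ J) (s : MvPowerSeries (Fin d) 𝒪) :
    evalQuot 𝔪 x hx J N hN hJ s =
      Ideal.Quotient.mk J (MvPolynomial.aeval x (MvPowerSeries.truncTotal N s)) := rfl

theorem aeval_truncTotal_sub_mem (𝔪 : Ideal P) (x : Fin d → P) (hx : ∀ i, x i ∈ 𝔪) (N M : ℕ)
    (s : MvPowerSeries (Fin d) 𝒪) :
    MvPolynomial.aeval x (MvPowerSeries.truncTotal N s) -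
      MvPolynomial.aeval x (MvPowerSeries.truncTotal M s) ∈ 𝔪 ^ (min N M) := by
  rw [← map_sub]
  refine aeval_mem_pow 𝔪 x hx _ _ fun e he => ?_
  rw [MvPolynomial.coeff_sub, MvPowerSeries.coeff_truncTotal _ (lt_of_lt_of_le he (min_le_left _ _)),
    MvPowerSeries.coeff_truncTotal _ (lt_of_lt_of_le he (min_le_right _ _)), sub_self]

theorem evalQuot_eq_of_le (𝔪 : Ideal P) (x : Fin d → P) (hx : ∀ i, x i ∈ 𝔪) (J J' : Ideal P)
    (hJJ' : J ≤ J') (N : ℕ) (hN : N ≠ 0) (hJ : 𝔪 ^ N ≤ J) (M : ℕ) (hM : M ≠ 0) (hJ' : 𝔪 ^ M ≤ J')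
    (s : MvPowerSeries (Fin d) 𝒪) :
    Ideal.Quotient.factor hJJ' (evalQuot 𝔪 x hx J N hN hJ s) = evalQuot 𝔪 x hx J' M hM hJ' s := by
  rw [evalQuot_apply, evalQuot_apply, Ideal.Quotient.factor_mk, Ideal.Quotient.eq]
  have h := aeval_truncTotal_sub_mem (𝒪 := 𝒪) 𝔪 x hx N M s
  rcases min_choice N M with h' | h' <;> rw [h'] at h
  · exact hJJ' (hJ h)
  · exact hJ' h

theorem evalQuot_coe (𝔪 : Ideal P) (x : Fin d → P) (hx : ∀ i, x i ∈ 𝔪) (J : Ideal P)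
    (N : ℕ) (hN : N ≠ 0) (hJ : 𝔪 ^ N ≤ J) (q : MvPolynomial (Fin d) 𝒪) :
    evalQuot 𝔪 x hx J N hN hJ (q : MvPowerSeries (Fin d) 𝒪) =
      Ideal.Quotient.mk J (MvPolynomial.aeval x q) := by
  rw [evalQuot_apply, Ideal.Quotient.eq, ← map_sub]
  refine hJ (aeval_mem_pow 𝔪 x hx _ _ fun e he => ?_)
  rw [MvPolynomial.coeff_sub, MvPowerSeries.coeff_truncTotal _ he, MvPolynomial.coeff_coe, sub_self]

theorem aeval_sub_algebraMap_mem (𝔪 : Ideal P) (x : Fin d → P) (hx : ∀ i, x i ∈ 𝔪)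
    (q : MvPolynomial (Fin d) 𝒪) :
    MvPolynomial.aeval x q - algebraMap 𝒪 P (MvPolynomial.constantCoeff q) ∈ 𝔪 := by
  have h := aeval_mem_pow (𝒪 := 𝒪) 𝔪 x hx 1 (q - MvPolynomial.C (MvPolynomial.constantCoeff q))
    (fun e he => by
      have he0 : e = 0 := by
        have : e.degree = 0 := by omega
        exact (Finsupp.degree_eq_zero_iff e).mp this
      subst he0
      simp [MvPolynomial.constantCoeff_eq])
  rw [pow_one, map_sub, MvPolynomial.aeval_C] at h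
  exact h

end Eval

section PowerSeries

variable {𝒪 : Type} [CommRing 𝒪] [IsLocalRing 𝒪] {d : ℕ}

theorem mem_maximalIdeal_iff (s : MvPowerSeries (Fin d) 𝒪) :
    s ∈ maximalIdeal (MvPowerSeries (Fin d) 𝒪) ↔
      MvPowerSeries.constantCoeff s ∈ maximalIdeal 𝒪 := by
  rw [mem_maximalIdeal, mem_maximalIdeal, mem_nonunits_iff, mem_nonunits_iff,
    MvPowerSeries.isUnit_iff_constantCoeff]

theorem sub_C_constantCoeff_mem (s : MvPowerSeries (Fin d) 𝒪) :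
    s - MvPowerSeries.C (MvPowerSeries.constantCoeff s) ∈
      maximalIdeal (MvPowerSeries (Fin d) 𝒪) := by
  rw [mem_maximalIdeal_iff, map_sub, MvPowerSeries.constantCoeff_C, sub_self]
  exact zero_mem _

omit [IsLocalRing 𝒪] in
theorem isLocalHom_algebraMap :
    IsLocalHom (algebraMap 𝒪 (MvPowerSeries (Fin d) 𝒪)) := by
  refine ⟨fun c hc => ?_⟩
  rw [MvPowerSeries.algebraMap_apply, Algebra.algebraMap_self, RingHom.id_apply,
    MvPowerSeries.isUnit_iff_constantCoeff, MvPowerSeries.constantCoeff_C] at hc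
  exact hc

theorem finite_quotient_maximalIdeal [Finite (ResidueField 𝒪)] :
    Finite (MvPowerSeries (Fin d) 𝒪 ⧸ maximalIdeal (MvPowerSeries (Fin d) 𝒪)) := by
  let f : MvPowerSeries (Fin d) 𝒪 →+* ResidueField 𝒪 :=
    (residue 𝒪).comp (MvPowerSeries.constantCoeff (σ := Fin d) (R := 𝒪))
  have hker : RingHom.ker f = maximalIdeal (MvPowerSeries (Fin d) 𝒪) := by
    ext s
    rw [RingHom.mem_ker, mem_maximalIdeal_iff]
    exact residue_eq_zero_iff _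
  rw [← hker]
  exact Finite.of_injective _ (RingHom.kerLift_injective f)

theorem finite_quotient_maximalIdeal_pow [IsNoetherianRing 𝒪] [Finite (ResidueField 𝒪)] (n : ℕ) :
    Finite (MvPowerSeries (Fin d) 𝒪 ⧸ maximalIdeal (MvPowerSeries (Fin d) 𝒪) ^ n) := by
  have := finite_quotient_maximalIdeal (𝒪 := 𝒪) (d := d)
  exact Ideal.finite_quotient_pow (IsNoetherian.noetherian _) n

end PowerSeries

section EvalLocal

variable {𝒪 : Type} [CommRing 𝒪] [IsLocalRing 𝒪] {P : Type} [CommRing P] [Algebra 𝒪 P] {d : ℕ}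

theorem evalQuot_mem_map (𝔪 : Ideal P) (hC : ∀ c ∈ maximalIdeal 𝒪, algebraMap 𝒪 P c ∈ 𝔪)
    (x : Fin d → P) (hx : ∀ i, x i ∈ 𝔪) (J : Ideal P)
    (N : ℕ) (hN : N ≠ 0) (hJ : 𝔪 ^ N ≤ J) (s : MvPowerSeries (Fin d) 𝒪)
    (hs : s ∈ maximalIdeal (MvPowerSeries (Fin d) 𝒪)) :
    evalQuot 𝔪 x hx J N hN hJ s ∈ Ideal.map (Ideal.Quotient.mk J) 𝔪 := by
  rw [evalQuot_apply]
  apply Ideal.mem_map_of_mem
  have h1 := aeval_sub_algebraMap_mem (𝒪 := 𝒪) 𝔪 x hx (MvPowerSeries.truncTotal N s)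
  have h2 : MvPolynomial.constantCoeff (MvPowerSeries.truncTotal N s) =
      MvPowerSeries.constantCoeff s := by
    rw [MvPowerSeries.constantCoeff_truncTotal_eq_ite, if_pos (Nat.pos_of_ne_zero hN)]
  rw [h2] at h1
  have h3 := hC _ ((mem_maximalIdeal_iff s).mp hs)
  have := 𝔪.add_mem h1 h3
  rwa [sub_add_cancel] at this

end EvalLocal

end Fermat.Agent.S53.StageD
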