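import Mathlib
import Fermat.Prelude.Thm_IsLocalRing_isAdicComplete_of_module_finite
import Fermat.Agent.S53.L3

set_option autoImplicit false

namespace Fermat.Agent.S53.StageD

open IsLocalRing

section Core

variable {S P : Type} [CommRing S] [IsLocalRing S] [CommRing P]

/-- If `ψ` maps the maximal ideal into the image of `𝔪` and `𝔪 ^ n ≤ J`, then `ψ` kills the
`n`-th power of the maximal ideal. -/
theorem pow_le_ker (𝔪 J : Ideal P) (ψ : S →+* P ⧸ J)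
    (hmax : ∀ s ∈ maximalIdeal S, ψ s ∈ Ideal.map (Ideal.Quotient.mk J) 𝔪)
    (n : ℕ) (hJ : 𝔪 ^ n ≤ J) : maximalIdeal S ^ n ≤ RingHom.ker ψ := by
  rw [← Ideal.map_eq_bot_iff_le_ker, Ideal.map_pow, eq_bot_iff]
  have h1 : Ideal.map ψ (maximalIdeal S) ≤ Ideal.map (Ideal.Quotient.mk J) 𝔪 :=
    Ideal.map_le_iff_le_comap.mpr fun s hs => hmax s hs
  calc Ideal.map ψ (maximalIdeal S) ^ n ≤ Ideal.map (Ideal.Quotient.mk J) 𝔪 ^ n :=
        Ideal.pow_right_mono h1 n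
    _ = Ideal.map (Ideal.Quotient.mk J) (𝔪 ^ n) := (Ideal.map_pow _ _ n).symm
    _ = ⊥ := Ideal.map_mk_eq_bot_of_le hJ
    _ ≤ ⊥ := le_rfl

theorem finite_setOf_pow_le (n : ℕ) [Finite (S ⧸ maximalIdeal S ^ n)] :
    Set.Finite {K : Ideal S | maximalIdeal S ^ n ≤ K} := by
  refine Set.Finite.of_finite_image (f := fun K : Ideal S =>
    (Ideal.Quotient.mk (maximalIdeal S ^ n)) '' (K : Set S)) (Set.toFinite _) ?_
  intro K hK K' hK' h
  have key : ∀ (K K' : Ideal S), maximalIdeal S ^ n ≤ K' →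
      (Ideal.Quotient.mk (maximalIdeal S ^ n)) '' (K : Set S) =
        (Ideal.Quotient.mk (maximalIdeal S ^ n)) '' (K' : Set S) → K ≤ K' := by
    intro K K' hK' h s hs
    have : Ideal.Quotient.mk (maximalIdeal S ^ n) s ∈
        (Ideal.Quotient.mk (maximalIdeal S ^ n)) '' (K' : Set S) := h ▸ Set.mem_image_of_mem _ hs
    obtain ⟨s', hs', hss'⟩ := this
    have h2 : s - s' ∈ maximalIdeal S ^ n := by
      rw [← Ideal.Quotient.eq]
      exact hss'.symm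
    have : s = (s - s') + s' := by ring
    rw [this]
    exact K'.add_mem (hK' h2) hs'
  exact le_antisymm (key K K' hK' h) (key K' K hK h.symm)

/-- Existence of least elements of `{J ∈ 𝒢 | 𝔪 ^ n ≤ J}`. -/
theorem exists_least (hfin : ∀ n, Finite (S ⧸ maximalIdeal S ^ n))
    (𝔪 : Ideal P) (𝒢 : Set (Ideal P)) (h𝔪𝒢 : 𝔪 ∈ 𝒢)
    (hinf : ∀ J ∈ 𝒢, ∀ J' ∈ 𝒢, J ⊓ J' ∈ 𝒢)
    (ψ : ∀ J : Ideal P, J ∈ 𝒢 → (S →+* P ⧸ J))
    (hcompat : ∀ (J J' : Ideal P) (hJ : J ∈ 𝒢) (hJ' : J' ∈ 𝒢) (h : J ≤ J') (s : S),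
      Ideal.Quotient.factor h (ψ J hJ s) = ψ J' hJ' s)
    (hmax : ∀ (J : Ideal P) (hJ : J ∈ 𝒢), ∀ s ∈ maximalIdeal S,
      ψ J hJ s ∈ Ideal.map (Ideal.Quotient.mk J) 𝔪)
    (horder : ∀ (J J' : Ideal P) (hJ : J ∈ 𝒢) (hJ' : J' ∈ 𝒢),
      RingHom.ker (ψ J hJ) ≤ RingHom.ker (ψ J' hJ') → J ≤ J')
    (n : ℕ) (hn : n ≠ 0) :
    ∃ J ∈ 𝒢, 𝔪 ^ n ≤ J ∧ ∀ J' ∈ 𝒢, 𝔪 ^ n ≤ J' → J ≤ J' := by
  have := hfin n
  -- monotonicity of kernels
  have hker_mono : ∀ (J J' : Ideal P) (hJ : J ∈ 𝒢) (hJ' : J' ∈ 𝒢), J ≤ J' →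
      RingHom.ker (ψ J hJ) ≤ RingHom.ker (ψ J' hJ') := by
    intro J J' hJ hJ' h s hs
    rw [RingHom.mem_ker] at hs ⊢
    rw [← hcompat J J' hJ hJ' h s, hs, map_zero]
  let 𝒦 : Set (Ideal S) := {K | ∃ (J : Ideal P) (hJ : J ∈ 𝒢), 𝔪 ^ n ≤ J ∧ K = RingHom.ker (ψ J hJ)}
  have h𝒦fin : 𝒦.Finite := by
    refine (finite_setOf_pow_le (S := S) n).subset ?_
    rintro K ⟨J, hJ, hJn, rfl⟩
    exact pow_le_ker 𝔪 J (ψ J hJ) (hmax J hJ) n hJn
  have h𝒦ne : 𝒦.Nonempty :=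
    ⟨_, 𝔪, h𝔪𝒢, Ideal.pow_le_self hn, rfl⟩
  obtain ⟨K, ⟨J, hJ, hJn, rfl⟩, hmin⟩ := h𝒦fin.exists_minimal h𝒦ne
  refine ⟨J, hJ, hJn, fun J' hJ' hJ'n => ?_⟩
  have hJJ' : J ⊓ J' ∈ 𝒢 := hinf J hJ J' hJ'
  have h1 : RingHom.ker (ψ (J ⊓ J') hJJ') ∈ 𝒦 := ⟨J ⊓ J', hJJ', le_inf hJn hJ'n, rfl⟩
  have h2 : RingHom.ker (ψ J hJ) ≤ RingHom.ker (ψ (J ⊓ J') hJJ') :=
    hmin h1 (hker_mono _ _ hJJ' hJ inf_le_left)
  exact horder J J' hJ hJ' (h2.trans (hker_mono _ _ hJJ' hJ' inf_le_right))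

theorem map_mk_ne_top (𝔪 : Ideal P) (h𝔪 : 𝔪 ≠ ⊤) (J : Ideal P) (hJ𝔪 : J ≤ 𝔪) :
    Ideal.map (Ideal.Quotient.mk J) 𝔪 ≠ ⊤ := by
  intro htop
  have h1 : (1 : P ⧸ J) ∈ Ideal.map (Ideal.Quotient.mk J) 𝔪 := htop ▸ Submodule.mem_top
  obtain ⟨p, hp, hp1⟩ := (Ideal.mem_map_iff_of_surjective _ Ideal.Quotient.mk_surjective).mp h1
  have h2 : p - 1 ∈ J := by
    rw [← Ideal.Quotient.eq]
    simpa using hp1
  apply h𝔪
  rw [Ideal.eq_top_iff_one]
  have : (1 : P) = p - (p - 1) := by ring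
  rw [this]
  exact 𝔪.sub_mem hp (hJ𝔪 h2)

theorem ker_eq_sup (𝔪 : Ideal P) (h𝔪 : 𝔪 ≠ ⊤) (J J' : Ideal P) (hJ'J : J' ≤ J) (hJ'𝔪 : J' ≤ 𝔪)
    (n : ℕ) (hJn : J ≤ J' ⊔ 𝔪 ^ n) (hnJ : 𝔪 ^ n ≤ J)
    (ψ : S →+* P ⧸ J) (ψ' : S →+* P ⧸ J') (hsurj : Function.Surjective ψ')
    (hcompat : ∀ s, Ideal.Quotient.factor hJ'J (ψ' s) = ψ s)
    (hmax' : ∀ s ∈ maximalIdeal S, ψ' s ∈ Ideal.map (Ideal.Quotient.mk J') 𝔪) :
    RingHom.ker ψ = RingHom.ker ψ' ⊔ maximalIdeal S ^ n := by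
  have hmap_le : Ideal.map ψ' (maximalIdeal S) ≤ Ideal.map (Ideal.Quotient.mk J') 𝔪 :=
    Ideal.map_le_iff_le_comap.mpr fun s hs => hmax' s hs
  have hle_map : Ideal.map (Ideal.Quotient.mk J') 𝔪 ≤ Ideal.map ψ' (maximalIdeal S) := by
    rw [Ideal.map_le_iff_le_comap]
    intro p hp
    rw [Ideal.mem_comap]
    obtain ⟨u, hu⟩ := hsurj (Ideal.Quotient.mk J' p)
    have hu' : u ∈ maximalIdeal S := by
      rw [mem_maximalIdeal, mem_nonunits_iff]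
      intro hunit
      have h1 : IsUnit (Ideal.Quotient.mk J' p) := hu ▸ hunit.map ψ'
      exact map_mk_ne_top 𝔪 h𝔪 J' hJ'𝔪
        (Ideal.eq_top_of_isUnit_mem _ (Ideal.mem_map_of_mem _ hp) h1)
    rw [← hu]
    exact Ideal.mem_map_of_mem _ hu'
  have hmap_eq : Ideal.map ψ' (maximalIdeal S ^ n) = Ideal.map (Ideal.Quotient.mk J') (𝔪 ^ n) := by
    rw [Ideal.map_pow, Ideal.map_pow, le_antisymm hmap_le hle_map]
  apply le_antisymm
  · intro s hs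
    rw [RingHom.mem_ker] at hs
    obtain ⟨p, hp⟩ := Ideal.Quotient.mk_surjective (ψ' s)
    have hpJ : p ∈ J := by
      rw [← Ideal.Quotient.eq_zero_iff_mem, ← hs, ← hcompat s, ← hp, Ideal.Quotient.factor_mk]
    obtain ⟨j', hj', t, ht, rfl⟩ := Submodule.mem_sup.mp (hJn hpJ)
    have h1 : ψ' s = Ideal.Quotient.mk J' t := by
      rw [← hp, map_add, Ideal.Quotient.eq_zero_iff_mem.mpr hj', zero_add]
    have h2 : ψ' s ∈ Ideal.map ψ' (maximalIdeal S ^ n) := by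
      rw [hmap_eq, h1]
      exact Ideal.mem_map_of_mem _ ht
    obtain ⟨u, hu, hus⟩ := (Ideal.mem_map_iff_of_surjective ψ' hsurj).mp h2
    have h3 : s - u ∈ RingHom.ker ψ' := by
      rw [RingHom.mem_ker, map_sub, hus, sub_self]
    have : s = (s - u) + u := by ring
    rw [this]
    exact Submodule.add_mem_sup h3 hu
  · refine sup_le ?_ ?_
    · intro s hs
      rw [RingHom.mem_ker] at hs ⊢
      rw [← hcompat s, hs, map_zero]
    · intro s hs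
      rw [RingHom.mem_ker]
      have h2 : ψ' s ∈ Ideal.map (Ideal.Quotient.mk J') (𝔪 ^ n) := by
        rw [← hmap_eq]
        exact Ideal.mem_map_of_mem _ hs
      obtain ⟨t, ht, hts⟩ :=
        (Ideal.mem_map_iff_of_surjective _ Ideal.Quotient.mk_surjective).mp h2
      rw [← hcompat s, ← hts, Ideal.Quotient.factor_mk]
      exact Ideal.Quotient.eq_zero_iff_mem.mpr (hnJ ht)

end Core

section Lift

theorem exists_compatible_lift {S : Type} [CommRing S] (m : Ideal S) [IsPrecomplete m S]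
    (K : ℕ → Ideal S) (hK : ∀ n, K n = K (n + 1) ⊔ m ^ n)
    (a : ℕ → S) (ha : ∀ n, a (n + 1) - a n ∈ K n) :
    ∃ s : S, ∀ n, s - a n ∈ K n := by
  have hpow : ∀ n, m ^ n ≤ K n := fun n => by rw [hK n]; exact le_sup_right
  have step : ∀ (n : ℕ) (b : S), b - a n ∈ K n →
      ∃ b' : S, b' - a (n + 1) ∈ K (n + 1) ∧ b' - b ∈ m ^ n := by
    intro n b hb
    have h1 : a (n + 1) - b ∈ K n := by
      have : a (n + 1) - b = (a (n + 1) - a n) - (b - a n) := by ring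
      rw [this]
      exact (K n).sub_mem (ha n) hb
    rw [hK n] at h1
    obtain ⟨k, hk, t, ht, hkt⟩ := Submodule.mem_sup.mp h1
    refine ⟨a (n + 1) - k, ?_, ?_⟩
    · have : a (n + 1) - k - a (n + 1) = -k := by ring
      rw [this]
      exact (K (n + 1)).neg_mem hk
    · have : a (n + 1) - k - b = t := by
        have : a (n + 1) - k - b = (a (n + 1) - b) - k := by ring
        rw [this, ← hkt]
        ring
      rw [this]
      exact ht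
  choose! nxt hnxt1 hnxt2 using step
  let F : (n : ℕ) → {b : S // b - a n ∈ K n} := fun n =>
    Nat.rec (motive := fun n => {b : S // b - a n ∈ K n}) ⟨a 0, by simp⟩
      (fun n b => ⟨nxt n b.1, hnxt1 n b.1 b.2⟩) n
  have hF : ∀ n, (F (n + 1)).1 - (F n).1 ∈ m ^ n := fun n => hnxt2 n (F n).1 (F n).2
  have hdiff : ∀ i j : ℕ, i ≤ j → (F i).1 - (F j).1 ∈ m ^ i := by
    intro i j hij
    induction j, hij using Nat.le_induction with
    | base => simp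
    | succ j hij ih =>
      have h1 : (F (j + 1)).1 - (F j).1 ∈ m ^ i := Ideal.pow_le_pow_right hij (hF j)
      have : (F i).1 - (F (j + 1)).1 = ((F i).1 - (F j).1) - ((F (j + 1)).1 - (F j).1) := by ring
      rw [this]
      exact (m ^ i).sub_mem ih h1
  obtain ⟨s, hs⟩ := IsPrecomplete.prec' (I := m) (M := S) (fun n => (F n).1) (by
    intro i j hij
    rw [SModEq.sub_mem, smul_eq_mul, Ideal.mul_top]
    exact hdiff i j hij)
  refine ⟨s, fun n => ?_⟩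
  have h1 : (F n).1 - s ∈ m ^ n := by
    have := hs n
    rwa [SModEq.sub_mem, smul_eq_mul, Ideal.mul_top] at this
  have : s - a n = ((F n).1 - a n) - ((F n).1 - s) := by ring
  rw [this]
  exact (K n).sub_mem (F n).2 (hpow n h1)

end Lift

section Main

variable {𝒪 : Type} [CommRing 𝒪]
  {S : Type} [CommRing S] [IsLocalRing S] [IsNoetherianRing S]
  [IsAdicComplete (maximalIdeal S) S] [Algebra 𝒪 S]
  {P : Type} [CommRing P] [Algebra 𝒪 P]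

theorem core (hloc : IsLocalHom (algebraMap 𝒪 S))
    (hSres : ∀ s : S, ∃ c : 𝒪, s - algebraMap 𝒪 S c ∈ maximalIdeal S)
    (hfin : ∀ n, Finite (S ⧸ maximalIdeal S ^ n))
    (𝔪 : Ideal P) (h𝔪 : 𝔪 ≠ ⊤)
    (𝒢 : Set (Ideal P)) (h𝔪𝒢 : 𝔪 ∈ 𝒢)
    (hle : ∀ J ∈ 𝒢, J ≤ 𝔪) (hpow : ∀ J ∈ 𝒢, ∃ n : ℕ, 𝔪 ^ n ≤ J)
    (hinf : ∀ J ∈ 𝒢, ∀ J' ∈ 𝒢, J ⊓ J' ∈ 𝒢)
    (hup : ∀ J ∈ 𝒢, ∀ J' : Ideal P, J ≤ J' → J' ≤ 𝔪 → J' ∈ 𝒢)
    (ψ : ∀ J : Ideal P, J ∈ 𝒢 → (S →+* P ⧸ J))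
    (halg : ∀ (J : Ideal P) (hJ : J ∈ 𝒢) (c : 𝒪),
      ψ J hJ (algebraMap 𝒪 S c) = Ideal.Quotient.mk J (algebraMap 𝒪 P c))
    (hsurj : ∀ (J : Ideal P) (hJ : J ∈ 𝒢), Function.Surjective (ψ J hJ))
    (hcompat : ∀ (J J' : Ideal P) (hJ : J ∈ 𝒢) (hJ' : J' ∈ 𝒢) (h : J ≤ J') (s : S),
      Ideal.Quotient.factor h (ψ J hJ s) = ψ J' hJ' s)
    (hmax : ∀ (J : Ideal P) (hJ : J ∈ 𝒢), ∀ s ∈ maximalIdeal S,
      ψ J hJ s ∈ Ideal.map (Ideal.Quotient.mk J) 𝔪)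
    (horder : ∀ (J J' : Ideal P) (hJ : J ∈ 𝒢) (hJ' : J' ∈ 𝒢),
      RingHom.ker (ψ J hJ) ≤ RingHom.ker (ψ J' hJ') → J ≤ J') :
    ∃ (R : Type) (_ : CommRing R) (_ : IsLocalRing R) (_ : IsNoetherianRing R)
      (_ : IsAdicComplete (maximalIdeal R) R) (_ : Algebra 𝒪 R)
      (_ : IsLocalHom (algebraMap 𝒪 R)) (Φ : P →ₐ[𝒪] R),
      Function.Surjective (residue R ∘ algebraMap 𝒪 R) ∧
      (∀ n : ℕ, Ideal.comap Φ (maximalIdeal R ^ (n + 1)) ∈ 𝒢) ∧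
      (∀ (n : ℕ) (t : R), ∃ p : P, t - Φ p ∈ maximalIdeal R ^ n) ∧
      (∀ J ∈ 𝒢, ∃ n : ℕ, Ideal.comap Φ (maximalIdeal R ^ n) ≤ J) := by
  classical
  -- Step 1: the sequence of least ideals
  have hleast := fun n : ℕ => exists_least hfin 𝔪 𝒢 h𝔪𝒢 hinf ψ hcompat hmax horder (n + 1)
    (Nat.succ_ne_zero n)
  choose Jn hJn𝒢 hJnpow hJnleast using hleast
  have hJn_anti : ∀ n, Jn (n + 1) ≤ Jn n := fun n =>
    hJnleast (n + 1) (Jn n) (hJn𝒢 n) ((Ideal.pow_le_pow_right (Nat.le_succ _)).trans (hJnpow n))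
  have hJn_sup : ∀ n, Jn n ≤ Jn (n + 1) ⊔ 𝔪 ^ (n + 1) := fun n =>
    hJnleast n _ (hup _ (hJn𝒢 (n + 1)) _ le_sup_left
      (sup_le (hle _ (hJn𝒢 (n + 1))) (Ideal.pow_le_self (Nat.succ_ne_zero n)))) le_sup_right
  -- Step 2: the kernels
  let ψn : ∀ n, S →+* P ⧸ Jn n := fun n => ψ (Jn n) (hJn𝒢 n)
  have hψn_compat : ∀ n s, Ideal.Quotient.factor (hJn_anti n) (ψn (n + 1) s) = ψn n s :=
    fun n s => hcompat _ _ _ _ (hJn_anti n) s
  let Kseq : ℕ → Ideal S := fun n => Nat.casesOn n ⊤ (fun n => RingHom.ker (ψn n))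
  have hKseq0 : Kseq 0 = ⊤ := rfl
  have hKseqS : ∀ n, Kseq (n + 1) = RingHom.ker (ψn n) := fun n => rfl
  have hK : ∀ n, Kseq n = Kseq (n + 1) ⊔ maximalIdeal S ^ n := by
    intro n
    cases n with
    | zero => rw [hKseq0, pow_zero, Ideal.one_eq_top, sup_top_eq]
    | succ n =>
      rw [hKseqS, hKseqS]
      exact ker_eq_sup 𝔪 h𝔪 (Jn n) (Jn (n + 1)) (hJn_anti n) (hle _ (hJn𝒢 (n + 1))) (n + 1)
        (hJn_sup n) (hJnpow n) (ψn n) (ψn (n + 1)) (hsurj _ _) (hψn_compat n) (hmax _ _)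
  let K : Ideal S := ⨅ n, Kseq n
  have hKn : ∀ n, K ⊔ maximalIdeal S ^ n = Kseq n :=
    L3.iInf_sup_pow_eq (maximalIdeal S) Kseq hK
  have hKle : ∀ n, K ≤ RingHom.ker (ψn n) := fun n => iInf_le Kseq (n + 1)
  -- Step 3: the quotient ring
  have hJ0 : Jn 0 ≠ ⊤ := fun h' => h𝔪 (top_le_iff.mp (h' ▸ hle _ (hJn𝒢 0)))
  have hKne : K ≠ ⊤ := by
    intro h
    have h1 : (1 : S) ∈ RingHom.ker (ψn 0) := hKle 0 (h ▸ Submodule.mem_top)
    rw [RingHom.mem_ker, map_one] at h1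
    have : Nontrivial (P ⧸ Jn 0) := Ideal.Quotient.nontrivial_iff.mpr hJ0
    exact one_ne_zero h1
  have hnontriv : Nontrivial (S ⧸ K) := Ideal.Quotient.nontrivial_iff.mpr hKne
  have hlocR : IsLocalRing (S ⧸ K) :=
    IsLocalRing.of_surjective' (Ideal.Quotient.mk K) Ideal.Quotient.mk_surjective
  have hlocmk : IsLocalHom (Ideal.Quotient.mk K) :=
    IsLocalHom.of_surjective _ Ideal.Quotient.mk_surjective
  have hlocalg : IsLocalHom (algebraMap S (S ⧸ K)) := hlocmk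
  have hcomplete : IsAdicComplete (maximalIdeal (S ⧸ K)) (S ⧸ K) :=
    IsLocalRing.isAdicComplete_of_module_finite (𝒪 := S) (T := S ⧸ K)
  have halgR : ∀ c : 𝒪, algebraMap 𝒪 (S ⧸ K) c = Ideal.Quotient.mk K (algebraMap 𝒪 S c) :=
    fun c => rfl
  have hlocO : IsLocalHom (algebraMap 𝒪 (S ⧸ K)) := by
    refine ⟨fun c hc => ?_⟩
    rw [halgR] at hc
    exact hloc.map_nonunit c (hlocmk.map_nonunit _ hc)
  -- the maximal ideal of the quotient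
  have hmR : maximalIdeal (S ⧸ K) = Ideal.map (Ideal.Quotient.mk K) (maximalIdeal S) := by
    apply le_antisymm
    · intro r hr
      obtain ⟨s, rfl⟩ := Ideal.Quotient.mk_surjective r
      apply Ideal.mem_map_of_mem
      rw [mem_maximalIdeal, mem_nonunits_iff] at hr ⊢
      exact fun hs => hr (hs.map _)
    · rw [Ideal.map_le_iff_le_comap]
      intro s hs
      rw [Ideal.mem_comap, mem_maximalIdeal, mem_nonunits_iff]
      intro hunit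
      exact hs (hlocmk.map_nonunit s hunit)
  have hmem : ∀ (n : ℕ) (s : S),
      Ideal.Quotient.mk K s ∈ maximalIdeal (S ⧸ K) ^ n ↔ s ∈ Kseq n := by
    intro n s
    rw [hmR, ← Ideal.map_pow, ← Ideal.mem_comap,
      Ideal.comap_map_of_surjective _ Ideal.Quotient.mk_surjective, ← RingHom.ker_eq_comap_bot,
      Ideal.mk_ker, sup_comm, hKn]
  -- Step 4: the maps to the quotients of `P`
  let Ψb : ∀ n, S ⧸ K →+* P ⧸ Jn n := fun n =>
    Ideal.Quotient.lift K (ψn n) (fun a ha => RingHom.mem_ker.mp (hKle n ha))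
  have hΨb : ∀ n s, Ψb n (Ideal.Quotient.mk K s) = ψn n s := fun n s => rfl
  have H0 : ∀ (n : ℕ) (r : S ⧸ K), r ∈ maximalIdeal (S ⧸ K) ^ (n + 1) ↔ Ψb n r = 0 := by
    intro n r
    obtain ⟨s, rfl⟩ := Ideal.Quotient.mk_surjective r
    rw [hmem, hKseqS, RingHom.mem_ker, hΨb]
  have huniq : ∀ r r' : S ⧸ K, (∀ n, Ψb n r = Ψb n r') → r = r' := by
    intro r r' h
    rw [← sub_eq_zero]
    apply IsHausdorff.haus' (I := maximalIdeal (S ⧸ K)) (r - r')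
    intro n
    rw [SModEq.zero, smul_eq_mul, Ideal.mul_top]
    refine Ideal.pow_le_pow_right (Nat.le_succ n) ((H0 n _).mpr ?_)
    rw [map_sub, h n, sub_self]
  have hex : ∀ p : P, ∃ r : S ⧸ K, ∀ n, Ψb n r = Ideal.Quotient.mk (Jn n) p := by
    intro p
    have h1 : ∀ n, ∃ a : S, ψn n a = Ideal.Quotient.mk (Jn n) p := fun n => hsurj _ _ _
    choose a' ha' using h1
    let a : ℕ → S := fun n => Nat.casesOn n 0 (fun n => a' n)
    have haS : ∀ n, a (n + 1) = a' n := fun n => rfl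
    have ha : ∀ n, a (n + 1) - a n ∈ Kseq n := by
      intro n
      cases n with
      | zero => rw [hKseq0]; exact Submodule.mem_top
      | succ n =>
        rw [hKseqS, haS, haS, RingHom.mem_ker, map_sub, ha' n, ← hψn_compat n, ha' (n + 1),
          Ideal.Quotient.factor_mk, sub_self]
    obtain ⟨s, hs⟩ := exists_compatible_lift (maximalIdeal S) Kseq hK a ha
    refine ⟨Ideal.Quotient.mk K s, fun n => ?_⟩
    have h2 : s - a' n ∈ RingHom.ker (ψn n) := hs (n + 1)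
    rw [RingHom.mem_ker, map_sub, sub_eq_zero] at h2
    rw [hΨb, h2, ha' n]
  choose φ hφ using hex
  let Φ : P →ₐ[𝒪] S ⧸ K :=
    { toFun := φ
      map_one' := huniq _ _ fun n => by rw [hφ, map_one, map_one]
      map_mul' := fun p q => huniq _ _ fun n => by rw [hφ, map_mul, map_mul, hφ, hφ]
      map_zero' := huniq _ _ fun n => by rw [hφ, map_zero, map_zero]
      map_add' := fun p q => huniq _ _ fun n => by rw [hφ, map_add, map_add, hφ, hφ]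
      commutes' := fun c => huniq _ _ fun n => by
        rw [hφ, halgR, hΨb]
        exact (halg _ _ c).symm }
  have hΦ : ∀ p n, Ψb n (Φ p) = Ideal.Quotient.mk (Jn n) p := hφ
  have hcomap : ∀ n, Ideal.comap Φ (maximalIdeal (S ⧸ K) ^ (n + 1)) = Jn n := by
    intro n
    ext p
    rw [Ideal.mem_comap, H0, hΦ, Ideal.Quotient.eq_zero_iff_mem]
  refine ⟨S ⧸ K, inferInstance, hlocR, inferInstance, hcomplete, inferInstance, hlocO, Φ,
    ?_, ?_, ?_, ?_⟩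
  · intro y
    obtain ⟨r, rfl⟩ := IsLocalRing.residue_surjective y
    obtain ⟨s, rfl⟩ := Ideal.Quotient.mk_surjective r
    obtain ⟨c, hc⟩ := hSres s
    refine ⟨c, ?_⟩
    rw [Function.comp_apply, halgR, ← sub_eq_zero, ← map_sub, ← map_sub,
      IsLocalRing.residue_eq_zero_iff, hmR]
    have := Ideal.mem_map_of_mem (Ideal.Quotient.mk K) hc
    rw [← Ideal.neg_mem_iff] at this
    simpa using this
  · intro n
    rw [hcomap]
    exact hJn𝒢 n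
  · intro n t
    cases n with
    | zero => exact ⟨0, by rw [pow_zero, Ideal.one_eq_top]; exact Submodule.mem_top⟩
    | succ n =>
      obtain ⟨p, hp⟩ := Ideal.Quotient.mk_surjective (Ψb n t)
      refine ⟨p, (H0 n _).mpr ?_⟩
      rw [map_sub, hΦ, hp, sub_self]
  · intro J hJ
    obtain ⟨n, hn⟩ := hpow J hJ
    refine ⟨n + 1, ?_⟩
    rw [hcomap]
    exact hJnleast n J hJ ((Ideal.pow_le_pow_right (Nat.le_succ n)).trans hn)

end Main

end Fermat.Agent.S53.StageD
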