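import Mathlib
import Fermat.Prelude.Thm_IsLocalRing_isAdicComplete_of_module_finite
import Fermat.Agent.S53.L2
import Fermat.Agent.S53.L3
import Fermat.Agent.S53.StageD_aux1
import Fermat.Agent.S53.StageD_aux2

set_option autoImplicit false

namespace Fermat.Agent.S53.StageD

open IsLocalRing

set_option linter.unusedVariables false in
/-- The ring pro-representing a filter of ideals with bounded cotangent spaces. -/
theorem exists_proRing {𝒪 : Type} [CommRing 𝒪] [IsDomain 𝒪] [IsDiscreteValuationRing 𝒪]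
    [IsAdicComplete (maximalIdeal 𝒪) 𝒪] [Finite (ResidueField 𝒪)]
    {P : Type} [CommRing P] [Algebra 𝒪 P] (𝔪 : Ideal P) (h𝔪 : 𝔪.IsMaximal)
    (hC : ∀ c ∈ maximalIdeal 𝒪, algebraMap 𝒪 P c ∈ 𝔪)
    (hres : ∀ p : P, ∃ c : 𝒪, p - algebraMap 𝒪 P c ∈ 𝔪)
    (𝒢 : Set (Ideal P)) (h𝔪𝒢 : 𝔪 ∈ 𝒢)
    (hle : ∀ J ∈ 𝒢, J ≤ 𝔪) (hpow : ∀ J ∈ 𝒢, ∃ n : ℕ, 𝔪 ^ n ≤ J)
    (hinf : ∀ J ∈ 𝒢, ∀ J' ∈ 𝒢, J ⊓ J' ∈ 𝒢)
    (hup : ∀ J ∈ 𝒢, ∀ J' : Ideal P, J ≤ J' → J' ≤ 𝔪 → J' ∈ 𝒢)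
    {d : ℕ} (x : Fin d → P) (hx : ∀ i, x i ∈ 𝔪)
    (hgen : ∀ J ∈ 𝒢, ∀ p : P, ∃ q : MvPolynomial (Fin d) 𝒪, p - MvPolynomial.aeval x q ∈ J) :
    ∃ (R : Type) (_ : CommRing R) (_ : IsLocalRing R) (_ : IsNoetherianRing R)
      (_ : IsAdicComplete (maximalIdeal R) R) (_ : Algebra 𝒪 R)
      (_ : IsLocalHom (algebraMap 𝒪 R)) (Φ : P →ₐ[𝒪] R),
      Function.Surjective (residue R ∘ algebraMap 𝒪 R) ∧
      (∀ n : ℕ, Ideal.comap Φ (maximalIdeal R ^ (n + 1)) ∈ 𝒢) ∧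
      (∀ (n : ℕ) (t : R), ∃ p : P, t - Φ p ∈ maximalIdeal R ^ n) ∧
      (∀ J ∈ 𝒢, ∃ n : ℕ, Ideal.comap Φ (maximalIdeal R ^ n) ≤ J) := by
  have hcomplete : IsAdicComplete (maximalIdeal (MvPowerSeries (Fin d) 𝒪))
      (MvPowerSeries (Fin d) 𝒪) := L2.mvPowerSeries_isAdicComplete 𝒪 d
  have hNJ : ∀ (J : Ideal P) (hJ : J ∈ 𝒢), 𝔪 ^ ((hpow J hJ).choose + 1) ≤ J := fun J hJ =>
    (Ideal.pow_le_pow_right (Nat.le_succ _)).trans (hpow J hJ).choose_spec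
  let ψa : ∀ J : Ideal P, J ∈ 𝒢 → (MvPowerSeries (Fin d) 𝒪 →ₐ[𝒪] P ⧸ J) := fun J hJ =>
    evalQuot 𝔪 x hx J ((hpow J hJ).choose + 1) (Nat.succ_ne_zero _) (hNJ J hJ)
  have hψq : ∀ (J : Ideal P) (hJ : J ∈ 𝒢) (q : MvPolynomial (Fin d) 𝒪),
      ψa J hJ (q : MvPowerSeries (Fin d) 𝒪) = Ideal.Quotient.mk J (MvPolynomial.aeval x q) :=
    fun J hJ q => evalQuot_coe 𝔪 x hx J ((hpow J hJ).choose + 1) (Nat.succ_ne_zero _)
      (hNJ J hJ) q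
  refine core (S := MvPowerSeries (Fin d) 𝒪) (P := P) isLocalHom_algebraMap ?_
    (fun n => finite_quotient_maximalIdeal_pow n) 𝔪 h𝔪.ne_top 𝒢 h𝔪𝒢 hle hpow hinf hup
    (fun J hJ => (ψa J hJ : MvPowerSeries (Fin d) 𝒪 →+* P ⧸ J)) ?_ ?_ ?_ ?_ ?_
  · intro s
    refine ⟨MvPowerSeries.constantCoeff s, ?_⟩
    rw [MvPowerSeries.algebraMap_apply, Algebra.algebraMap_self, RingHom.id_apply]
    exact sub_C_constantCoeff_mem s
  · intro J hJ c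
    exact (ψa J hJ).commutes c
  · intro J hJ y
    obtain ⟨p, rfl⟩ := Ideal.Quotient.mk_surjective y
    obtain ⟨q, hq⟩ := hgen J hJ p
    refine ⟨(q : MvPowerSeries (Fin d) 𝒪), ?_⟩
    show ψa J hJ (q : MvPowerSeries (Fin d) 𝒪) = _
    rw [hψq J hJ q, Ideal.Quotient.eq]
    have := J.neg_mem hq
    rwa [neg_sub] at this
  · intro J J' hJ hJ' h s
    exact evalQuot_eq_of_le 𝔪 x hx J J' h ((hpow J hJ).choose + 1) (Nat.succ_ne_zero _)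
      (hNJ J hJ) ((hpow J' hJ').choose + 1) (Nat.succ_ne_zero _) (hNJ J' hJ') s
  · intro J hJ s hs
    exact evalQuot_mem_map 𝔪 hC x hx J ((hpow J hJ).choose + 1) (Nat.succ_ne_zero _)
      (hNJ J hJ) s hs
  · intro J J' hJ hJ' hker p hp
    obtain ⟨q, hq⟩ := hgen (J ⊓ J') (hinf J hJ J' hJ') p
    have hqJ : MvPolynomial.aeval x q ∈ J := by
      have := J.sub_mem hp hq.1
      rwa [sub_sub_cancel] at this
    have h1 : (q : MvPowerSeries (Fin d) 𝒪) ∈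
        RingHom.ker (ψa J hJ : MvPowerSeries (Fin d) 𝒪 →+* P ⧸ J) := by
      rw [RingHom.mem_ker]
      show ψa J hJ (q : MvPowerSeries (Fin d) 𝒪) = 0
      rw [hψq J hJ q]
      exact Ideal.Quotient.eq_zero_iff_mem.mpr hqJ
    have h2 := hker h1
    rw [RingHom.mem_ker] at h2
    have h3 : ψa J' hJ' (q : MvPowerSeries (Fin d) 𝒪) = 0 := h2
    rw [hψq J' hJ' q, Ideal.Quotient.eq_zero_iff_mem] at h3
    have := J'.add_mem hq.2 h3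
    rwa [sub_add_cancel] at this

end Fermat.Agent.S53.StageD
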