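import Mathlib
import Fermat.Agent.S53.Defs

set_option autoImplicit false

open IsLocalRing Fermat.Agent.S53.H84

namespace Fermat.Agent.S53.L6

section aux

variable {A : Type} [CommRing A]

theorem mul_entries_mem_right (I : Ideal A) (X N : M2 A) (h : ∀ i j, N i j ∈ I) :
    ∀ i j, (X * N) i j ∈ I := by
  intro i j
  rw [Matrix.mul_apply]
  exact Ideal.sum_mem _ fun l _ => Ideal.mul_mem_left _ _ (h l j)

theorem mul_entries_mem_left (I : Ideal A) (N X : M2 A) (h : ∀ i j, N i j ∈ I) :
    ∀ i j, (N * X) i j ∈ I := by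
  intro i j
  rw [Matrix.mul_apply]
  exact Ideal.sum_mem _ fun l _ => Ideal.mul_mem_right _ _ (h i l)

/-- Conjugation of a matrix valued monoid hom by an invertible matrix. -/
noncomputable def conjHom (Q : M2 A) (hQ : IsUnit Q.det) (r : Gal →* M2 A) : Gal →* M2 A where
  toFun σ := Q⁻¹ * r σ * Q
  map_one' := by
    rw [map_one, Matrix.mul_one, Matrix.nonsing_inv_mul _ hQ]
  map_mul' σ τ := by
    have h : Q⁻¹ * r σ * Q * (Q⁻¹ * r τ * Q) = Q⁻¹ * r σ * (Q * Q⁻¹) * r τ * Q := by
      simp only [Matrix.mul_assoc]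
    rw [h, Matrix.mul_nonsing_inv _ hQ, Matrix.mul_one, map_mul]
    simp only [Matrix.mul_assoc]

theorem conjHom_apply (Q : M2 A) (hQ : IsUnit Q.det) (r : Gal →* M2 A) (σ : Gal) :
    conjHom Q hQ r σ = Q⁻¹ * r σ * Q := rfl

theorem conj_col {Q X : M2 A} (hQ : IsUnit Q.det) (t : Fin 2 → A) (j : Fin 2)
    (h : ∀ i, (X * Q) i j = (Q.mulVec t) i) : ∀ i, (Q⁻¹ * X * Q) i j = t i := by
  intro i
  have h1 : (Q⁻¹ * X * Q) i j = (Q⁻¹.mulVec (Q.mulVec t)) i := by
    rw [Matrix.mul_assoc, Matrix.mul_apply]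
    simp only [Matrix.mulVec, dotProduct]
    exact Finset.sum_congr rfl fun l _ => by rw [h l]; rfl
  rw [h1, Matrix.mulVec_mulVec, Matrix.nonsing_inv_mul _ hQ, Matrix.one_mulVec]

end aux

theorem exists_slice_conj {𝒪 : Type} [CommRing 𝒪] [IsLocalRing 𝒪] {A : Type} [CommRing A]
    [IsLocalRing A] [Algebra 𝒪 A] [IsLocalHom (algebraMap 𝒪 A)]
    [IsAdicComplete (maximalIdeal A) A]
    {rt : Gal → M2 𝒪} {u : Gal →₀ 𝒪} {g₀ : Gal} (hs : SliceData rt u g₀)
    (r : Gal →* M2 A) (hl : Lifts rt r) :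
    ∃ (M : M2 A) (r' : Gal →* M2 A), IsUnit M.det ∧ (∀ σ, M * r σ = r' σ * M) ∧
      Lifts rt r' ∧ InSlice u g₀ r' ∧ (MatCont r → MatCont r') := by
  classical
  -- the image of the maximal ideal of `𝒪` lies in the maximal ideal of `A`
  have hloc : ∀ x ∈ maximalIdeal 𝒪, algebraMap 𝒪 A x ∈ maximalIdeal A := fun x hx =>
    map_nonunit (algebraMap 𝒪 A) x hx
  -- entries of `U = ext u r` are congruent to those of `ext u rt`
  have hUcong : ∀ i j, ext u (fun g => r g) i j - algebraMap 𝒪 A (ext u rt i j) ∈ maximalIdeal A := by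
    intro i j
    simp only [ext, Finsupp.sum]
    rw [Matrix.sum_apply, Matrix.sum_apply, map_sum, ← Finset.sum_sub_distrib]
    refine Ideal.sum_mem _ fun g _ => ?_
    simp only [Matrix.smul_apply]
    rw [Algebra.smul_def, smul_eq_mul, map_mul, ← mul_sub]
    exact Ideal.mul_mem_left _ _ (hl g i j)
  set U : M2 A := ext u (fun g => r g) with hU
  set a := U 0 0 with ha
  set b := U 0 1 with hb
  set c := U 1 0 with hc
  set d := U 1 1 with hd
  have hcm : c ∈ maximalIdeal A := by
    have h1 := hUcong 1 0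
    have h2 := hloc _ hs.U10
    have : c = (U 1 0 - algebraMap 𝒪 A (ext u rt 1 0)) + algebraMap 𝒪 A (ext u rt 1 0) := by
      rw [hc]; ring
    rw [this]
    exact Ideal.add_mem _ h1 h2
  have hadu : IsUnit (a - d) := by
    have he : IsUnit (ext u rt 0 0 - ext u rt 1 1) :=
      IsLocalRing.notMem_maximalIdeal.mp hs.Une
    have he' : IsUnit (algebraMap 𝒪 A (ext u rt 0 0 - ext u rt 1 1)) := he.map _
    rw [← IsLocalRing.notMem_maximalIdeal]
    intro hmem
    have h1 := hUcong 0 0
    have h2 := hUcong 1 1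
    have h3 : algebraMap 𝒪 A (ext u rt 0 0 - ext u rt 1 1) ∈ maximalIdeal A := by
      have : algebraMap 𝒪 A (ext u rt 0 0 - ext u rt 1 1) =
          (a - d) - (U 0 0 - algebraMap 𝒪 A (ext u rt 0 0))
            + (U 1 1 - algebraMap 𝒪 A (ext u rt 1 1)) := by
        rw [map_sub, ha, hd]; ring
      rw [this]
      exact Ideal.add_mem _ (Ideal.sub_mem _ hmem h1) h2
    exact (IsLocalRing.notMem_maximalIdeal.mpr he') h3
  -- Hensel
  let f : Polynomial A := (Polynomial.X - Polynomial.C a) * (Polynomial.X - Polynomial.C d)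
    - Polynomial.C (b * c)
  have hfmonic : f.Monic := by
    have h1 : ((Polynomial.X - Polynomial.C a) * (Polynomial.X - Polynomial.C d)).Monic :=
      (Polynomial.monic_X_sub_C a).mul (Polynomial.monic_X_sub_C d)
    refine Polynomial.Monic.sub_of_left h1 ?_
    have hdeg : ((Polynomial.X - Polynomial.C a) * (Polynomial.X - Polynomial.C d)).degree = 2 := by
      rw [Polynomial.Monic.degree_mul (Polynomial.monic_X_sub_C d),
        Polynomial.degree_X_sub_C, Polynomial.degree_X_sub_C]
      rfl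
    rw [hdeg]
    exact lt_of_le_of_lt Polynomial.degree_C_le (by norm_num)
  have hfeval : ∀ x : A, f.eval x = (x - a) * (x - d) - b * c := by
    intro x
    simp [f]
  have hfder : f.derivative.eval a = a - d := by
    simp [f, Polynomial.derivative_mul]
  obtain ⟨lam, hroot, hlam⟩ := HenselianRing.is_henselian (I := maximalIdeal A) f hfmonic a
    (by
      rw [hfeval]
      have : (a - a) * (a - d) - b * c = -(b * c) := by ring
      rw [this]
      exact Ideal.neg_mem_iff _ |>.mpr (Ideal.mul_mem_left _ _ hcm))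
    (by rw [hfder]; exact hadu.map _)
  have hroot' : (lam - a) * (lam - d) = b * c := by
    have := hroot
    rw [Polynomial.IsRoot, hfeval] at this
    exact sub_eq_zero.mp this
  -- `d - lam` is a unit
  have hdlu : IsUnit (d - lam) := by
    rw [← IsLocalRing.notMem_maximalIdeal]
    intro hmem
    have : a - d ∈ maximalIdeal A := by
      have e : a - d = -(lam - a) - (d - lam) := by ring
      rw [e]
      exact Ideal.sub_mem _ (Ideal.neg_mem_iff _ |>.mpr hlam) hmem
    exact (IsLocalRing.notMem_maximalIdeal.mpr hadu) this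
  obtain ⟨w, hw⟩ := hdlu.exists_right_inv
  set y : A := -c * w with hy
  have hym : y ∈ maximalIdeal A := by
    rw [hy]
    exact Ideal.mul_mem_right _ _ (Ideal.neg_mem_iff _ |>.mpr hcm)
  -- the second basis vector
  set p : A := r g₀ 0 0 + r g₀ 0 1 * y with hp
  set q : A := r g₀ 1 0 + r g₀ 1 1 * y with hq
  have hg00 : r g₀ 0 0 ∈ maximalIdeal A := by
    have h1 := hl g₀ 0 0
    have h2 := hloc _ hs.g00
    have : r g₀ 0 0 = (r g₀ 0 0 - algebraMap 𝒪 A (rt g₀ 0 0)) + algebraMap 𝒪 A (rt g₀ 0 0) := by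
      ring
    rw [this]
    exact Ideal.add_mem _ h1 h2
  have hg10 : r g₀ 1 0 - 1 ∈ maximalIdeal A := by
    have h1 := hl g₀ 1 0
    have h2 := hloc _ hs.g10
    have : r g₀ 1 0 - 1 = (r g₀ 1 0 - algebraMap 𝒪 A (rt g₀ 1 0))
        + algebraMap 𝒪 A (rt g₀ 1 0 - 1) := by
      rw [map_sub, map_one]; ring
    rw [this]
    exact Ideal.add_mem _ h1 h2
  have hpm : p ∈ maximalIdeal A := by
    rw [hp]
    exact Ideal.add_mem _ hg00 (Ideal.mul_mem_left _ _ hym)
  have hqm : q - 1 ∈ maximalIdeal A := by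
    have : q - 1 = (r g₀ 1 0 - 1) + r g₀ 1 1 * y := by rw [hq]; ring
    rw [this]
    exact Ideal.add_mem _ hg10 (Ideal.mul_mem_left _ _ hym)
  set Q : M2 A := !![1, p; y, q] with hQdef
  have hQdet : IsUnit Q.det := by
    have hdet : Q.det = q - p * y := by
      rw [hQdef, Matrix.det_fin_two_of]; ring
    rw [hdet, ← IsLocalRing.notMem_maximalIdeal]
    intro hmem
    have h1 : (1 : A) ∈ maximalIdeal A := by
      have e : (1 : A) = (q - p * y) - (q - 1) + p * y := by ring
      rw [e]
      exact Ideal.add_mem _ (Ideal.sub_mem _ hmem hqm) (Ideal.mul_mem_left _ _ hym)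
    exact (Ideal.ne_top_iff_one _).mp (IsLocalRing.maximalIdeal.isMaximal A).ne_top h1
  have hQ1 : ∀ i j, (Q - 1) i j ∈ maximalIdeal A := by
    intro i j
    fin_cases i <;> fin_cases j
    · simp [hQdef]
    · simpa [hQdef] using hpm
    · simpa [hQdef] using hym
    · simpa [hQdef] using hqm
  -- eigenvector identities
  have hUQ : ∀ i, (U * Q) i 0 = (Q.mulVec ![lam, 0]) i := by
    have e0 : a + b * y = lam := by
      have h1 : (a - lam) = b * c * w := by
        have : (a - lam) * ((d - lam) * w) = b * c * w := by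
          have h2 : (a - lam) * (d - lam) = b * c := by rw [← hroot']; ring
          rw [← mul_assoc, h2]
        rwa [hw, mul_one] at this
      have : a + b * y - lam = (a - lam) - b * c * w := by rw [hy]; ring
      have h3 : a + b * y - lam = 0 := by rw [this, h1, sub_self]
      exact sub_eq_zero.mp h3
    have e1 : c + d * y = lam * y := by
      have : c + d * y - lam * y = c - c * ((d - lam) * w) := by rw [hy]; ring
      have h3 : c + d * y - lam * y = 0 := by rw [this, hw, mul_one, sub_self]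
      exact sub_eq_zero.mp h3
    intro i
    fin_cases i
    · simp only [hQdef, Matrix.mul_apply, Fin.sum_univ_two, Matrix.mulVec, dotProduct]
      simp
      linear_combination e0
    · simp only [hQdef, Matrix.mul_apply, Fin.sum_univ_two, Matrix.mulVec, dotProduct]
      simp
      linear_combination e1
  have hgQ : ∀ i, (r g₀ * Q) i 0 = (Q.mulVec ![0, 1]) i := by
    intro i
    fin_cases i
    · simp [hQdef, Matrix.mul_apply, Fin.sum_univ_two, Matrix.mulVec, dotProduct, hp]
    · simp [hQdef, Matrix.mul_apply, Fin.sum_univ_two, Matrix.mulVec, dotProduct, hq]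
  -- the conjugated representation
  refine ⟨Q⁻¹, conjHom Q hQdet r, Matrix.isUnit_nonsing_inv_det Q hQdet, ?_, ?_, ?_, ?_⟩
  · intro σ
    rw [conjHom_apply, Matrix.mul_assoc, Matrix.mul_nonsing_inv _ hQdet, Matrix.mul_one]
  · -- Lifts
    intro σ i j
    have hdiff : ∀ i j, (conjHom Q hQdet r σ - r σ) i j ∈ maximalIdeal A := by
      have e : conjHom Q hQdet r σ - r σ = Q⁻¹ * (r σ * (Q - 1) - (Q - 1) * r σ) := by
        rw [conjHom_apply]
        have h1 : Q⁻¹ * (r σ * (Q - 1) - (Q - 1) * r σ)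
            = Q⁻¹ * r σ * Q - (Q⁻¹ * Q) * r σ := by
          simp only [Matrix.mul_sub, Matrix.sub_mul, Matrix.mul_one, Matrix.one_mul,
            Matrix.mul_assoc]
          abel
        rw [h1, Matrix.nonsing_inv_mul _ hQdet, Matrix.one_mul]
      rw [e]
      apply mul_entries_mem_right
      intro i j
      rw [Matrix.sub_apply]
      exact Ideal.sub_mem _ (mul_entries_mem_right _ _ _ hQ1 i j)
        (mul_entries_mem_left _ _ _ hQ1 i j)
    have e : conjHom Q hQdet r σ i j - algebraMap 𝒪 A (rt σ i j)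
        = (conjHom Q hQdet r σ - r σ) i j + (r σ i j - algebraMap 𝒪 A (rt σ i j)) := by
      rw [Matrix.sub_apply]; ring
    rw [e]
    exact Ideal.add_mem _ (hdiff i j) (hl σ i j)
  · -- InSlice
    have hext : ext u (fun g => conjHom Q hQdet r g) = Q⁻¹ * U * Q := by
      simp only [hU, ext, Finsupp.sum, conjHom_apply]
      rw [Finset.mul_sum, Finset.sum_mul]
      exact Finset.sum_congr rfl fun g _ => by
        rw [Matrix.mul_smul, Matrix.smul_mul]
    refine ⟨?_, ?_, ?_⟩
    · show ext u (fun g => conjHom Q hQdet r g) 1 0 = 0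
      rw [hext, conj_col hQdet ![lam, 0] 0 hUQ 1]
      rfl
    · show conjHom Q hQdet r g₀ 0 0 = 0
      rw [conjHom_apply, conj_col hQdet ![0, 1] 0 hgQ 0]
      rfl
    · show conjHom Q hQdet r g₀ 1 0 = 1
      rw [conjHom_apply, conj_col hQdet ![0, 1] 0 hgQ 1]
      rfl
  · -- continuity
    intro hcont n
    obtain ⟨L, hL, h⟩ := hcont n
    refine ⟨L, hL, fun σ hσ => ?_⟩
    have e : conjHom Q hQdet r σ - 1 = Q⁻¹ * (r σ - 1) * Q := by
      rw [conjHom_apply, Matrix.mul_sub, Matrix.sub_mul, Matrix.mul_one,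
        Matrix.nonsing_inv_mul _ hQdet]
    rw [e]
    exact mul_entries_mem_left _ _ _ (mul_entries_mem_right _ _ _ (h σ hσ))

end Fermat.Agent.S53.L6
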