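import Mathlib
import Fermat.Agent.S53.Defs
import Fermat.Agent.S53.Slice
import Fermat.Agent.S53.Family0
import Fermat.Agent.S53.FamilyM
import Fermat.Agent.S53.FamilyA
import Fermat.Agent.S53.FamilyB
import Fermat.Agent.S53.L6
import Fermat.Agent.S53.L8a
import Fermat.Agent.S53.L8b

set_option autoImplicit false

namespace Fermat.Agent.S53.StageE0

open IsLocalRing Fermat.Agent.S53.H84

section prelim

theorem eq_zero_of_forall_mem_pow {R : Type} [CommRing R] [IsLocalRing R]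
    [IsHausdorff (maximalIdeal R) R] (t : R) (h : ∀ n, t ∈ maximalIdeal R ^ n) : t = 0 := by
  apply IsHausdorff.haus (inferInstance : IsHausdorff (maximalIdeal R) R)
  intro n
  rw [SModEq.zero]
  simpa using h n

theorem finite_residueField_of_surj {𝒪 A : Type} [CommRing 𝒪] [IsLocalRing 𝒪]
    [Finite (ResidueField 𝒪)] [CommRing A] [IsLocalRing A] [Algebra 𝒪 A]
    [IsLocalHom (algebraMap 𝒪 A)]
    (hsurj : Function.Surjective (residue A ∘ algebraMap 𝒪 A)) : Finite (ResidueField A) := by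
  refine Finite.of_surjective (ResidueField.map (algebraMap 𝒪 A)) ?_
  intro y
  obtain ⟨c, hc⟩ := hsurj y
  exact ⟨residue 𝒪 c, by rw [ResidueField.map_residue]; exact hc⟩

theorem finite_quotient_pow_of_surj {𝒪 A : Type} [CommRing 𝒪] [IsLocalRing 𝒪]
    [Finite (ResidueField 𝒪)] [CommRing A] [IsLocalRing A] [IsNoetherianRing A] [Algebra 𝒪 A]
    [IsLocalHom (algebraMap 𝒪 A)]
    (hsurj : Function.Surjective (residue A ∘ algebraMap 𝒪 A)) (n : ℕ) :
    Finite (A ⧸ maximalIdeal A ^ n) := by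
  haveI : Finite (A ⧸ maximalIdeal A) := finite_residueField_of_surj hsurj
  exact Ideal.finite_quotient_pow (IsNoetherian.noetherian _) n

theorem matRep_congr {A : Type} [CommRing A] [IsLocalRing A] {r r' : Gal →* M2 A}
    (h : r = r') (hr : MatCont r) (hr' : MatCont r') : (matRep r hr).IsEquiv (matRep r' hr') := by
  subst h
  exact ⟨GaloisRepAdic.Equiv.refl _⟩

theorem isEquiv_symm {A : Type} [CommRing A] [IsLocalRing A] {ρ₁ ρ₂ : GaloisRepAdic A}
    (h : ρ₁.IsEquiv ρ₂) : ρ₂.IsEquiv ρ₁ :=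
  h.elim fun e => ⟨e.symm⟩

theorem isEquiv_trans {A : Type} [CommRing A] [IsLocalRing A] {ρ₁ ρ₂ ρ₃ : GaloisRepAdic A}
    (h : ρ₁.IsEquiv ρ₂) (h' : ρ₂.IsEquiv ρ₃) : ρ₁.IsEquiv ρ₃ :=
  h.elim fun e => h'.elim fun e' => ⟨e.trans e'⟩

theorem lifts_map {𝒪 : Type} [CommRing 𝒪] {A B : Type} [CommRing A] [IsLocalRing A]
    [Algebra 𝒪 A] [CommRing B] [IsLocalRing B] [Algebra 𝒪 B] (φ : A →ₐ[𝒪] B)
    (hφ : IsLocalHom (φ : A →+* B)) {rt : Gal → M2 𝒪} {r : Gal →* M2 A} (hl : Lifts rt r) :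
    Lifts rt (((φ : A →+* B).mapMatrix : M2 A →+* M2 B).toMonoidHom.comp r) := by
  intro σ i j
  have h : (((φ : A →+* B).mapMatrix : M2 A →+* M2 B).toMonoidHom.comp r) σ i j
      - algebraMap 𝒪 B (rt σ i j) = (φ : A →+* B) (r σ i j - algebraMap 𝒪 A (rt σ i j)) := by
    rw [map_sub]
    simp
  rw [h]
  exact map_nonunit (φ : A →+* B) _ (hl σ i j)

theorem inSlice_map {𝒪 : Type} [CommRing 𝒪] {A B : Type} [CommRing A]
    [Algebra 𝒪 A] [CommRing B] [Algebra 𝒪 B] (φ : A →ₐ[𝒪] B)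
    {u : Gal →₀ 𝒪} {g₀ : Gal} {r : Gal →* M2 A} (h : InSlice u g₀ r) :
    InSlice u g₀ (((φ : A →+* B).mapMatrix : M2 A →+* M2 B).toMonoidHom.comp r) := by
  obtain ⟨h1, h2, h3⟩ := h
  refine ⟨?_, ?_, ?_⟩
  · have e := ext_map φ u (fun g => r g)
    have e' : ext u (⇑(((φ : A →+* B).mapMatrix : M2 A →+* M2 B).toMonoidHom.comp r))
        = (φ : A →+* B).mapMatrix (ext u (fun g => r g)) := e
    rw [e', RingHom.mapMatrix_apply, Matrix.map_apply]
    have h1' : ext u (fun g => r g) 1 0 = 0 := h1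
    rw [h1', map_zero]
  · show (φ : A →+* B) (r g₀ 0 0) = 0
    rw [h2, map_zero]
  · show (φ : A →+* B) (r g₀ 1 0) = 1
    rw [h3, map_one]

end prelim

variable {𝒪 : Type} [CommRing 𝒪] [IsLocalRing 𝒪]
variable {𝒟 : ∀ ⦃A : Type⦄ [CommRing A] [IsLocalRing A] [Algebra 𝒪 A], GaloisRepAdic A → Prop}
variable {rt : Gal → M2 𝒪} {u : Gal →₀ 𝒪} {g₀ : Gal}
variable {R : Type} [CommRing R] [IsLocalRing R] [Algebra 𝒪 R] {Φ : PRing 𝒪 →ₐ[𝒪] R}

/-- The output of the abstract pro-representing ring construction. -/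
structure ProData (𝒟 : ∀ ⦃A : Type⦄ [CommRing A] [IsLocalRing A] [Algebra 𝒪 A],
      GaloisRepAdic A → Prop) (rt : Gal → M2 𝒪) (u : Gal →₀ 𝒪) (g₀ : Gal)
    (R : Type) [CommRing R] [IsLocalRing R] [Algebra 𝒪 R] (Φ : PRing 𝒪 →ₐ[𝒪] R) : Prop where
  surj : Function.Surjective (residue R ∘ algebraMap 𝒪 R)
  good : ∀ n : ℕ, Good 𝒟 rt u g₀ (Ideal.comap Φ (maximalIdeal R ^ (n + 1)))
  dense : ∀ (n : ℕ) (t : R), ∃ p : PRing 𝒪, t - Φ p ∈ maximalIdeal R ^ n
  cof : ∀ J, Good 𝒟 rt u g₀ J → ∃ n : ℕ, Ideal.comap Φ (maximalIdeal R ^ n) ≤ J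

namespace ProData

theorem map_eq_zero [IsHausdorff (maximalIdeal R) R] (H : ProData 𝒟 rt u g₀ R Φ)
    {p : PRing 𝒪} (hp : ∀ J, Good 𝒟 rt u g₀ J → p ∈ J) : Φ p = 0 := by
  apply eq_zero_of_forall_mem_pow
  intro n
  have h := hp _ (H.good n)
  exact Ideal.pow_le_pow_right (Nat.le_succ n) h

/-- The universal matrix valued representation. -/
noncomputable def rR [IsHausdorff (maximalIdeal R) R] (H : ProData 𝒟 rt u g₀ R Φ) :
    Gal →* M2 R where
  toFun σ := Matrix.of fun i j => Φ (MvPolynomial.X (σ, i, j))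
  map_one' := by
    ext i j
    have h := H.map_eq_zero (p := MvPolynomial.X ((1 : Gal), i, j) -
      MvPolynomial.C (if i = j then 1 else 0)) (fun J hJ => FamilyA.Good.one_mem hJ i j)
    rw [map_sub, sub_eq_zero] at h
    rw [Matrix.of_apply, h, Matrix.one_apply]
    split_ifs <;> simp
  map_mul' σ τ := by
    ext i j
    have h := H.map_eq_zero (p := MvPolynomial.X (σ * τ, i, j) -
      ∑ l : Fin 2, MvPolynomial.X (σ, i, l) * MvPolynomial.X (τ, l, j))
      (fun J hJ => FamilyA.Good.mul_mem hJ σ τ i j)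
    rw [map_sub, sub_eq_zero] at h
    rw [Matrix.of_apply, h, Matrix.mul_apply]
    simp

theorem rR_apply [IsHausdorff (maximalIdeal R) R] (H : ProData 𝒟 rt u g₀ R Φ) (σ : Gal)
    (i j : Fin 2) : H.rR σ i j = Φ (MvPolynomial.X (σ, i, j)) := rfl

theorem evalP_rR [IsHausdorff (maximalIdeal R) R] (H : ProData 𝒟 rt u g₀ R Φ) :
    evalP (𝒪 := 𝒪) H.rR = Φ := by
  apply MvPolynomial.algHom_ext
  rintro ⟨σ, i, j⟩
  rw [evalP_X, rR_apply]

theorem comap_maximalIdeal (H : ProData 𝒟 rt u g₀ R Φ) :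
    Ideal.comap Φ (maximalIdeal R) = mP rt := by
  have h1 : Ideal.comap Φ (maximalIdeal R) ≤ mP rt := by
    have h := FamilyA.Good.le_mP (H.good 0)
    simpa using h
  have hmax : (Ideal.comap Φ (maximalIdeal R)).IsMaximal := by
    have hs : Function.Surjective ((residue R).comp (Φ : PRing 𝒪 →+* R)) := by
      intro y
      obtain ⟨t, rfl⟩ := residue_surjective y
      obtain ⟨p, hp⟩ := H.dense 1 t
      refine ⟨p, ?_⟩
      rw [pow_one] at hp
      have := (residue_eq_zero_iff _).mpr hp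
      rw [map_sub, sub_eq_zero] at this
      exact this.symm
    have hk : Ideal.comap Φ (maximalIdeal R) = RingHom.ker ((residue R).comp (Φ : PRing 𝒪 →+* R)) := by
      ext p
      simp [RingHom.mem_ker, residue_eq_zero_iff]
    rw [hk]
    exact RingHom.ker_isMaximal_of_surjective _ hs
  exact hmax.eq_of_le (FamilyM.mP_isMaximal rt).ne_top h1

theorem matCont [IsHausdorff (maximalIdeal R) R] (H : ProData 𝒟 rt u g₀ R Φ) :
    MatCont H.rR := by
  intro n
  obtain ⟨L, hL, h⟩ := FamilyA.Good.cont (H.good n)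
  refine ⟨L, hL, fun σ hσ i j => ?_⟩
  have h1 := h σ hσ i j
  have e : (H.rR σ - 1) i j = Φ (MvPolynomial.X (σ, i, j) -
      MvPolynomial.C (if i = j then 1 else 0)) := by
    rw [Matrix.sub_apply, rR_apply, map_sub, Matrix.one_apply]
    split_ifs <;> simp
  rw [e]
  exact Ideal.pow_le_pow_right (Nat.le_succ n) h1

theorem lifts [IsHausdorff (maximalIdeal R) R] (H : ProData 𝒟 rt u g₀ R Φ) :
    Lifts rt H.rR := by
  intro σ i j
  have h1 := FamilyM.X_sub_C_mem_mP rt σ i j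
  rw [← H.comap_maximalIdeal] at h1
  have e : H.rR σ i j - algebraMap 𝒪 R (rt σ i j) = Φ (MvPolynomial.X (σ, i, j) -
      MvPolynomial.C (rt σ i j)) := by
    rw [rR_apply, map_sub, ← MvPolynomial.algebraMap_eq, AlgHom.commutes]
  rw [e]
  exact h1

theorem inSlice [IsHausdorff (maximalIdeal R) R] (H : ProData 𝒟 rt u g₀ R Φ) :
    InSlice u g₀ H.rR := by
  refine ⟨?_, ?_, ?_⟩
  · have h := H.map_eq_zero (p := u.sum fun g c => MvPolynomial.C c *
      MvPolynomial.X (g, (1 : Fin 2), (0 : Fin 2))) (fun J hJ => (FamilyA.Good.slice_mem hJ).1)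
    rw [ext_apply, ← h, map_finsuppSum]
    refine Finsupp.sum_congr fun g _ => ?_
    rw [map_mul, ← MvPolynomial.algebraMap_eq, AlgHom.commutes, rR_apply]
  · have h := H.map_eq_zero (p := MvPolynomial.X (g₀, (0 : Fin 2), (0 : Fin 2)))
      (fun J hJ => (FamilyA.Good.slice_mem hJ).2.1)
    rw [rR_apply, h]
  · have h := H.map_eq_zero (p := MvPolynomial.X (g₀, (1 : Fin 2), (0 : Fin 2)) - 1)
      (fun J hJ => (FamilyA.Good.slice_mem hJ).2.2)
    rw [map_sub, sub_eq_zero, map_one] at h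
    rw [rR_apply, h]

theorem isD [IsNoetherianRing R] [IsAdicComplete (maximalIdeal R) R]
    [IsLocalHom (algebraMap 𝒪 R)] [Finite (ResidueField 𝒪)]
    (h𝒟 : GaloisRep.IsDeformationCondition 𝒪 𝒟) (H : ProData 𝒟 rt u g₀ R Φ) :
    𝒟 (matRep H.rR H.matCont) := by
  rw [h𝒟.iff_forall_surjective inferInstance H.surj]
  intro B _ _ _ hB q hq hqs
  haveI := hB.isArtinian
  obtain ⟨n, hn⟩ := (isArtinianRing_iff_isNilpotent_maximalIdeal B).mp inferInstance
  have hkill : ∀ t ∈ maximalIdeal R ^ (n + 1), (q : R →+* B) t = 0 := by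
    intro t ht
    have h1 : (q : R →+* B) t ∈ (maximalIdeal R ^ (n + 1)).map (q : R →+* B) :=
      Ideal.mem_map_of_mem _ ht
    rw [Ideal.map_pow] at h1
    have h2 : (maximalIdeal R).map (q : R →+* B) ^ (n + 1) ≤ maximalIdeal B ^ (n + 1) :=
      Ideal.pow_right_mono (haveI := hq; map_maximalIdeal_le _) _
    have h3 := h2 h1
    rw [pow_succ, hn] at h3
    simpa using h3
  haveI : Finite B := by
    haveI := finite_quotient_pow_of_surj H.surj (n + 1)
    exact Finite.of_surjective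
      (Ideal.Quotient.lift (maximalIdeal R ^ (n + 1)) (q : R →+* B) hkill)
      (Ideal.Quotient.lift_surjective_of_surjective _ _ hqs)
  have hcB : MatCont (((q : R →+* B).mapMatrix : M2 R →+* M2 B).toMonoidHom.comp H.rR) :=
    L8a.matCont_map (q : R →+* B) hq H.matCont
  have hev : evalP (𝒪 := 𝒪) (((q : R →+* B).mapMatrix : M2 R →+* M2 B).toMonoidHom.comp H.rR)
      = q.comp Φ := by
    have h := comp_evalP (𝒪 := 𝒪) q (fun g => H.rR g)
    rw [show evalP (𝒪 := 𝒪) (fun g => H.rR g) = Φ from H.evalP_rR] at h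
    exact h.symm
  have hdef : IsDef 𝒟 rt u g₀ B
      (((q : R →+* B).mapMatrix : M2 R →+* M2 B).toMonoidHom.comp H.rR) := by
    refine FamilyB.Good.isDef_of_le h𝒟 (H.good n) hB _ ?_
    intro p hp
    rw [RingHom.mem_ker, hev]
    exact hkill _ hp
  exact h𝒟.of_isEquiv hB
    (isEquiv_symm (L8a.matRep_baseChangeAlong (q : R →+* B) hq H.rR H.matCont hcB))
    (hdef.isD hcB)

end ProData

end Fermat.Agent.S53.StageE0
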