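import Mathlib
import Fermat.Agent.S53.Defs
import Fermat.Agent.S53.Slice
import Fermat.Agent.S53.Family0
import Fermat.Agent.S53.FamilyM
import Fermat.Agent.S53.FamilyA
import Fermat.Agent.S53.L6
import Fermat.Agent.S53.L8a
import Fermat.Agent.S53.L8b

set_option autoImplicit false

namespace Fermat.Agent.S53.StageE1

open IsLocalRing Fermat.Agent.S53.H84

variable {𝒪 : Type} [CommRing 𝒪] [IsLocalRing 𝒪]

/-- Every lift of the residual representation is equivalent to a matrix lift in the slice. -/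
theorem exists_slice_rep (ρbar : ResidualGaloisRep (ResidueField 𝒪))
    (b : Module.Basis (Fin 2) (ResidueField 𝒪) ρbar.V) (rt : Gal → M2 𝒪)
    (hrt : ∀ σ i j, residue 𝒪 (rt σ i j) = LinearMap.toMatrix b b (ρbar.ρ σ) i j)
    (u : Gal →₀ 𝒪) (g₀ : Gal) (hs : SliceData rt u g₀)
    {A : Type} [CommRing A] [IsLocalRing A] [Algebra 𝒪 A] [IsLocalHom (algebraMap 𝒪 A)]
    [IsAdicComplete (maximalIdeal A) A] (ρA : GaloisRepAdic A)
    (hresA : ρA.residual.IsEquiv
      (ρbar.baseChangeAlong (IsLocalRing.ResidueField.map (algebraMap 𝒪 A)))) :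
    ∃ (r' : Gal →* M2 A) (hr' : MatCont r'), Lifts rt r' ∧ InSlice u g₀ r' ∧
      ρA.IsEquiv (matRep r' hr') := by
  obtain ⟨r, hr, hl, he⟩ := L8b.exists_matRep_equiv ρbar b rt hrt ρA hresA
  obtain ⟨M, r', hM, hconj, hl', hsl', hcont⟩ := L6.exists_slice_conj hs r hl
  refine ⟨r', hcont hr, hl', hsl', ?_⟩
  have h2 : (matRep r hr).IsEquiv (matRep r' (hcont hr)) :=
    (L8a.matRep_isEquiv_iff r r' hr (hcont hr)).mpr ⟨M, hM, hconj⟩
  exact he.elim fun e => h2.elim fun e' => ⟨e.trans e'⟩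

variable {𝒟 : ∀ ⦃A : Type⦄ [CommRing A] [IsLocalRing A] [Algebra 𝒪 A], GaloisRepAdic A → Prop}

/-- Over a complete Noetherian local algebra the condition is invariant under equivalence. -/
theorem isD_of_isEquiv (h𝒟 : GaloisRep.IsDeformationCondition 𝒪 𝒟)
    {A : Type} [CommRing A] [IsLocalRing A] [IsNoetherianRing A]
    [IsAdicComplete (maximalIdeal A) A] [Algebra 𝒪 A] [IsLocalHom (algebraMap 𝒪 A)]
    (hAs : Function.Surjective (residue A ∘ algebraMap 𝒪 A))
    {ρ ρ' : GaloisRepAdic A} (h : ρ.IsEquiv ρ') (hD : 𝒟 ρ) : 𝒟 ρ' := by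
  rw [h𝒟.iff_forall_surjective inferInstance hAs] at hD ⊢
  intro B _ _ _ hB q hq hqs
  obtain ⟨e⟩ := h
  exact h𝒟.of_isEquiv hB ⟨e.baseChangeAlong (q : A →+* B) hq⟩ (hD hB q hq hqs)

/-- The truncations of a slice lift of type `𝒟` over a complete algebra give good ideals. -/
theorem good_comap_of_isD [Finite (ResidueField 𝒪)]
    (h𝒟 : GaloisRep.IsDeformationCondition 𝒪 𝒟) {rt : Gal → M2 𝒪} {u : Gal →₀ 𝒪} {g₀ : Gal}
    {A : Type} [CommRing A] [IsLocalRing A] [IsNoetherianRing A]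
    [IsAdicComplete (maximalIdeal A) A] [Algebra 𝒪 A] [IsLocalHom (algebraMap 𝒪 A)]
    (hAs : Function.Surjective (residue A ∘ algebraMap 𝒪 A))
    (r' : Gal →* M2 A) (hr' : MatCont r') (hl : Lifts rt r') (hsl : InSlice u g₀ r')
    (hD : 𝒟 (matRep r' hr')) (n : ℕ) :
    Good 𝒟 rt u g₀ (Ideal.comap (evalP (𝒪 := 𝒪) r') (maximalIdeal A ^ (n + 1))) := by
  set I : Ideal A := maximalIdeal A ^ (n + 1) with hI
  have hIle : I ≤ maximalIdeal A := Ideal.pow_le_self (Nat.succ_ne_zero n)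
  have hIne : I ≠ ⊤ := fun h => (maximalIdeal.isMaximal A).ne_top (top_le_iff.mp (h ▸ hIle))
  have hnt : Nontrivial (A ⧸ I) := Ideal.Quotient.nontrivial_iff.mpr hIne
  have hloc : IsLocalRing (A ⧸ I) :=
    IsLocalRing.of_surjective' (Ideal.Quotient.mk I) Ideal.Quotient.mk_surjective
  let q : A →ₐ[𝒪] A ⧸ I := Ideal.Quotient.mkₐ 𝒪 I
  have hqs : Function.Surjective q := Ideal.Quotient.mkₐ_surjective 𝒪 I
  have hq : IsLocalHom (q : A →+* A ⧸ I) :=
    IsLocalHom.of_surjective (q : A →+* A ⧸ I) hqs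
  -- finiteness
  have hfinres : Finite (ResidueField A) := by
    refine Finite.of_surjective (ResidueField.map (algebraMap 𝒪 A)) ?_
    intro y
    obtain ⟨c, hc⟩ := hAs y
    exact ⟨residue 𝒪 c, by rw [ResidueField.map_residue]; exact hc⟩
  have hfin : Finite (A ⧸ I) := by
    have : Finite (A ⧸ maximalIdeal A) := hfinres
    exact Ideal.finite_quotient_pow (IsNoetherian.noetherian _) (n + 1)
  -- the test algebra structure
  have halg : (algebraMap 𝒪 (A ⧸ I)) = (q : A →+* A ⧸ I).comp (algebraMap 𝒪 A) := rfl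
  have hart : GaloisRep.IsArtinianTestAlgebra 𝒪 (A ⧸ I) := by
    refine ⟨?_, ?_, inferInstance⟩
    · rw [halg]
      exact RingHom.isLocalHom_comp _ _
    · intro y
      obtain ⟨x, rfl⟩ := residue_surjective y
      obtain ⟨a, rfl⟩ := hqs x
      obtain ⟨c, hc⟩ := hAs (residue A a)
      refine ⟨c, ?_⟩
      have h1 : algebraMap 𝒪 A c - a ∈ maximalIdeal A := by
        rw [← residue_eq_zero_iff, map_sub, sub_eq_zero]
        exact hc
      have h2 : (q : A →+* A ⧸ I) (algebraMap 𝒪 A c - a) ∈ maximalIdeal (A ⧸ I) :=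
        map_nonunit (q : A →+* A ⧸ I) _ h1
      rw [map_sub] at h2
      show residue (A ⧸ I) (algebraMap 𝒪 (A ⧸ I) c) = residue (A ⧸ I) (q a)
      rw [← sub_eq_zero, ← map_sub, residue_eq_zero_iff]
      exact h2
  -- the truncated representation
  have hcont : MatCont (((q : A →+* A ⧸ I).mapMatrix : M2 A →+* M2 (A ⧸ I)).toMonoidHom.comp r') :=
    L8a.matCont_map (q : A →+* A ⧸ I) hq hr'
  refine ⟨A ⧸ I, inferInstance, hloc, inferInstance,
    ((q : A →+* A ⧸ I).mapMatrix : M2 A →+* M2 (A ⧸ I)).toMonoidHom.comp r', ⟨hart, hfin, hcont,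
      ?_, ?_, ?_⟩, ?_⟩
  · intro σ i j
    have h := map_nonunit (q : A →+* A ⧸ I) _ (hl σ i j)
    rw [map_sub] at h
    have h2 : (q : A →+* A ⧸ I) (algebraMap 𝒪 A (rt σ i j)) = algebraMap 𝒪 (A ⧸ I) (rt σ i j) :=
      q.commutes _
    rw [h2] at h
    exact h
  · obtain ⟨h1, h2, h3⟩ := hsl
    refine ⟨?_, ?_, ?_⟩
    · have e := ext_map q u (fun g => r' g)
      have e' : ext u (⇑(((q : A →+* A ⧸ I).mapMatrix : M2 A →+* M2 (A ⧸ I)).toMonoidHom.comp r'))
          = (q : A →+* A ⧸ I).mapMatrix (ext u (fun g => r' g)) := e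
      rw [e', RingHom.mapMatrix_apply, Matrix.map_apply]
      have h1' : ext u (fun g => r' g) 1 0 = 0 := h1
      rw [h1', map_zero]
    · show (q : A →+* A ⧸ I) (r' g₀ 0 0) = 0
      rw [h2, map_zero]
    · show (q : A →+* A ⧸ I) (r' g₀ 1 0) = 1
      rw [h3, map_one]
  · intro hr
    have h1 := (h𝒟.iff_forall_surjective inferInstance hAs (matRep r' hr')).mp hD hart q hq hqs
    exact h𝒟.of_isEquiv hart (L8a.matRep_baseChangeAlong (q : A →+* A ⧸ I) hq r' hr' hr) h1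
  · have h1 : evalP (𝒪 := 𝒪)
        (⇑(((q : A →+* A ⧸ I).mapMatrix : M2 A →+* M2 (A ⧸ I)).toMonoidHom.comp r')) =
        q.comp (evalP (𝒪 := 𝒪) r') := (comp_evalP q (fun g => r' g)).symm
    rw [h1]
    ext p
    rw [RingHom.mem_ker, Ideal.mem_comap, AlgHom.comp_apply]
    show (Ideal.Quotient.mk I) (evalP (𝒪 := 𝒪) r' p) = 0 ↔ _
    rw [Ideal.Quotient.eq_zero_iff_mem]

end Fermat.Agent.S53.StageE1
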