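import Mathlib

set_option autoImplicit false

namespace Fermat.Agent.S53.StageE2

open IsLocalRing

variable {𝒪 P R A : Type} [CommRing 𝒪] [CommRing P] [Algebra 𝒪 P]
  [CommRing R] [IsLocalRing R] [Algebra 𝒪 R] [CommRing A] [IsLocalRing A] [Algebra 𝒪 A]

omit [IsLocalRing A] in
/-- The level map on chosen approximants. -/
noncomputable def levelFun (Φ : P →ₐ[𝒪] R)
    (hdense : ∀ (n : ℕ) (t : R), ∃ p : P, t - Φ p ∈ maximalIdeal R ^ n)
    (e : P →ₐ[𝒪] A) (I : Ideal A) (N : ℕ) (t : R) : A ⧸ I :=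
  Ideal.Quotient.mk I (e (Classical.choose (hdense N t)))

omit [IsLocalRing A] in
theorem levelFun_eq (Φ : P →ₐ[𝒪] R)
    (hdense : ∀ (n : ℕ) (t : R), ∃ p : P, t - Φ p ∈ maximalIdeal R ^ n)
    (e : P →ₐ[𝒪] A) (I : Ideal A) (N : ℕ)
    (hN : Ideal.comap Φ (maximalIdeal R ^ N) ≤ Ideal.comap e I) (t : R) (p : P)
    (hp : t - Φ p ∈ maximalIdeal R ^ N) :
    levelFun Φ hdense e I N t = Ideal.Quotient.mk I (e p) := by
  unfold levelFun
  rw [Ideal.Quotient.eq, ← map_sub]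
  have h1 := Classical.choose_spec (hdense N t)
  have h2 : Classical.choose (hdense N t) - p ∈ Ideal.comap Φ (maximalIdeal R ^ N) := by
    rw [Ideal.mem_comap, map_sub]
    have e1 : Φ (Classical.choose (hdense N t)) - Φ p
        = (t - Φ p) - (t - Φ (Classical.choose (hdense N t))) := by ring
    rw [e1]
    exact Ideal.sub_mem _ hp h1
  exact hN h2

omit [IsLocalRing A] in
/-- The level algebra hom. -/
noncomputable def levelHom (Φ : P →ₐ[𝒪] R)
    (hdense : ∀ (n : ℕ) (t : R), ∃ p : P, t - Φ p ∈ maximalIdeal R ^ n)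
    (e : P →ₐ[𝒪] A) (I : Ideal A) (N : ℕ)
    (hN : Ideal.comap Φ (maximalIdeal R ^ N) ≤ Ideal.comap e I) : R →ₐ[𝒪] A ⧸ I where
  toFun := levelFun Φ hdense e I N
  map_one' := by
    rw [levelFun_eq Φ hdense e I N hN 1 1 (by simp), map_one, map_one]
  map_mul' t s := by
    obtain ⟨p, hp⟩ := hdense N t
    obtain ⟨q, hq⟩ := hdense N s
    have hpq : t * s - Φ (p * q) ∈ maximalIdeal R ^ N := by
      have e1 : t * s - Φ (p * q) = (t - Φ p) * s + Φ p * (s - Φ q) := by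
        rw [map_mul]; ring
      rw [e1]
      exact Ideal.add_mem _ (Ideal.mul_mem_right _ _ hp) (Ideal.mul_mem_left _ _ hq)
    rw [levelFun_eq Φ hdense e I N hN (t * s) (p * q) hpq, levelFun_eq Φ hdense e I N hN t p hp,
      levelFun_eq Φ hdense e I N hN s q hq, map_mul, map_mul]
  map_zero' := by
    rw [levelFun_eq Φ hdense e I N hN 0 0 (by simp), map_zero, map_zero]
  map_add' t s := by
    obtain ⟨p, hp⟩ := hdense N t
    obtain ⟨q, hq⟩ := hdense N s
    have hpq : t + s - Φ (p + q) ∈ maximalIdeal R ^ N := by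
      have e1 : t + s - Φ (p + q) = (t - Φ p) + (s - Φ q) := by
        rw [map_add]; ring
      rw [e1]
      exact Ideal.add_mem _ hp hq
    rw [levelFun_eq Φ hdense e I N hN (t + s) (p + q) hpq, levelFun_eq Φ hdense e I N hN t p hp,
      levelFun_eq Φ hdense e I N hN s q hq, map_add, map_add]
  commutes' c := by
    rw [levelFun_eq Φ hdense e I N hN (algebraMap 𝒪 R c) (algebraMap 𝒪 P c) (by simp),
      AlgHom.commutes]
    rfl

omit [IsLocalRing A] in
theorem levelHom_apply (Φ : P →ₐ[𝒪] R)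
    (hdense : ∀ (n : ℕ) (t : R), ∃ p : P, t - Φ p ∈ maximalIdeal R ^ n)
    (e : P →ₐ[𝒪] A) (I : Ideal A) (N : ℕ)
    (hN : Ideal.comap Φ (maximalIdeal R ^ N) ≤ Ideal.comap e I) (t : R) (p : P) (M : ℕ)
    (hNM : N ≤ M) (hp : t - Φ p ∈ maximalIdeal R ^ M) :
    levelHom Φ hdense e I N hN t = Ideal.Quotient.mk I (e p) :=
  levelFun_eq Φ hdense e I N hN t p (Ideal.pow_le_pow_right hNM hp)

/-- Existence of the extension, with an explicit continuity statement. -/
theorem exists_algHom_aux [IsAdicComplete (maximalIdeal A) A]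
    (Φ : P →ₐ[𝒪] R)
    (hdense : ∀ (n : ℕ) (t : R), ∃ p : P, t - Φ p ∈ maximalIdeal R ^ n)
    (e : P →ₐ[𝒪] A)
    (hcof : ∀ n : ℕ, ∃ N : ℕ,
      Ideal.comap Φ (maximalIdeal R ^ N) ≤ Ideal.comap e (maximalIdeal A ^ n)) :
    ∃ ψ : R →ₐ[𝒪] A, ψ.comp Φ = e ∧
      ∀ n : ℕ, ∃ N : ℕ, ∀ (t : R) (p : P), t - Φ p ∈ maximalIdeal R ^ N →
        ψ t - e p ∈ maximalIdeal A ^ n := by
  choose N hN using hcof
  let f : (n : ℕ) → R →ₐ[𝒪] A ⧸ maximalIdeal A ^ n := fun n =>
    levelHom Φ hdense e (maximalIdeal A ^ n) (N n) (hN n)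
  have hf : ∀ {m n : ℕ} (hle : m ≤ n),
      (Ideal.Quotient.factorₐ 𝒪 (Ideal.pow_le_pow_right hle)).comp (f n) = f m := by
    intro m n hle
    ext t
    obtain ⟨p, hp⟩ := hdense (max (N n) (N m)) t
    show Ideal.Quotient.factorₐ 𝒪 (Ideal.pow_le_pow_right hle) (f n t) = f m t
    rw [show f n t = Ideal.Quotient.mk _ (e p) from
        levelHom_apply Φ hdense e _ (N n) (hN n) t p _ (le_max_left _ _) hp,
      show f m t = Ideal.Quotient.mk _ (e p) from
        levelHom_apply Φ hdense e _ (N m) (hN m) t p _ (le_max_right _ _) hp]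
    rfl
  have key : ∀ (n : ℕ) (t : R) (p : P), t - Φ p ∈ maximalIdeal R ^ (N n) →
      IsAdicComplete.liftAlgHom (maximalIdeal A) f hf t - e p ∈ maximalIdeal A ^ n := by
    intro n t p hp
    rw [← Ideal.Quotient.eq, IsAdicComplete.mk_liftAlgHom]
    exact levelHom_apply Φ hdense e _ (N n) (hN n) t p (N n) le_rfl hp
  refine ⟨IsAdicComplete.liftAlgHom (maximalIdeal A) f hf, ?_, fun n => ⟨N n, key n⟩⟩
  apply IsAdicComplete.algHom_ext (maximalIdeal A)
  intro n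
  ext p
  show Ideal.Quotient.mk (maximalIdeal A ^ n)
      (IsAdicComplete.liftAlgHom (maximalIdeal A) f hf (Φ p)) = Ideal.Quotient.mk _ (e p)
  rw [Ideal.Quotient.eq]
  exact key n (Φ p) p (by simp)

omit [Algebra 𝒪 R] [Algebra 𝒪 A] in
/-- A ring hom between local rings mapping the maximal ideal into the maximal ideal is local. -/
theorem isLocalHom_of_map_maximalIdeal (φ : R →+* A)
    (h : ∀ t ∈ maximalIdeal R, φ t ∈ maximalIdeal A) : IsLocalHom φ := by
  refine ⟨fun a ha => ?_⟩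
  by_contra hna
  exact (IsLocalRing.notMem_maximalIdeal.mpr ha) (h a hna)

/-- A map out of a dense subalgebra which is continuous for the adic topologies extends to a
local homomorphism into a complete local ring. -/
theorem exists_algHom_of_cofinal [IsAdicComplete (maximalIdeal A) A]
    (Φ : P →ₐ[𝒪] R) (hdense : ∀ (n : ℕ) (t : R), ∃ p : P, t - Φ p ∈ maximalIdeal R ^ n)
    (e : P →ₐ[𝒪] A)
    (hcof : ∀ n : ℕ, ∃ N : ℕ,
      Ideal.comap Φ (maximalIdeal R ^ N) ≤ Ideal.comap e (maximalIdeal A ^ n))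
    (hloc : Ideal.comap Φ (maximalIdeal R) ≤ Ideal.comap e (maximalIdeal A)) :
    ∃ φ : R →ₐ[𝒪] A, φ.comp Φ = e ∧ IsLocalHom (φ : R →+* A) := by
  obtain ⟨ψ, hψ, hcont⟩ := exists_algHom_aux Φ hdense e hcof
  refine ⟨ψ, hψ, isLocalHom_of_map_maximalIdeal _ fun t ht => ?_⟩
  obtain ⟨N, hN⟩ := hcont 1
  obtain ⟨p, hp⟩ := hdense (max N 1) t
  have hp1 : t - Φ p ∈ maximalIdeal R := by
    have := Ideal.pow_le_pow_right (le_max_right N 1) hp
    rwa [pow_one] at this
  have hΦp : Φ p ∈ maximalIdeal R := by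
    have e1 : Φ p = t - (t - Φ p) := by ring
    rw [e1]
    exact Ideal.sub_mem _ ht hp1
  have hep : e p ∈ maximalIdeal A := hloc (Ideal.mem_comap.mpr hΦp)
  have h1 := hN t p (Ideal.pow_le_pow_right (le_max_left N 1) hp)
  rw [pow_one] at h1
  have e2 : ψ t = (ψ t - e p) + e p := by ring
  show ψ t ∈ maximalIdeal A
  rw [e2]
  exact Ideal.add_mem _ h1 hep

/-- Two local homomorphisms agreeing on a dense subalgebra are equal. -/
theorem algHom_ext_of_dense [IsHausdorff (maximalIdeal A) A]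
    (Φ : P →ₐ[𝒪] R) (hdense : ∀ (n : ℕ) (t : R), ∃ p : P, t - Φ p ∈ maximalIdeal R ^ n)
    (φ φ' : R →ₐ[𝒪] A) (hφ : IsLocalHom (φ : R →+* A)) (hφ' : IsLocalHom (φ' : R →+* A))
    (h : φ.comp Φ = φ'.comp Φ) : φ = φ' := by
  have hpow : ∀ (χ : R →ₐ[𝒪] A), IsLocalHom (χ : R →+* A) →
      ∀ (n : ℕ) (t : R), t ∈ maximalIdeal R ^ n → χ t ∈ maximalIdeal A ^ n := by
    intro χ hχ n t ht
    have h1 : (maximalIdeal R ^ n).map (χ : R →+* A) ≤ maximalIdeal A ^ n := by
      rw [Ideal.map_pow]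
      apply Ideal.pow_right_mono
      rw [Ideal.map_le_iff_le_comap]
      intro x hx
      exact map_nonunit (χ : R →+* A) x hx
    exact h1 (Ideal.mem_map_of_mem _ ht)
  ext t
  rw [← sub_eq_zero]
  apply IsHausdorff.haus (inferInstance : IsHausdorff (maximalIdeal A) A)
  intro n
  rw [SModEq.zero, smul_eq_mul, Ideal.mul_top]
  obtain ⟨p, hp⟩ := hdense n t
  have e1 : φ (Φ p) = φ' (Φ p) := congrArg (fun χ : P →ₐ[𝒪] A => χ p) h
  have e2 : φ t - φ' t = φ (t - Φ p) - φ' (t - Φ p) := by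
    rw [map_sub, map_sub, e1]; ring
  rw [e2]
  exact Ideal.sub_mem _ (hpow φ hφ n _ hp) (hpow φ' hφ' n _ hp)

end Fermat.Agent.S53.StageE2
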