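import Mathlib
import Fermat.Agent.S53.Defs
import Fermat.Agent.S53.Slice
import Fermat.Agent.S53.Family0
import Fermat.Agent.S53.FamilyM
import Fermat.Agent.S53.FamilyA
import Fermat.Agent.S53.FamilyB
import Fermat.Agent.S53.L6
import Fermat.Agent.S53.L8a
import Fermat.Agent.S53.L8b
import Fermat.Agent.S53.StageE0
import Fermat.Agent.S53.StageE1
import Fermat.Agent.S53.StageE2

set_option autoImplicit false

namespace Fermat.Agent.S53.StageE

open IsLocalRing Fermat.Agent.S53.H84 Fermat.Agent.S53.StageE0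

theorem nonempty_deformationRingData {𝒪 : Type} [CommRing 𝒪] [IsDomain 𝒪]
    [IsDiscreteValuationRing 𝒪] [IsAdicComplete (maximalIdeal 𝒪) 𝒪]
    [Finite (ResidueField 𝒪)]
    (ρbar : ResidualGaloisRep (ResidueField 𝒪))
    (𝒟 : ∀ ⦃A : Type⦄ [CommRing A] [IsLocalRing A] [Algebra 𝒪 A], GaloisRepAdic A → Prop)
    (habs : ρbar.IsAbsolutelyIrreducible)
    (h𝒟 : GaloisRep.IsDeformationCondition 𝒪 𝒟)
    (b : Module.Basis (Fin 2) (ResidueField 𝒪) ρbar.V) (rt : Gal → M2 𝒪) (u : Gal →₀ 𝒪)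
    (g₀ : Gal)
    (hrt : ∀ σ i j, residue 𝒪 (rt σ i j) = LinearMap.toMatrix b b (ρbar.ρ σ) i j)
    (hs : SliceData rt u g₀)
    (R : Type) [CommRing R] [IsLocalRing R] [IsNoetherianRing R]
    [IsAdicComplete (maximalIdeal R) R] [Algebra 𝒪 R] [IsLocalHom (algebraMap 𝒪 R)]
    (Φ : PRing 𝒪 →ₐ[𝒪] R)
    (hsurj : Function.Surjective (residue R ∘ algebraMap 𝒪 R))
    (hgood : ∀ n : ℕ, Good 𝒟 rt u g₀ (Ideal.comap Φ (maximalIdeal R ^ (n + 1))))
    (hdense : ∀ (n : ℕ) (t : R), ∃ p : PRing 𝒪, t - Φ p ∈ maximalIdeal R ^ n)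
    (hcof : ∀ J, Good 𝒟 rt u g₀ J → ∃ n : ℕ, Ideal.comap Φ (maximalIdeal R ^ n) ≤ J) :
    Nonempty (GaloisRep.DeformationRingData 𝒪 ρbar 𝒟) := by
  have H : ProData 𝒟 rt u g₀ R Φ := ⟨hsurj, hgood, hdense, hcof⟩
  refine ⟨{ R := R
            residue_surjective := hsurj
            absIrr := habs
            ρ := matRep H.rR H.matCont
            isOfType := H.isD h𝒟
            residual_isEquiv := L8b.matRep_residual_isEquiv ρbar b rt hrt H.rR H.matCont H.lifts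
            universal := ?_ }⟩
  intro A _ _ _ _ _ _ hAs ρA hDA hresA
  obtain ⟨r', hr', hl', hsl', heq'⟩ :=
    StageE1.exists_slice_rep ρbar b rt hrt u g₀ hs ρA hresA
  have hD' : 𝒟 (matRep r' hr') := StageE1.isD_of_isEquiv h𝒟 hAs heq' hDA
  have hgoodA := StageE1.good_comap_of_isD h𝒟 hAs r' hr' hl' hsl' hD'
  have hcofA : ∀ n : ℕ, ∃ N : ℕ, Ideal.comap Φ (maximalIdeal R ^ N) ≤
      Ideal.comap (evalP (𝒪 := 𝒪) r') (maximalIdeal A ^ n) := by
    intro n
    obtain ⟨N, hN⟩ := hcof _ (hgoodA n)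
    exact ⟨N, hN.trans (Ideal.comap_mono (Ideal.pow_le_pow_right (Nat.le_succ n)))⟩
  have hloc : Ideal.comap Φ (maximalIdeal R) ≤
      Ideal.comap (evalP (𝒪 := 𝒪) r') (maximalIdeal A) := by
    rw [H.comap_maximalIdeal]
    intro p hp
    exact (FamilyM.evalP_mem_maximalIdeal_iff hl' p).mpr hp
  obtain ⟨φ, hφΦ, hφloc⟩ :=
    StageE2.exists_algHom_of_cofinal Φ hdense (evalP (𝒪 := 𝒪) r') hcofA hloc
  have hcomp : (((φ : R →+* A).mapMatrix : M2 R →+* M2 A).toMonoidHom.comp H.rR) = r' := by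
    ext σ i j
    show φ (H.rR σ i j) = r' σ i j
    rw [H.rR_apply, ← AlgHom.comp_apply, hφΦ, evalP_X]
  refine ⟨φ, ⟨hφloc, ?_⟩, ?_⟩
  · have hc := L8a.matCont_map (φ : R →+* A) hφloc H.matCont
    exact isEquiv_trans (L8a.matRep_baseChangeAlong (φ : R →+* A) hφloc H.rR H.matCont hc)
      (isEquiv_trans (matRep_congr hcomp hc hr') (isEquiv_symm heq'))
  · rintro φ' ⟨hφ'loc, hφ'eq⟩
    have hc' := L8a.matCont_map (φ' : R →+* A) hφ'loc H.matCont
    have h1 : (matRep (((φ' : R →+* A).mapMatrix : M2 R →+* M2 A).toMonoidHom.comp H.rR)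
        hc').IsEquiv (matRep r' hr') :=
      isEquiv_trans (isEquiv_symm
        (L8a.matRep_baseChangeAlong (φ' : R →+* A) hφ'loc H.rR H.matCont hc'))
        (isEquiv_trans hφ'eq heq')
    obtain ⟨M, hM, hconj⟩ := (L8a.matRep_isEquiv_iff _ _ hc' hr').mp h1
    have hl'' := lifts_map φ' hφ'loc H.lifts
    have hsl'' := inSlice_map φ' (u := u) (g₀ := g₀) H.inSlice
    have huniq := slice_unique hs _ r' hl'' hl' hsl'' hsl' M hM hconj
    apply StageE2.algHom_ext_of_dense Φ hdense φ' φ hφ'loc hφloc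
    rw [hφΦ]
    apply MvPolynomial.algHom_ext
    rintro ⟨σ, i, j⟩
    rw [AlgHom.comp_apply, evalP_X, ← H.rR_apply]
    have h2 := congrFun (congrFun (congrArg (fun f : Gal →* M2 A => f σ) huniq) i) j
    exact h2

end Fermat.Agent.S53.StageE
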