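import Mathlib

set_option autoImplicit false
set_option linter.style.haveILetI false

namespace Fermat.Agent.S53.H33

open MvPowerSeries

section
variable {𝒪 B : Type} [CommRing 𝒪] [CommRing B] [Algebra 𝒪 B] {d : ℕ}

theorem hasEval_of_isNilpotent [TopologicalSpace B] [DiscreteTopology B] (b : Fin d → B)
    (hb : ∀ i, IsNilpotent (b i)) : MvPowerSeries.HasEval b where
  hpow i := by
    obtain ⟨n, hn⟩ := hb i
    unfold IsTopologicallyNilpotent
    apply tendsto_atTop_of_eventually_const (i₀ := n)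
    intro m hm
    obtain ⟨k, rfl⟩ := Nat.exists_eq_add_of_le hm
    rw [pow_add, hn, zero_mul]
  tendsto_zero := by
    rw [Filter.cofinite_eq_bot]
    exact Filter.tendsto_bot

/-- Evaluation of power series in finitely many variables at nilpotent elements. -/
noncomputable def evalNilp (b : Fin d → B) (hb : ∀ i, IsNilpotent (b i)) :
    MvPowerSeries (Fin d) 𝒪 →ₐ[𝒪] B :=
  letI : UniformSpace 𝒪 := ⊥
  letI : UniformSpace B := ⊥
  haveI : DiscreteTopology 𝒪 := ⟨rfl⟩
  haveI : DiscreteTopology B := ⟨rfl⟩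
  haveI : ContinuousSMul 𝒪 B := ⟨continuous_of_discreteTopology⟩
  MvPowerSeries.aeval (hasEval_of_isNilpotent b hb)

theorem evalNilp_coe (b : Fin d → B) (hb : ∀ i, IsNilpotent (b i))
    (p : MvPolynomial (Fin d) 𝒪) :
    evalNilp b hb (p : MvPowerSeries (Fin d) 𝒪) = MvPolynomial.aeval b p := by
  letI : UniformSpace 𝒪 := ⊥
  letI : UniformSpace B := ⊥
  haveI : DiscreteTopology 𝒪 := ⟨rfl⟩
  haveI : DiscreteTopology B := ⟨rfl⟩
  haveI : ContinuousSMul 𝒪 B := ⟨continuous_of_discreteTopology⟩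
  exact MvPowerSeries.aeval_coe (hasEval_of_isNilpotent b hb) p

theorem evalNilp_X (b : Fin d → B) (hb : ∀ i, IsNilpotent (b i)) (i : Fin d) :
    evalNilp b hb (MvPowerSeries.X i : MvPowerSeries (Fin d) 𝒪) = b i := by
  rw [← MvPolynomial.coe_X, evalNilp_coe, MvPolynomial.aeval_X]

theorem evalNilp_comp {B' : Type} [CommRing B'] [Algebra 𝒪 B'] (b : Fin d → B)
    (hb : ∀ i, IsNilpotent (b i)) (ψ : B →ₐ[𝒪] B') :
    ψ.comp (evalNilp b hb) = evalNilp (fun i => ψ (b i)) (fun i => (hb i).map ψ) := by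
  letI : UniformSpace 𝒪 := ⊥
  letI : UniformSpace B := ⊥
  letI : UniformSpace B' := ⊥
  haveI : DiscreteTopology 𝒪 := ⟨rfl⟩
  haveI : DiscreteTopology B := ⟨rfl⟩
  haveI : DiscreteTopology B' := ⟨rfl⟩
  haveI : ContinuousSMul 𝒪 B := ⟨continuous_of_discreteTopology⟩
  haveI : ContinuousSMul 𝒪 B' := ⟨continuous_of_discreteTopology⟩
  exact MvPowerSeries.comp_aeval (hasEval_of_isNilpotent b hb) (ε := ψ)
    continuous_of_discreteTopology

theorem evalNilp_comp_apply {B' : Type} [CommRing B'] [Algebra 𝒪 B'] (b : Fin d → B)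
    (hb : ∀ i, IsNilpotent (b i)) (ψ : B →ₐ[𝒪] B') (f : MvPowerSeries (Fin d) 𝒪) :
    ψ (evalNilp b hb f) = evalNilp (fun i => ψ (b i)) (fun i => (hb i).map ψ) f := by
  rw [← evalNilp_comp b hb ψ]
  rfl

theorem evalNilp_congr {b b' : Fin d → B} (hb : ∀ i, IsNilpotent (b i)) (h : b = b') :
    (evalNilp b hb : MvPowerSeries (Fin d) 𝒪 →ₐ[𝒪] B) = evalNilp b' (fun i => h ▸ hb i) := by
  subst h
  rfl

theorem evalNilp_surjective (b : Fin d → B) (hb : ∀ i, IsNilpotent (b i))
    (h : Function.Surjective (MvPolynomial.aeval b : MvPolynomial (Fin d) 𝒪 →ₐ[𝒪] B)) :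
    Function.Surjective (evalNilp b hb : MvPowerSeries (Fin d) 𝒪 →ₐ[𝒪] B) := by
  intro y
  obtain ⟨p, rfl⟩ := h y
  exact ⟨p, evalNilp_coe b hb p⟩

/-- Existence form. -/
theorem exists_eval (b : Fin d → B) (hb : ∀ i, IsNilpotent (b i)) :
    ∃ φ : MvPowerSeries (Fin d) 𝒪 →ₐ[𝒪] B,
      (∀ p : MvPolynomial (Fin d) 𝒪, φ p = MvPolynomial.aeval b p) ∧
      ∀ i, φ (MvPowerSeries.X i) = b i :=
  ⟨evalNilp b hb, evalNilp_coe b hb, evalNilp_X b hb⟩

end

section localfacts

/-- A surjective ring hom between local rings pulls the maximal ideal back to the maximal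
ideal. -/
theorem comap_maximalIdeal_of_surjective {S B : Type} [CommRing S] [CommRing B] [IsLocalRing S]
    [IsLocalRing B] (φ : S →+* B) (hφ : Function.Surjective φ) :
    (IsLocalRing.maximalIdeal B).comap φ = IsLocalRing.maximalIdeal S :=
  IsLocalRing.eq_maximalIdeal (Ideal.comap_isMaximal_of_surjective φ hφ)

theorem map_maximalIdeal_of_surjective {S B : Type} [CommRing S] [CommRing B] [IsLocalRing S]
    [IsLocalRing B] (φ : S →+* B) (hφ : Function.Surjective φ) :
    (IsLocalRing.maximalIdeal S).map φ = IsLocalRing.maximalIdeal B := by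
  rw [← comap_maximalIdeal_of_surjective φ hφ, Ideal.map_comap_of_surjective φ hφ]

theorem map_maximalIdeal_pow_of_surjective {S B : Type} [CommRing S] [CommRing B]
    [IsLocalRing S] [IsLocalRing B] (φ : S →+* B) (hφ : Function.Surjective φ) (n : ℕ) :
    (IsLocalRing.maximalIdeal S ^ n).map φ = IsLocalRing.maximalIdeal B ^ n := by
  rw [Ideal.map_pow, map_maximalIdeal_of_surjective φ hφ]

theorem isLocalHom_of_surjective {S B : Type} [CommRing S] [CommRing B] [IsLocalRing S]
    [IsLocalRing B] (φ : S →+* B) (hφ : Function.Surjective φ) : IsLocalHom φ := by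
  constructor
  intro a ha
  by_contra hna
  have h1 : a ∈ IsLocalRing.maximalIdeal S := hna
  rw [← comap_maximalIdeal_of_surjective φ hφ] at h1
  exact h1 ha

/-- For a surjection of local rings, the preimage of `𝔪_B ^ n` is `ker ⊔ 𝔪_S ^ n`. -/
theorem comap_maximalIdeal_pow_of_surjective {S B : Type} [CommRing S] [CommRing B]
    [IsLocalRing S] [IsLocalRing B] (φ : S →+* B) (hφ : Function.Surjective φ) (n : ℕ) :
    (IsLocalRing.maximalIdeal B ^ n).comap φ = RingHom.ker φ ⊔ IsLocalRing.maximalIdeal S ^ n := by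
  rw [← map_maximalIdeal_pow_of_surjective φ hφ n, Ideal.comap_map_of_surjective φ hφ,
    sup_comm]
  rfl

end localfacts

end Fermat.Agent.S53.H33
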