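import Mathlib

set_option autoImplicit false

namespace Fermat.Agent.S53.H33

section lift

variable {S : Type} [CommRing S]

theorem smodEq_pow_iff (m : Ideal S) (n : ℕ) (x y : S) :
    x ≡ y [SMOD (m ^ n • ⊤ : Submodule S S)] ↔ x - y ∈ m ^ n := by
  rw [SModEq.sub_mem, smul_eq_mul, Ideal.mul_top]

/-- Precompleteness, in ideal-membership form. -/
theorem exists_limit_of_precomplete (m : Ideal S) [IsPrecomplete m S] (t : ℕ → S)
    (ht : ∀ n, t (n + 1) - t n ∈ m ^ n) : ∃ s : S, ∀ n, s - t n ∈ m ^ n := by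
  have hmono : ∀ {a b : ℕ}, a ≤ b → t a ≡ t b [SMOD (m ^ a • ⊤ : Submodule S S)] := by
    intro a b hab
    rw [smodEq_pow_iff]
    induction b, hab using Nat.le_induction with
    | base => simp
    | succ b hab ih =>
      have h1 : t (b + 1) - t b ∈ m ^ a := Ideal.pow_le_pow_right hab (ht b)
      have h2 : t a - t (b + 1) = (t a - t b) - (t (b + 1) - t b) := by ring
      rw [h2]
      exact Ideal.sub_mem _ ih h1
  obtain ⟨L, hL⟩ := IsPrecomplete.prec (inferInstance : IsPrecomplete m S) hmono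
  refine ⟨L, fun n => ?_⟩
  have h := hL n
  rw [smodEq_pow_iff] at h
  have h2 : L - t n = -(t n - L) := by ring
  rw [h2]
  exact Ideal.neg_mem_iff _ |>.mpr h

/-- Compatible-lift lemma: if `K n = K (n+1) ⊔ m ^ n` and `a` is a sequence whose classes in
`S ⧸ K n` are compatible, then `a` has a common lift. -/
theorem exists_forall_sub_mem (m : Ideal S) [IsPrecomplete m S]
    (K : ℕ → Ideal S) (hK : ∀ n, K n = K (n + 1) ⊔ m ^ n)
    (a : ℕ → S) (ha : ∀ n, a (n + 1) - a n ∈ K n) :
    ∃ s : S, ∀ n, s - a n ∈ K n := by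
  have hmK : ∀ n, m ^ n ≤ K n := fun n => by rw [hK n]; exact le_sup_right
  have step : ∀ (n : ℕ) (t : S), ∃ t' : S, t - a n ∈ K n →
      (t' - a (n + 1) ∈ K (n + 1) ∧ t' - t ∈ m ^ n) := by
    intro n t
    by_cases h : t - a n ∈ K n
    · have h1 : a (n + 1) - t ∈ K n := by
        have : a (n + 1) - t = (a (n + 1) - a n) - (t - a n) := by ring
        rw [this]
        exact Ideal.sub_mem _ (ha n) h
      rw [hK n] at h1
      obtain ⟨κ, hκ, μ, hμ, hsum⟩ := Submodule.mem_sup.mp h1
      refine ⟨a (n + 1) - κ, fun _ => ⟨?_, ?_⟩⟩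
      · have : a (n + 1) - κ - a (n + 1) = -κ := by ring
        rw [this]
        exact (Ideal.neg_mem_iff _).mpr hκ
      · have : a (n + 1) - κ - t = μ := by
          have h3 : a (n + 1) - t = κ + μ := hsum.symm
          linear_combination h3
        rw [this]
        exact hμ
    · exact ⟨0, fun h' => absurd h' h⟩
  choose F hF using step
  let t : ℕ → S := fun n => Nat.rec (a 0) (fun k tk => F k tk) n
  have ht0 : t 0 = a 0 := rfl
  have htsucc : ∀ n, t (n + 1) = F n (t n) := fun n => rfl
  have htK : ∀ n, t n - a n ∈ K n := by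
    intro n
    induction n with
    | zero => rw [ht0, sub_self]; exact Ideal.zero_mem _
    | succ n ih => rw [htsucc]; exact (hF n (t n) ih).1
  have htm : ∀ n, t (n + 1) - t n ∈ m ^ n := fun n => by
    rw [htsucc]; exact (hF n (t n) (htK n)).2
  obtain ⟨s, hs⟩ := exists_limit_of_precomplete m t htm
  refine ⟨s, fun n => ?_⟩
  have : s - a n = (s - t n) + (t n - a n) := by ring
  rw [this]
  exact Ideal.add_mem _ (hmK n (hs n)) (htK n)

/-- Variant with target classes: a family of elements `c n : S ⧸ K n`, compatible under the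
projections, is the image of a single element. -/
theorem exists_mk_eq (m : Ideal S) [IsPrecomplete m S]
    (K : ℕ → Ideal S) (hK : ∀ n, K n = K (n + 1) ⊔ m ^ n)
    (c : ∀ n, S ⧸ K n)
    (hc : ∀ n, Ideal.Quotient.factor (show K (n + 1) ≤ K n by rw [hK n]; exact le_sup_left)
      (c (n + 1)) = c n) :
    ∃ s : S, ∀ n, Ideal.Quotient.mk (K n) s = c n := by
  choose a ha using fun n => Ideal.Quotient.mk_surjective (c n)
  have hcompat : ∀ n, a (n + 1) - a n ∈ K n := by
    intro n
    rw [← Ideal.Quotient.eq, ha n, ← hc n, ← ha (n + 1)]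
    rfl
  obtain ⟨s, hs⟩ := exists_forall_sub_mem m K hK a hcompat
  exact ⟨s, fun n => by rw [← ha n]; exact Ideal.Quotient.eq.mpr (hs n)⟩

end lift

end Fermat.Agent.S53.H33
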